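import Fermat.Agent.H32.EsAField

/-!
# P-ES / ES-A/MF (helper32): field-theoretic core, simple-extension form

`k ⊆ L ⊆ E` fields, `j ∈ L` with `[L : k(j)] = n`, `A` a `k`-subalgebra of `E` whose elements
satisfy monic relations of degree `n` with coefficients in `k[j]`, `L ⊆ Frac A`.  Then `A ⊆ L`.
-/

namespace Fermat.Agent.H32

open IntermediateField Polynomial

theorem subalgebra_le_range_of_simple (k : Type*) {L E : Type*} [Field k] [Infinite k]
    [CharZero k] [Field L] [Field E] [Algebra k L] [Algebra L E] [Algebra k E]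
    [IsScalarTower k L E] (j : L) (n : ℕ) (hfd : FiniteDimensional k⟮j⟯ L)
    (hn : Module.finrank k⟮j⟯ L = n) (A : Subalgebra k E)
    (hA : ∀ a ∈ A, ∃ P : ℕ → Polynomial k, P n = 1 ∧
        ∑ i ∈ Finset.range (n + 1), Polynomial.aeval (algebraMap L E j) (P i) * a ^ i = 0)
    (hfrac : ∀ l : L, ∃ r ∈ A, ∃ s ∈ A, s ≠ 0 ∧ algebraMap L E l * s = r) :
    ∀ x ∈ A, ∃ l : L, algebraMap L E l = x := by
  classical
  have : CharZero ↥k⟮j⟯ :=
    charZero_of_injective_algebraMap (algebraMap k ↥k⟮j⟯).injective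
  let φ : L →ₐ[↥k⟮j⟯] E := IsScalarTower.toAlgHom ↥k⟮j⟯ L E
  let L' : IntermediateField ↥k⟮j⟯ E := φ.fieldRange
  have e : L ≃ₐ[↥k⟮j⟯] ↥L' := φ.equivFieldRange
  have : FiniteDimensional ↥k⟮j⟯ ↥L' := Module.Finite.equiv e.toLinearEquiv
  have hL' : Module.finrank ↥k⟮j⟯ ↥L' = n := by
    rw [← hn]
    exact e.toLinearEquiv.finrank_eq.symm
  let jF : ↥k⟮j⟯ := ⟨j, mem_adjoin_simple_self k j⟩
  have hjF : algebraMap ↥k⟮j⟯ E jF = algebraMap L E j := rfl
  have hA' : ∀ a ∈ A, IsIntegral ↥k⟮j⟯ a ∧ (minpoly ↥k⟮j⟯ a).natDegree ≤ n := by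
    intro a ha
    obtain ⟨P, hPn, hP⟩ := hA a ha
    set p : Polynomial ↥k⟮j⟯ :=
      ∑ i ∈ Finset.range (n + 1), Polynomial.C (Polynomial.aeval jF (P i)) * Polynomial.X ^ i
      with hp
    have hpdeg : p.natDegree ≤ n := by
      refine Polynomial.natDegree_sum_le_of_forall_le _ _ fun i hi => ?_
      exact (Polynomial.natDegree_C_mul_X_pow_le _ _).trans
        (Nat.lt_succ_iff.mp (Finset.mem_range.mp hi))
    have hpcoeff : p.coeff n = 1 := by
      rw [hp, Polynomial.finsetSum_coeff]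
      rw [Finset.sum_eq_single n]
      · rw [Polynomial.coeff_C_mul_X_pow, if_pos rfl, hPn, map_one]
      · intro i _ hin
        rw [Polynomial.coeff_C_mul_X_pow, if_neg (Ne.symm hin)]
      · intro hn'
        exact absurd (Finset.mem_range.mpr (Nat.lt_succ_self n)) hn'
    have hp0 : p ≠ 0 := by
      intro h0
      rw [h0, Polynomial.coeff_zero] at hpcoeff
      exact zero_ne_one hpcoeff
    have hpa : Polynomial.aeval a p = 0 := by
      rw [hp, map_sum, ← hP]
      refine Finset.sum_congr rfl fun i _ => ?_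
      rw [map_mul, Polynomial.aeval_C, map_pow, Polynomial.aeval_X,
        ← Polynomial.aeval_algebraMap_apply, hjF]
    have hint : IsIntegral ↥k⟮j⟯ a := by
      rw [← isAlgebraic_iff_isIntegral]
      exact ⟨p, hp0, hpa⟩
    refine ⟨hint, ?_⟩
    exact (Polynomial.natDegree_le_of_dvd (minpoly.dvd _ a hpa) hp0).trans hpdeg
  have hfrac' : ∀ l ∈ L', ∃ r ∈ A, ∃ s ∈ A, s ≠ 0 ∧ l * s = r := by
    intro l hl
    obtain ⟨l0, rfl⟩ := AlgHom.mem_fieldRange.mp hl
    exact hfrac l0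
  intro x hx
  have hxL := subalgebra_le_of_degree_bound k ↥k⟮j⟯ A L' n hL' hA' hfrac' x hx
  obtain ⟨l0, hl0⟩ := AlgHom.mem_fieldRange.mp hxL
  exact ⟨l0, hl0⟩

end Fermat.Agent.H32
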