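import Fermat.Agent.H94.EsA.Interfaces
import Fermat.Agent.H23.EsA.Parts
import Fermat.Agent.H85.Gen16Coset
import Fermat.Agent.H44.Gen11.Core
import Fermat.Agent.H32.EsAField2

/-!
# P-ES / ES-A/MF (helper32): modular functions of level `N` lie in the function field

`modularFunction : CoreCStatement N → RsubRepStatement N → DegreeCStatement N →
  H94.EsA.ModularFunctionStatement N` and the `H23` shape `holModular`.

Route: the `q`-expansions of the holomorphic `Γ₀(N)`-invariant functions of moderate growth form a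
`ℂ`-subalgebra `A` of `ℂ((q))`; each element satisfies a monic relation of degree
`μ = [SL(2,ℤ) : Γ₀(N)]` over `ℂ[j]` (coset product polynomial); the function field `FC N` has
degree `μ` over `ℂ(j)` and is contained in the fraction field of `A`; primitive elements with a
scalar in `ℂ` give `A ⊆ FC N`.
-/

set_option autoImplicit false

noncomputable section

open UpperHalfPlane IntermediateField
open scoped MatrixGroups Manifold Topology

namespace Fermat.Agent.H32

open Fermat.Agent.H44 Fermat.Agent.H85 Fermat.Agent.H23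

/-- Holomorphic `Γ₀(N)`-invariant functions all of whose translates have exponential growth. -/
def MFClass (N : ℕ) (h : ℍ → ℂ) : Prop :=
  MDiff h ∧ (∀ β ∈ CongruenceSubgroup.Gamma0 N, ∀ z : ℍ, h (β • z) = h z) ∧
    ∀ γ : SL(2, ℤ), ExpGrowth (fun z => h (γ • z))

theorem MFClass.add {N : ℕ} {h h' : ℍ → ℂ} (H : MFClass N h) (H' : MFClass N h') :
    MFClass N (h + h') :=
  ⟨H.1.add H'.1, fun β hβ z => by
      rw [Pi.add_apply, Pi.add_apply, H.2.1 β hβ z, H'.2.1 β hβ z],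
    fun γ => (H.2.2 γ).add (H'.2.2 γ)⟩

theorem MFClass.mul {N : ℕ} {h h' : ℍ → ℂ} (H : MFClass N h) (H' : MFClass N h') :
    MFClass N (h * h') :=
  ⟨H.1.mul H'.1, fun β hβ z => by
      rw [Pi.mul_apply, Pi.mul_apply, H.2.1 β hβ z, H'.2.1 β hβ z],
    fun γ => (H.2.2 γ).mul (H'.2.2 γ)⟩

theorem mfClass_const (N : ℕ) (c : ℂ) : MFClass N (fun _ => c) :=
  ⟨mdifferentiable_const, fun _ _ _ => rfl, fun _ => expGrowth_const c⟩

/-- `T ∈ Γ₀(N)`. -/
theorem T_mem_Gamma0 (N : ℕ) : ModularGroup.T ∈ CongruenceSubgroup.Gamma0 N := by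
  rw [CongruenceSubgroup.Gamma0_mem]
  simp [ModularGroup.T]

/-- A `T`-invariant function is `1`-periodic. -/
theorem periodic_of_T_invariant {h : ℍ → ℂ} (hT : ∀ z : ℍ, h (ModularGroup.T • z) = h z) :
    Function.Periodic (h ∘ UpperHalfPlane.ofComplex) ((1 : ℝ) : ℂ) := by
  intro w
  by_cases hw : 0 < w.im
  · have hw' : 0 < (w + ((1 : ℝ) : ℂ)).im := by simpa using hw
    simp only [Function.comp_apply]
    have e : ofComplex (w + ((1 : ℝ) : ℂ)) = ModularGroup.T • ofComplex w := by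
      apply UpperHalfPlane.ext
      rw [UpperHalfPlane.modular_T_smul, UpperHalfPlane.coe_vadd,
        ofComplex_apply_of_im_pos hw, ofComplex_apply_of_im_pos hw']
      simp [add_comm]
    rw [e, hT]
  · have hw1 : w.im ≤ 0 := not_lt.mp hw
    have hw' : (w + ((1 : ℝ) : ℂ)).im ≤ 0 := by simpa using hw1
    simp only [Function.comp_apply, ofComplex_apply_of_im_nonpos hw1,
      ofComplex_apply_of_im_nonpos hw']

theorem norm_qqFn (z : ℍ) : ‖qqFn z‖ = Real.exp (-(2 * Real.pi * z.im)) := by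
  unfold qqFn
  rw [Function.Periodic.norm_qParam]
  congr 1
  simp

/-- **Lemma B**: a holomorphic `1`-periodic function of exponential growth has a Laurent
`q`-expansion. -/
theorem exists_laurentRel_of_T_invariant {h : ℍ → ℂ} (hmd : MDiff h)
    (hT : ∀ z : ℍ, h (ModularGroup.T • z) = h z) (hgr : ExpGrowth h) :
    ∃ x : LaurentSeries ℂ, LaurentRel h x := by
  obtain ⟨M, C, Y, hC, hb⟩ := hgr
  have hper := periodic_of_T_invariant hT
  have hnice : IsNiceFn (qqFn ^ M * h) := by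
    refine ⟨fun w => ?_, (isNiceFn_qqFn.pow M).2.1.mul hmd, ?_⟩
    · have h1 := (isNiceFn_qqFn.pow M).1 w
      have h2 := hper w
      simp only [Function.comp_apply, Pi.mul_apply] at h1 h2 ⊢
      rw [h1, h2]
    · rw [UpperHalfPlane.isBoundedAtImInfty_iff]
      refine ⟨C, Y, fun z hz => ?_⟩
      rw [Pi.mul_apply, Pi.pow_apply, norm_mul, norm_pow, norm_qqFn]
      have h1 := hb z hz
      have h2 : Real.exp (-(2 * Real.pi * z.im)) ^ M * Real.exp (2 * Real.pi * M * z.im) = 1 := by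
        rw [← Real.exp_nat_mul, ← Real.exp_add]
        have : (M : ℝ) * -(2 * Real.pi * z.im) + 2 * Real.pi * M * z.im = 0 := by ring
        rw [this, Real.exp_zero]
      calc Real.exp (-(2 * Real.pi * z.im)) ^ M * ‖h z‖
          ≤ Real.exp (-(2 * Real.pi * z.im)) ^ M * (C * Real.exp (2 * Real.pi * M * z.im)) :=
            mul_le_mul_of_nonneg_left h1 (pow_nonneg (Real.exp_pos _).le _)
        _ = C * (Real.exp (-(2 * Real.pi * z.im)) ^ M * Real.exp (2 * Real.pi * M * z.im)) := by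
            ring
        _ = C := by rw [h2, mul_one]
  refine ⟨HahnSeries.single (-(M : ℤ)) (1 : ℂ) *
    HahnSeries.ofPowerSeries ℤ ℂ (qExpansion 1 (qqFn ^ M * h)), M, hnice, ?_⟩
  rw [← mul_assoc, HahnSeries.single_mul_single, add_neg_cancel, one_mul]
  simp

theorem laurentRel_pow {h : ℍ → ℂ} {x : LaurentSeries ℂ} (H : LaurentRel h x) (n : ℕ) :
    LaurentRel (h ^ n) (x ^ n) := by
  induction n with
  | zero => simpa using laurentRel_one
  | succ n ih => rw [pow_succ, pow_succ]; exact ih.mul H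

/-- The structure map of `ℂ((q))` is `HahnSeries.C`. -/
theorem algebraMap_laurent_eq_C (c : ℂ) :
    algebraMap ℂ (LaurentSeries ℂ) c = HahnSeries.C c := by
  rw [ModularCurve.algebraMap_laurentSeries_eq_single]
  rfl

/-- Polynomials transfer along `LaurentRel`. -/
theorem laurentRel_aeval {f : ℍ → ℂ} {y : LaurentSeries ℂ} (H : LaurentRel f y)
    (P : Polynomial ℂ) : LaurentRel (fun z => P.eval (f z)) (Polynomial.aeval y P) := by
  have e1 : (fun z => P.eval (f z))
      = ∑ i ∈ Finset.range (P.natDegree + 1), (fun _ => P.coeff i) * f ^ i := by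
    funext z
    rw [Polynomial.eval_eq_sum_range, Finset.sum_apply]
    rfl
  rw [e1, Polynomial.aeval_eq_sum_range]
  refine LaurentRel.sum _ fun i _ => ?_
  rw [Algebra.smul_def, algebraMap_laurent_eq_C]
  exact (laurentRel_const (P.coeff i)).mul (laurentRel_pow H i)

/-- **Lemma C**: the series of a function of class `MFClass N` satisfies a monic relation of
degree `μ` over `ℂ[j]`. -/
theorem mfClass_series_relation {N : ℕ} [NeZero N] {h : ℍ → ℂ} {a jE : LaurentSeries ℂ}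
    (hj : LaurentRel jfun jE) (hcl : MFClass N h) (ha : LaurentRel h a) :
    ∃ P : ℕ → Polynomial ℂ, P (Nat.card (SL(2, ℤ) ⧸ CongruenceSubgroup.Gamma0 N)) = 1 ∧
      ∑ i ∈ Finset.range (Nat.card (SL(2, ℤ) ⧸ CongruenceSubgroup.Gamma0 N) + 1),
        Polynomial.aeval jE (P i) * a ^ i = 0 := by
  obtain ⟨P, hPμ, hP⟩ := exists_poly_relation (Γ := CongruenceSubgroup.Gamma0 N)
    hcl.1 hcl.2.1 hcl.2.2
  refine ⟨P, hPμ, ?_⟩
  have h1 : LaurentRel
      (∑ i ∈ Finset.range (Nat.card (SL(2, ℤ) ⧸ CongruenceSubgroup.Gamma0 N) + 1),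
        (fun z => (P i).eval (jfun z)) * h ^ i)
      (∑ i ∈ Finset.range (Nat.card (SL(2, ℤ) ⧸ CongruenceSubgroup.Gamma0 N) + 1),
        Polynomial.aeval jE (P i) * a ^ i) :=
    LaurentRel.sum _ fun i _ => (laurentRel_aeval hj (P i)).mul (laurentRel_pow ha i)
  have h0 : (∑ i ∈ Finset.range (Nat.card (SL(2, ℤ) ⧸ CongruenceSubgroup.Gamma0 N) + 1),
        (fun z => (P i).eval (jfun z)) * h ^ i) = 0 := by
    funext z
    rw [Finset.sum_apply, Pi.zero_apply, ← hP z]
    rfl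
  rw [h0] at h1
  exact (h1.unique_right laurentRel_zero)

/-- The `ℂ`-subalgebra of `ℂ((q))` of `q`-expansions of functions of class `MFClass N`. -/
def mfSubalgebra (N : ℕ) : Subalgebra ℂ (LaurentSeries ℂ) where
  carrier := {y | ∃ h : ℍ → ℂ, MFClass N h ∧ LaurentRel h y}
  mul_mem' := by
    rintro a b ⟨h, hh, ha⟩ ⟨h', hh', hb⟩
    exact ⟨h * h', hh.mul hh', ha.mul hb⟩
  add_mem' := by
    rintro a b ⟨h, hh, ha⟩ ⟨h', hh', hb⟩
    exact ⟨h + h', hh.add hh', ha.add hb⟩
  algebraMap_mem' := fun c => ⟨fun _ => c, mfClass_const N c, by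
    rw [algebraMap_laurent_eq_C]
    exact laurentRel_const c⟩

theorem mem_mfSubalgebra {N : ℕ} {y : LaurentSeries ℂ} :
    y ∈ mfSubalgebra N ↔ ∃ h : ℍ → ℂ, MFClass N h ∧ LaurentRel h y := Iff.rfl

theorem expGrowth_of_bound {f : ℍ → ℂ} (H : ∃ (M : ℕ) (C Y : ℝ), ∀ z : ℍ, Y ≤ z.im →
    ‖f z‖ ≤ C * Real.exp (2 * Real.pi * M * z.im)) : ExpGrowth f := by
  obtain ⟨M, C, Y, hb⟩ := H
  refine ⟨M, max C 0, Y, le_max_right _ _, fun z hz => (hb z hz).trans ?_⟩
  exact mul_le_mul_of_nonneg_right (le_max_left _ _) (Real.exp_pos _).le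

/-- The analytic `j` is represented by `jC N 1`. -/
theorem laurentRel_jfun_jC (N : ℕ) [NeZero N] (hCore : EsA.CoreCStatement N) :
    LaurentRel jfun ((EsA.jC N 1 (one_dvd N) : ↥(EsA.FC N)) : LaurentSeries ℂ) := by
  have h1 := hCore.1 1 inferInstance (one_dvd N)
  have e : (fun z => jfun (scaleH 1 z)) = jfun := by
    funext z
    congr 1
    apply UpperHalfPlane.ext
    simp [scaleH]
  unfold EsA.Rep at h1
  rwa [e] at h1

/-- **ES-A/MF** in helper23's shape. -/
theorem holModular (N : ℕ) [NeZero N] (hCore : EsA.CoreCStatement N)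
    (hRep : EsA.RsubRepStatement N) (hDeg : EsA.DegreeCStatement N) :
    EsA.HolModularStatement N := by
  intro h hmd hinv hgr
  have hcl : MFClass N h := ⟨hmd, hinv, fun γ => expGrowth_of_bound (hgr γ)⟩
  have hgr1 : ExpGrowth h := by
    have := hcl.2.2 1
    simpa using this
  obtain ⟨x, hx⟩ := exists_laurentRel_of_T_invariant hmd
    (fun z => hinv _ (T_mem_Gamma0 N) z) hgr1
  have hj := laurentRel_jfun_jC N hCore
  have hA : ∀ a ∈ mfSubalgebra N, ∃ P : ℕ → Polynomial ℂ,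
      P (Nat.card (SL(2, ℤ) ⧸ CongruenceSubgroup.Gamma0 N)) = 1 ∧
      ∑ i ∈ Finset.range (Nat.card (SL(2, ℤ) ⧸ CongruenceSubgroup.Gamma0 N) + 1),
        Polynomial.aeval (algebraMap ↥(EsA.FC N) (LaurentSeries ℂ) (EsA.jC N 1 (one_dvd N)))
          (P i) * a ^ i = 0 := by
    rintro a ⟨h', hh', ha⟩
    exact mfClass_series_relation hj hh' ha
  have hfrac : ∀ l : ↥(EsA.FC N), ∃ r ∈ mfSubalgebra N, ∃ s ∈ mfSubalgebra N,
      s ≠ 0 ∧ algebraMap ↥(EsA.FC N) (LaurentSeries ℂ) l * s = r := by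
    intro l
    obtain ⟨r, s, hr, hs, hs0, hrs⟩ := hCore.2 l
    obtain ⟨hr', hr1, hr2, hr3, hr4⟩ := hRep r hr
    obtain ⟨hs', hs1, hs2, hs3, hs4⟩ := hRep s hs
    refine ⟨(r : LaurentSeries ℂ), ⟨hr', ⟨hr2, hr3, fun γ => expGrowth_of_bound (hr4 γ)⟩, hr1⟩,
      (s : LaurentSeries ℂ), ⟨hs', ⟨hs2, hs3, fun γ => expGrowth_of_bound (hs4 γ)⟩, hs1⟩, ?_, ?_⟩
    · intro h0
      exact hs0 (Subtype.ext h0)
    · rw [← hrs]
      rfl
  obtain ⟨l, hl⟩ := subalgebra_le_range_of_simple ℂ (L := ↥(EsA.FC N)) (E := LaurentSeries ℂ)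
    (EsA.jC N 1 (one_dvd N)) (Nat.card (SL(2, ℤ) ⧸ CongruenceSubgroup.Gamma0 N))
    hDeg.2.1 hDeg.2.2 (mfSubalgebra N) hA hfrac x ⟨h, hcl, hx⟩
  refine ⟨l, ?_⟩
  unfold EsA.Rep
  have e : ((l : ↥(EsA.FC N)) : LaurentSeries ℂ) = x := hl
  rw [e]
  exact hx

/-- **ES-A/MF** in helper94's shape. -/
theorem modularFunction (N : ℕ) [NeZero N] (hCore : EsA.CoreCStatement N)
    (hRep : EsA.RsubRepStatement N) (hDeg : EsA.DegreeCStatement N) :
    Fermat.Agent.H94.EsA.ModularFunctionStatement N := by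
  intro h hmd hinv hgr
  obtain ⟨f, hf⟩ := holModular N hCore hRep hDeg h hmd (fun β hβ z => hinv ⟨β, hβ⟩ z)
    (fun γ => by
      obtain ⟨M, C, Y, -, hb⟩ := hgr γ
      exact ⟨M, C, Y, hb⟩)
  exact ⟨f, hf⟩

end Fermat.Agent.H32

end
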