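import Mathlib
import Fermat.Prelude.Def_ModularCurve_IgusaScheme
import Fermat.Prelude.Def_ModularCurve_X0ModL
import Fermat.Agent.H27.Igusa.Defs
import Fermat.Agent.H67.IgusaTransfer

/-!
# Modular relations over `ℚ((q))` from formal Hecke data over `ℂ`

From `HasHeckeData ℂ` we extract, for every prime `p`, a polynomial `Φ ∈ ℤ[X][Y]`, monic of
degree `p + 1` in `Y`, with `Φ(j(q^m), j(q^{mp})) = 0` and `Φ(j(q^{mp}), j(q^m)) = 0` in `ℚ((q))`
for every `m ≥ 1`.
-/

set_option autoImplicit false

noncomputable section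

open ModularCurve ModularCurve.IgusaScheme Fermat.Agent.H27

namespace Fermat.Agent.H32

/-- `qExpand` commutes with `evalAt`. -/
theorem qExpand_comp_evalAt {k : Type*} [CommRing k] (n : ℕ) [NeZero n] (x : LaurentSeries k) :
    (qExpand k n).comp (evalAt x) = evalAt (qExpand k n x) := by
  apply Polynomial.ringHom_ext
  · intro a
    simp [evalAt]
  · simp [evalAt]

theorem qExpand_eval_map_evalAt {k : Type*} [CommRing k] (n : ℕ) [NeZero n]
    (P : Polynomial (Polynomial ℤ)) (x y : LaurentSeries k) :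
    qExpand k n ((P.map (evalAt x)).eval y) =
      (P.map (evalAt (qExpand k n x))).eval (qExpand k n y) := by
  rw [← Polynomial.eval_map_apply, Polynomial.map_map, qExpand_comp_evalAt]

theorem coeffMap_eval_map_evalAt {R S : Type*} [CommRing R] [CommRing S] (f : R →+* S)
    (P : Polynomial (Polynomial ℤ)) (x y : LaurentSeries R) :
    coeffMap f ((P.map (evalAt x)).eval y) =
      (P.map (evalAt (coeffMap f x))).eval (coeffMap f y) := by
  rw [← Polynomial.eval_map_apply, Fermat.Agent.H67.map_map_evalAt]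

/-- The two basic relations over `ℂ((t))`, read off from the factorisation. -/
theorem heckeData_relations_complex {p : ℕ} [NeZero p] {ζ : ℂˣ} (D : HeckeDataOver p ℂ ζ) :
    (D.Φ.map (evalAt (jqModC ℂ))).eval (qExpand ℂ p (jqModC ℂ)) = 0 ∧
      (D.Φ.map (evalAt (qExpand ℂ p (jqModC ℂ)))).eval (jqModC ℂ) = 0 := by
  have hp0 : 0 < p := Nat.pos_of_ne_zero (NeZero.ne p)
  constructor
  · apply qExpand_injective (R := ℂ) p
    rw [qExpand_eval_map_evalAt, map_zero]
    have h := congrArg (Polynomial.eval (rootInf ℂ p)) D.Φ_factor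
    rw [Polynomial.eval_mul, Polynomial.eval_sub, Polynomial.eval_X, Polynomial.eval_C,
      sub_self, zero_mul] at h
    exact h
  · have h := congrArg (Polynomial.eval (jqModC ℂ)) D.Φ_factor
    rw [Polynomial.eval_mul, Polynomial.eval_prod] at h
    have h0 : ∏ b ∈ Finset.range p,
        Polynomial.eval (jqModC ℂ) (Polynomial.X - Polynomial.C (rootFin (ζ ^ b))) = 0 := by
      apply Finset.prod_eq_zero (Finset.mem_range.mpr hp0)
      rw [Polynomial.eval_sub, Polynomial.eval_X, Polynomial.eval_C, pow_zero, sub_eq_zero]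
      ext n
      simp [rootFin]
    rw [h0, mul_zero] at h
    exact h

/-- The modular relations over `ℚ((q))`. -/
theorem exists_modular_relations (hM : HasHeckeData ℂ) (p : ℕ) [NeZero p] (hp : p.Prime) :
    ∃ Φ : Polynomial (Polynomial ℤ), Φ.Monic ∧ Φ.natDegree = p + 1 ∧
      (∀ (m : ℕ) [NeZero m], (Φ.map (evalAt (qExpand ℚ m jq))).eval (qExpand ℚ (m * p) jq) = 0) ∧
      (∀ (m : ℕ) [NeZero m], (Φ.map (evalAt (qExpand ℚ (m * p) jq))).eval (qExpand ℚ m jq) = 0) := by
  have hprim : IsPrimitiveRoot (Complex.exp (2 * Real.pi * Complex.I / p)) p :=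
    Complex.isPrimitiveRoot_exp p (NeZero.ne p)
  obtain ⟨D⟩ := hM p hp (hprim.isUnit (NeZero.ne p)).unit (by simpa using hprim)
  obtain ⟨h1, h2⟩ := heckeData_relations_complex D
  have hinj : Function.Injective (coeffMap (algebraMap ℚ ℂ)) :=
    Fermat.Agent.H67.coeffMap_injective_of_injective _ (algebraMap ℚ ℂ).injective
  have hj : coeffMap (algebraMap ℚ ℂ) jq = jqModC ℂ := by
    rw [← jqModC_rat, coeffMap_jqModC]
  have r1 : (D.Φ.map (evalAt jq)).eval (qExpand ℚ p jq) = 0 := by
    apply hinj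
    rw [coeffMap_eval_map_evalAt, coeffMap_qExpand, hj, map_zero]
    exact h1
  have r2 : (D.Φ.map (evalAt (qExpand ℚ p jq))).eval jq = 0 := by
    apply hinj
    rw [coeffMap_eval_map_evalAt, coeffMap_qExpand, hj, map_zero]
    exact h2
  refine ⟨D.Φ, D.Φ_monic, D.Φ_natDegree, ?_, ?_⟩
  · intro m _
    have := congrArg (qExpand ℚ m) r1
    rwa [qExpand_eval_map_evalAt, map_zero, qExpand_qExpand] at this
  · intro m _
    have := congrArg (qExpand ℚ m) r2
    rwa [qExpand_eval_map_evalAt, map_zero, qExpand_qExpand] at this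

end Fermat.Agent.H32
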