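import Mathlib
import Fermat.Prelude.Def_ModularCurve_IgusaScheme
import Fermat.Prelude.Def_ModularCurve_X0ModL
import Fermat.Agent.H27.Igusa.Defs
import Fermat.Agent.H26.DedekindPsi
import Fermat.Agent.H32.IgusaRelations

/-!
# Degree bound along a chain of levels (part (A) of IG-D1)

From the modular relations `Φ_p(j(q^m), j(q^{mp})) = 0 = Φ_p(j(q^{mp}), j(q^m))` we construct, for
every `N ≥ 1`, an intermediate field `G` of `ℚ((q)) / ℚ` containing `j(q)` and `j(q^N)` with
`[G : ℚ(j)] ≤ ψ(N)`.  Together with `ModularCurve.FunctionFieldGeneration N` this gives the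
degree bound `[ℚ(j(q^d) : d ∣ N) : ℚ(j)] ≤ ψ(N)`.
-/

set_option autoImplicit false

noncomputable section

open ModularCurve ModularCurve.IgusaScheme Fermat.Agent.H27 IntermediateField

namespace Fermat.Agent.H32

section Generic

variable {K L : Type*} [Field K] [Field L] [Algebra K L]

/-- adjoining a root of a monic polynomial of degree `n` raises the degree by a factor `≤ n`. -/
theorem relrank_sup_adjoin_simple_le (G : IntermediateField K L) (x : L) (f : Polynomial G)
    (hf : f.Monic) (hx : Polynomial.aeval x f = 0) :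
    G.relrank (G ⊔ K⟮x⟯) ≤ (f.natDegree : Cardinal) := by
  have hle : G ≤ G ⊔ K⟮x⟯ := le_sup_left
  have hint : IsIntegral G x := ⟨f, hf, by simpa [Polynomial.aeval_def] using hx⟩
  have hE : extendScalars hle = G⟮x⟯ := by
    apply restrictScalars_injective K
    rw [extendScalars_restrictScalars, restrictScalars_adjoin_eq_sup]
  rw [relrank_eq_rank_of_le hle, hE]
  have : FiniteDimensional G G⟮x⟯ := adjoin.finiteDimensional hint
  rw [← Module.finrank_eq_rank, adjoin.finrank hint]
  exact_mod_cast Polynomial.natDegree_le_natDegree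
    (minpoly.degree_le_of_ne_zero G x hf.ne_zero hx)

/-- if moreover the polynomial has another root `a ≠ x` in the ground field, the factor is
`≤ n - 1`. -/
theorem relrank_sup_adjoin_simple_le_pred (G : IntermediateField K L) (x : L) (a : G)
    (f : Polynomial G) (hf : f.Monic) (hx : Polynomial.aeval x f = 0) (ha : f.IsRoot a)
    (hne : x ≠ (a : L)) :
    G.relrank (G ⊔ K⟮x⟯) ≤ ((f.natDegree - 1 : ℕ) : Cardinal) := by
  have hmul : (Polynomial.X - Polynomial.C a) * (f /ₘ (Polynomial.X - Polynomial.C a)) = f :=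
    Polynomial.mul_divByMonic_eq_iff_isRoot.mpr ha
  set g := f /ₘ (Polynomial.X - Polynomial.C a) with hg
  have hgm : g.Monic := by
    have := hf
    rw [← hmul] at this
    exact (Polynomial.monic_X_sub_C a).of_mul_monic_left this
  have hdeg : g.natDegree = f.natDegree - 1 := by
    rw [hg, Polynomial.natDegree_divByMonic f (Polynomial.monic_X_sub_C a),
      Polynomial.natDegree_X_sub_C]
  have hgx : Polynomial.aeval x g = 0 := by
    have h := hx
    rw [← hmul, map_mul, map_sub, Polynomial.aeval_X, Polynomial.aeval_C] at h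
    rcases mul_eq_zero.mp h with h1 | h2
    · exact absurd (sub_eq_zero.mp h1) hne
    · exact h2
  rw [← hdeg]
  exact relrank_sup_adjoin_simple_le G x g hgm hgx

/-- monotonicity of `relrank` in the upper field -/
theorem relrank_le_relrank_of_le {A B C : IntermediateField K L} (h1 : A ≤ B) (h2 : B ≤ C) :
    A.relrank B ≤ A.relrank C := by
  rw [← relrank_mul_relrank h1 h2]
  refine Cardinal.le_mul_right ?_
  rw [relrank_eq_rank_of_le h2]
  exact (rank_pos (R := B) (M := extendScalars h2)).ne'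

end Generic

/-- total version of `d ↦ j(q^d)` (junk value `0` at `d = 0`) -/
def jd (d : ℕ) : LaurentSeries ℚ := if h : d = 0 then 0 else @qExpand ℚ _ d ⟨h⟩ jq

theorem jd_eq (d : ℕ) [NeZero d] : jd d = qExpand ℚ d jq := by
  unfold jd
  rw [dif_neg (NeZero.ne d)]

theorem jd_one : jd 1 = jq := by
  rw [jd_eq, qExpand_one_apply]

theorem qExpand_jq_ne_jq (n : ℕ) [NeZero n] (hn : 1 < n) : qExpand ℚ n jq ≠ jq := by
  intro h
  have h1 := congrArg (fun f => HahnSeries.coeff f (-1 : ℤ)) h
  simp only [coeff_jq_neg_one] at h1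
  rw [qExpand_coeff_of_not_dvd] at h1
  · exact zero_ne_one h1
  · intro hdvd
    have h2 : (n : ℤ) ∣ 1 := (dvd_neg).mp hdvd
    have h3 : n ∣ 1 := by exact_mod_cast h2
    have := Nat.le_of_dvd one_pos h3
    omega

/-- `j(q^{m p^2}) ≠ j(q^m)` -/
theorem jd_mul_ne (m n : ℕ) [NeZero m] [NeZero n] (hn : 1 < n) :
    qExpand ℚ (m * n) jq ≠ qExpand ℚ m jq := by
  rw [← qExpand_qExpand]
  intro h
  exact qExpand_jq_ne_jq n hn (qExpand_injective (R := ℚ) m h)

/-- the evaluation homomorphism `ℤ[X] → Ω`, `X ↦ x` -/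
def evalZ {Ω : Type*} [CommRing Ω] (x : Ω) : Polynomial ℤ →+* Ω :=
  Polynomial.eval₂RingHom (Int.castRingHom Ω) x

theorem algebraMap_comp_evalZ (G : IntermediateField ℚ (LaurentSeries ℚ)) (a : G) :
    (algebraMap G (LaurentSeries ℚ)).comp (evalZ a) = evalAt (a : LaurentSeries ℚ) := by
  refine Polynomial.ringHom_ext' (Subsingleton.elim _ _) ?_
  simp [evalAt, evalZ]

/-- evaluation of a polynomial over `ℤ[X]` at a pair of elements of an intermediate field -/
theorem algebraMap_eval_map_evalZ (G : IntermediateField ℚ (LaurentSeries ℚ))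
    (Φ : Polynomial (Polynomial ℤ)) (a b : G) :
    algebraMap G (LaurentSeries ℚ) ((Φ.map (evalZ a)).eval b) =
      (Φ.map (evalAt (a : LaurentSeries ℚ))).eval (b : LaurentSeries ℚ) := by
  rw [Polynomial.eval_map, Polynomial.eval_map, Polynomial.hom_eval₂, algebraMap_comp_evalZ]
  rfl

theorem aeval_map_evalZ (G : IntermediateField ℚ (LaurentSeries ℚ))
    (Φ : Polynomial (Polynomial ℤ)) (a : G) (x : LaurentSeries ℚ) :
    Polynomial.aeval x (Φ.map (evalZ a)) =
      (Φ.map (evalAt (a : LaurentSeries ℚ))).eval x := by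
  rw [Polynomial.aeval_def, Polynomial.eval₂_map, Polynomial.eval_map, algebraMap_comp_evalZ]

/-- existence of a largest prime factor -/
theorem exists_max_prime_factor (N : ℕ) (hN : 1 < N) :
    ∃ p : ℕ, p.Prime ∧ p ∣ N ∧ ∀ q : ℕ, q.Prime → q ∣ N → q ≤ p := by
  have hne : N.primeFactors.Nonempty := Nat.nonempty_primeFactors.mpr hN
  refine ⟨N.primeFactors.max' hne, ?_, ?_, ?_⟩
  · exact Nat.prime_of_mem_primeFactors (Finset.max'_mem _ hne)
  · exact Nat.dvd_of_mem_primeFactors (Finset.max'_mem _ hne)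
  · intro q hq hqN
    exact Finset.le_max' _ q (Nat.mem_primeFactors.mpr ⟨hq, hqN, by omega⟩)

/-- **Chain field.**  For every `N ≥ 1` there is an intermediate field containing `j(q)`, `j(q^N)`
(and `j(q^{N/p})` for the largest prime factor `p` of `N`) of degree `≤ ψ(N)` over `ℚ(j)`. -/
theorem exists_chain_field (hM : HasHeckeData ℂ) : ∀ N : ℕ, 0 < N →
    ∃ G : IntermediateField ℚ (LaurentSeries ℚ), ℚ⟮jq⟯ ≤ G ∧ jd N ∈ G ∧
      (∀ p : ℕ, p.Prime → p ∣ N → (∀ q : ℕ, q.Prime → q ∣ N → q ≤ p) → jd (N / p) ∈ G) ∧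
      (ℚ⟮jq⟯).relrank G ≤ (dedekindPsi N : Cardinal) := by
  intro N
  induction N using Nat.strong_induction_on with
  | _ N ih =>
  intro hN
  rcases Nat.lt_or_ge 1 N with h1 | h1
  swap
  · have hN1 : N = 1 := by omega
    subst hN1
    refine ⟨ℚ⟮jq⟯, le_rfl, ?_, ?_, ?_⟩
    · rw [jd_one]
      exact mem_adjoin_simple_self ℚ jq
    · intro p hp hp1
      exact absurd (Nat.dvd_one.mp hp1) hp.ne_one
    · rw [relrank_self, dedekindPsi_one, Nat.cast_one]
  obtain ⟨p, hp, hpN, hmax⟩ := exists_max_prime_factor N h1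
  obtain ⟨m, rfl⟩ : ∃ m, N = m * p := ⟨N / p, (Nat.div_mul_cancel hpN).symm⟩
  have hm0 : 0 < m := Nat.pos_of_mul_pos_right hN
  have hmlt : m < m * p := by
    calc m = m * 1 := (mul_one m).symm
      _ < m * p := (Nat.mul_lt_mul_left hm0).mpr hp.one_lt
  obtain ⟨G, hKG, hmG, hprev, hrank⟩ := ih m hmlt hm0
  have : NeZero m := ⟨hm0.ne'⟩
  have : NeZero p := ⟨hp.ne_zero⟩
  have : NeZero (m * p) := ⟨hN.ne'⟩
  obtain ⟨Φ, hΦm, hΦd, hR1, hR2⟩ := exists_modular_relations hM p hp
  set x : LaurentSeries ℚ := jd (m * p) with hx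
  have hxq : x = qExpand ℚ (m * p) jq := jd_eq (m * p)
  let a : G := ⟨jd m, hmG⟩
  have haq : (a : LaurentSeries ℚ) = qExpand ℚ m jq := jd_eq m
  set f : Polynomial G := Φ.map (evalZ a) with hf
  have hfm : f.Monic := hΦm.map _
  have hfd : f.natDegree = p + 1 := by rw [hf, hΦm.natDegree_map, hΦd]
  have hfx : Polynomial.aeval x f = 0 := by
    rw [hf, aeval_map_evalZ, haq, hxq]
    exact hR1 m
  have hGle : G ≤ G ⊔ ℚ⟮x⟯ := le_sup_left
  have hdiv : m * p / p = m := Nat.mul_div_cancel m hp.pos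
  refine ⟨G ⊔ ℚ⟮x⟯, hKG.trans hGle, ?_, ?_, ?_⟩
  · exact (le_sup_right : ℚ⟮x⟯ ≤ G ⊔ ℚ⟮x⟯) (mem_adjoin_simple_self ℚ x)
  · intro p' hp' hp'N hmax'
    have hpp : p' = p := le_antisymm (hmax p' hp' hp'N) (hmax' p hp hpN)
    rw [hpp, hdiv]
    exact hGle hmG
  · rw [← relrank_mul_relrank hKG hGle]
    by_cases hpm : p ∣ m
    · -- the ramified step: degree `≤ p`
      obtain ⟨m', rfl⟩ : ∃ m', m = m' * p := ⟨m / p, (Nat.div_mul_cancel hpm).symm⟩
      have hm'0 : 0 < m' := Nat.pos_of_mul_pos_right hm0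
      have : NeZero m' := ⟨hm'0.ne'⟩
      have hmax_m : ∀ q : ℕ, q.Prime → q ∣ m' * p → q ≤ p := fun q hq hqm =>
        hmax q hq (Dvd.dvd.mul_right hqm p)
      have hm'G : jd (m' * p / p) ∈ G := hprev p hp hpm hmax_m
      rw [Nat.mul_div_cancel m' hp.pos] at hm'G
      let b : G := ⟨jd m', hm'G⟩
      have hbq : (b : LaurentSeries ℚ) = qExpand ℚ m' jq := jd_eq m'
      have hroot : f.IsRoot b := by
        rw [Polynomial.IsRoot.def]
        apply (algebraMap G (LaurentSeries ℚ)).injective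
        rw [hf, algebraMap_eval_map_evalZ, map_zero, haq, hbq]
        exact hR2 m'
      have hne : x ≠ (b : LaurentSeries ℚ) := by
        rw [hxq, hbq]
        have h2 : qExpand ℚ (m' * (p * p)) jq ≠ qExpand ℚ m' jq :=
          jd_mul_ne m' (p * p) (by nlinarith [hp.one_lt])
        intro h
        apply h2
        rw [← h]
        exact qExpand_congr (by ring) jq
      have hstep := relrank_sup_adjoin_simple_le_pred G x b f hfm hfx hroot hne
      rw [hfd, Nat.add_sub_cancel] at hstep
      rw [Fermat.Agent.H26.dedekindPsi_mul_prime_of_dvd (m' * p) p hm0 hp hpm, Nat.cast_mul]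
      exact mul_le_mul' hrank hstep
    · -- the unramified step: degree `≤ p + 1`
      have hstep := relrank_sup_adjoin_simple_le G x f hfm hfx
      rw [hfd] at hstep
      rw [Fermat.Agent.H26.dedekindPsi_mul_prime_of_not_dvd m p hm0 hp hpm, Nat.cast_mul]
      exact mul_le_mul' hrank hstep

/-- **IG-D1, degree part.**  Given function field generation, the full modular function field of
level `N` has degree at most `ψ(N)` over `ℚ(j)`. -/
theorem relrank_full_le_dedekindPsi_of_generation (hM : HasHeckeData ℂ) (N : ℕ) [NeZero N]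
    (hgen : FunctionFieldGeneration N) :
    IntermediateField.relrank (IntermediateField.adjoin ℚ {jq}) (modularFunctionFieldFull N) ≤
      (dedekindPsi N : Cardinal) := by
  obtain ⟨G, hKG, hNG, -, hrank⟩ := exists_chain_field hM N (Nat.pos_of_ne_zero (NeZero.ne N))
  have hjG : jq ∈ G := hKG (mem_adjoin_simple_self ℚ jq)
  rw [jd_eq] at hNG
  have h2 : IntermediateField.adjoin ℚ {jq, qExpand ℚ N jq} ≤ G := by
    rw [adjoin_le_iff]
    rintro y (rfl | rfl)
    · exact hjG
    · exact hNG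
  have hFG : modularFunctionFieldFull N ≤ G := by
    rw [modularFunctionFieldFull, adjoin_le_iff]
    rintro y ⟨d, hd, hdN, rfl⟩
    exact h2 (hgen d hdN hd)
  have hKF : ℚ⟮jq⟯ ≤ modularFunctionFieldFull N :=
    (adjoin_jq_le N).trans (modularFunctionField_le_full N)
  exact (relrank_le_relrank_of_le hKF hFG).trans hrank

end Fermat.Agent.H32
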