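import Mathlib

/-!
# Bounded denominators (P-INT subtask INT-3)

A power series `F` with rational coefficients which is a quotient of two `ℂ`-combinations of
integral power series and which is integral (monic equation) over the `ℂ`-span of the integral
power series has bounded denominators.
-/

namespace Fermat.Agent.H32

open PowerSeries

/-- The subring of rational power series having integer coefficients. -/
noncomputable def intSeries : Subring (PowerSeries ℚ) := (PowerSeries.map (Int.castRingHom ℚ)).range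

lemma mem_intSeries_iff (G : PowerSeries ℚ) :
    G ∈ intSeries ↔ ∀ n, ∃ m : ℤ, coeff n G = (m : ℚ) := by
  constructor
  · rintro ⟨P, rfl⟩ n
    exact ⟨coeff n P, by simp⟩
  · intro h
    choose m hm using h
    refine ⟨PowerSeries.mk m, ?_⟩
    ext n
    simp [hm n]

lemma intSeries_of_X_pow_mul (k : ℕ) (G : PowerSeries ℚ)
    (h : (X : PowerSeries ℚ) ^ k * G ∈ intSeries) : G ∈ intSeries := by
  rw [mem_intSeries_iff] at h ⊢
  intro n
  obtain ⟨m, hm⟩ := h (n + k)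
  exact ⟨m, by rw [← hm, coeff_X_pow_mul]⟩

/-- If `c * q ^ n` is an integer for all `n` with `c ≠ 0`, then `q` is an integer. -/
lemma rat_isInt_of_mul_pow (c : ℤ) (hc : c ≠ 0) (q : ℚ)
    (h : ∀ n : ℕ, ∃ k : ℤ, (c : ℚ) * q ^ n = k) : ∃ k : ℤ, q = k := by
  have hden : q.den = 1 := by
    by_contra hne
    have h2 : 2 ≤ q.den := by
      have := q.den_pos
      omega
    obtain ⟨k, hk⟩ := h c.natAbs
    set n := c.natAbs with hn
    have hq : q = (q.num : ℚ) / (q.den : ℚ) := (Rat.num_div_den q).symm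
    have hdne : (q.den : ℚ) ≠ 0 := by exact_mod_cast q.den_pos.ne'
    have hZ : c * q.num ^ n = k * (q.den : ℤ) ^ n := by
      have : (c : ℚ) * (q.num : ℚ) ^ n = k * (q.den : ℚ) ^ n := by
        rw [hq, div_pow] at hk
        field_simp at hk
        linarith
      exact_mod_cast this
    have hcop : IsCoprime ((q.den : ℤ) ^ n) (q.num ^ n) := by
      apply IsCoprime.pow
      rw [Int.isCoprime_iff_gcd_eq_one]
      have := q.reduced
      rw [Int.gcd_comm]
      simpa [Int.gcd, Nat.Coprime] using this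
    have hdvd : (q.den : ℤ) ^ n ∣ c := by
      apply hcop.dvd_of_dvd_mul_right
      exact ⟨k, by rw [hZ]; ring⟩
    have hle : q.den ^ n ≤ n := by
      have h3 : ((q.den : ℤ) ^ n).natAbs ∣ c.natAbs := Int.natAbs_dvd_natAbs.mpr hdvd
      have h4 : ((q.den : ℤ) ^ n).natAbs = q.den ^ n := by
        rw [Int.natAbs_pow, Int.natAbs_natCast]
      rw [h4] at h3
      exact Nat.le_of_dvd (Int.natAbs_pos.mpr hc) h3
    have hlt : n < 2 ^ n := Nat.lt_two_pow_self
    have hpow : 2 ^ n ≤ q.den ^ n := Nat.pow_le_pow_left h2 n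
    omega
  exact ⟨q.num, (Rat.coe_int_num_of_den_eq_one hden).symm⟩

/-- Key lemma: if `C ≠ 0` is integral and `C * F ^ n` is integral for all `n`,
then `F` is integral. -/
lemma mem_intSeries_of_mul_pow (C F : PowerSeries ℚ) (hC0 : C ≠ 0) (hC : C ∈ intSeries)
    (h : ∀ n : ℕ, C * F ^ n ∈ intSeries) : F ∈ intSeries := by
  classical
  by_contra hF
  have hF' : ∃ n, ¬ ∃ m : ℤ, coeff n F = (m : ℚ) := by
    rw [mem_intSeries_iff] at hF
    push Not at hF
    obtain ⟨n, hn⟩ := hF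
    exact ⟨n, fun ⟨m, hm⟩ => hn m hm⟩
  set n0 := Nat.find hF' with hn0
  have hn0spec : ¬ ∃ m : ℤ, coeff n0 F = (m : ℚ) := Nat.find_spec hF'
  have hn0min : ∀ i < n0, ∃ m : ℤ, coeff i F = (m : ℚ) := fun i hi =>
    not_not.mp (Nat.find_min hF' hi)
  -- the integral truncation
  set A : PowerSeries ℚ := PowerSeries.mk fun i => if i < n0 then coeff i F else 0 with hA
  have hAint : A ∈ intSeries := by
    rw [mem_intSeries_iff]
    intro i
    by_cases hi : i < n0
    · obtain ⟨m, hm⟩ := hn0min i hi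
      exact ⟨m, by simp [hA, hi, hm]⟩
    · exact ⟨0, by simp [hA, hi]⟩
  have hdvd : (X : PowerSeries ℚ) ^ n0 ∣ F - A := by
    rw [PowerSeries.X_pow_dvd_iff]
    intro i hi
    simp [hA, hi]
  obtain ⟨B, hB⟩ := hdvd
  have hB0 : coeff 0 B = coeff n0 F := by
    have h1 : coeff (0 + n0) (X ^ n0 * B) = coeff 0 B := coeff_X_pow_mul B n0 0
    rw [← h1, ← hB, zero_add]
    simp [hA]
  -- `C * (F - A) ^ n` is integral
  have key : ∀ n j : ℕ, C * (F ^ j * (F - A) ^ n) ∈ intSeries := by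
    intro n
    induction n with
    | zero => intro j; simpa using h j
    | succ n ih =>
      intro j
      have e : C * (F ^ j * (F - A) ^ (n + 1)) =
          C * (F ^ (j + 1) * (F - A) ^ n) - A * (C * (F ^ j * (F - A) ^ n)) := by ring
      rw [e]
      exact intSeries.sub_mem (ih (j + 1)) (intSeries.mul_mem hAint (ih j))
  have hCB : ∀ n : ℕ, C * B ^ n ∈ intSeries := by
    intro n
    have h1 := key n 0
    rw [pow_zero, one_mul, hB, mul_pow, ← pow_mul] at h1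
    apply intSeries_of_X_pow_mul (n0 * n)
    have e : (X : PowerSeries ℚ) ^ (n0 * n) * (C * B ^ n) = C * (X ^ (n0 * n) * B ^ n) := by ring
    rw [e]
    exact h1
  -- lowest coefficient of `C`
  have hCne : ∃ m, coeff m C ≠ 0 := by
    by_contra hcon
    push Not at hcon
    exact hC0 (PowerSeries.ext fun n => by simpa using hcon n)
  set m0 := Nat.find hCne with hm0
  have hm0spec : coeff m0 C ≠ 0 := Nat.find_spec hCne
  have hm0min : ∀ i < m0, coeff i C = 0 := fun i hi => not_not.mp (Nat.find_min hCne hi)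
  have hdvdC : (X : PowerSeries ℚ) ^ m0 ∣ C := by
    rw [PowerSeries.X_pow_dvd_iff]
    exact hm0min
  obtain ⟨C', hC'⟩ := hdvdC
  have hC'0 : coeff 0 C' = coeff m0 C := by
    have h1 : coeff (0 + m0) (X ^ m0 * C') = coeff 0 C' := coeff_X_pow_mul C' m0 0
    rw [← h1, ← hC', zero_add]
  obtain ⟨c, hc⟩ := (mem_intSeries_iff C).mp hC m0
  have hcne : c ≠ 0 := by
    rintro rfl
    apply hm0spec
    simpa using hc
  have hfin : ∀ n : ℕ, ∃ k : ℤ, (c : ℚ) * (coeff n0 F) ^ n = k := by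
    intro n
    obtain ⟨k, hk⟩ := (mem_intSeries_iff _).mp (hCB n) m0
    refine ⟨k, ?_⟩
    rw [← hk, hC', mul_assoc]
    have h1 : coeff (0 + m0) (X ^ m0 * (C' * B ^ n)) = coeff 0 (C' * B ^ n) :=
      coeff_X_pow_mul _ m0 0
    rw [zero_add] at h1
    rw [h1, coeff_zero_eq_constantCoeff_apply, map_mul, map_pow,
      ← coeff_zero_eq_constantCoeff_apply, ← coeff_zero_eq_constantCoeff_apply, hC'0, hB0, hc]
  exact hn0spec (rat_isInt_of_mul_pow c hcne _ hfin)

/-- Integrality from a denominator `d` and a monic integral equation. -/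
lemma mem_intSeries_of_monic (F d q : PowerSeries ℚ) (hd0 : d ≠ 0) (hd : d ∈ intSeries)
    (hq : q ∈ intSeries) (h1 : F * d = q) (μ : ℕ) (e : ℕ → PowerSeries ℚ)
    (he : ∀ i < μ, e i ∈ intSeries)
    (h2 : F ^ μ + ∑ i ∈ Finset.range μ, e i * F ^ i = 0) : F ∈ intSeries := by
  have hC0 : d ^ μ ≠ 0 := pow_ne_zero μ hd0
  have hC : d ^ μ ∈ intSeries := intSeries.pow_mem hd μ
  refine mem_intSeries_of_mul_pow (d ^ μ) F hC0 hC ?_
  intro n
  induction n using Nat.strong_induction_on with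
  | _ n ih =>
    by_cases hn : n ≤ μ
    · have e1 : d ^ μ * F ^ n = d ^ (μ - n) * q ^ n := by
        rw [← h1, mul_pow]
        have : d ^ μ = d ^ (μ - n) * d ^ n := by
          rw [← pow_add, Nat.sub_add_cancel hn]
        rw [this]; ring
      rw [e1]
      exact intSeries.mul_mem (intSeries.pow_mem hd _) (intSeries.pow_mem hq _)
    · push Not at hn
      have hFμ : F ^ μ = - ∑ i ∈ Finset.range μ, e i * F ^ i := eq_neg_of_add_eq_zero_left h2
      have e1 : d ^ μ * F ^ n =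
          - ∑ i ∈ Finset.range μ, e i * (d ^ μ * F ^ (n - μ + i)) := by
        have : F ^ n = F ^ (n - μ) * F ^ μ := by
          rw [← pow_add, Nat.sub_add_cancel hn.le]
        rw [this, hFμ, mul_neg, mul_neg, neg_inj, Finset.mul_sum, Finset.mul_sum]
        refine Finset.sum_congr rfl fun i _ => ?_
        rw [pow_add]; ring
      rw [e1]
      refine intSeries.neg_mem (intSeries.sum_mem fun i hi => ?_)
      have hi' : i < μ := Finset.mem_range.mp hi
      exact intSeries.mul_mem (he i hi') (ih _ (by omega))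

/-- Version with bounded denominators. -/
lemma smul_mem_intSeries_of_monic (F d q : PowerSeries ℚ) (hd0 : d ≠ 0) (D0 : ℕ) (hD0 : D0 ≠ 0)
    (hd : (D0 : ℚ) • d ∈ intSeries) (hq : (D0 : ℚ) • q ∈ intSeries) (h1 : F * d = q)
    (μ : ℕ) (c : ℕ → PowerSeries ℚ) (hc : ∀ i < μ, (D0 : ℚ) • c i ∈ intSeries)
    (h2 : F ^ μ + ∑ i ∈ Finset.range μ, c i * F ^ i = 0) : (D0 : ℚ) • F ∈ intSeries := by
  have hD0' : (D0 : ℚ) ≠ 0 := by exact_mod_cast hD0
  have hDint : ∀ k : ℕ, ∀ G ∈ intSeries, ((D0 : ℚ) ^ k) • G ∈ intSeries := by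
    intro k G hG
    rw [mem_intSeries_iff] at hG ⊢
    intro n
    obtain ⟨m, hm⟩ := hG n
    exact ⟨(D0 : ℤ) ^ k * m, by simp [hm]⟩
  refine mem_intSeries_of_monic ((D0 : ℚ) • F) ((D0 : ℚ) • d) ((D0 : ℚ) • ((D0 : ℚ) • q))
    ?_ hd ?_ ?_ μ (fun i => ((D0 : ℚ) ^ (μ - i)) • c i) ?_ ?_
  · intro h
    rcases smul_eq_zero.mp h with h | h
    · exact hD0' h
    · exact hd0 h
  · have := hDint 1 _ hq
    simpa using this
  · rw [← h1]
    simp only [smul_mul_assoc, mul_smul_comm]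
  · intro i hi
    have e1 : ((D0 : ℚ) ^ (μ - i)) • c i = ((D0 : ℚ) ^ (μ - i - 1)) • ((D0 : ℚ) • c i) := by
      rw [smul_smul, ← pow_succ]
      congr 2
      omega
    rw [e1]
    exact hDint _ _ (hc i hi)
  · have e1 : ((D0 : ℚ) • F) ^ μ + ∑ i ∈ Finset.range μ,
        (((D0 : ℚ) ^ (μ - i)) • c i) * ((D0 : ℚ) • F) ^ i =
        ((D0 : ℚ) ^ μ) • (F ^ μ + ∑ i ∈ Finset.range μ, c i * F ^ i) := by
      rw [smul_add, Finset.smul_sum, smul_pow]
      congr 1
      refine Finset.sum_congr rfl fun i hi => ?_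
      have hi' : i < μ := Finset.mem_range.mp hi
      rw [smul_pow, smul_mul_assoc, mul_smul_comm, smul_smul, ← pow_add,
        Nat.sub_add_cancel hi'.le]
    rw [e1, h2, smul_zero]

/-- Apply a `ℚ`-linear functional `ℂ → ℚ` coefficientwise. -/
noncomputable def pushPS (π : ℂ →ₗ[ℚ] ℚ) (G : PowerSeries ℂ) : PowerSeries ℚ :=
  PowerSeries.mk fun n => π (coeff n G)

@[simp] lemma coeff_pushPS (π : ℂ →ₗ[ℚ] ℚ) (G : PowerSeries ℂ) (n : ℕ) :
    coeff n (pushPS π G) = π (coeff n G) := by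
  simp [pushPS]

lemma pushPS_zero (π : ℂ →ₗ[ℚ] ℚ) : pushPS π 0 = 0 := by
  ext n; simp

lemma pushPS_add (π : ℂ →ₗ[ℚ] ℚ) (G H : PowerSeries ℂ) :
    pushPS π (G + H) = pushPS π G + pushPS π H := by
  ext n; simp

lemma pushPS_neg (π : ℂ →ₗ[ℚ] ℚ) (G : PowerSeries ℂ) :
    pushPS π (-G) = -pushPS π G := by
  ext n; simp

lemma pushPS_sum {ι : Type*} (π : ℂ →ₗ[ℚ] ℚ) (s : Finset ι) (G : ι → PowerSeries ℂ) :
    pushPS π (∑ i ∈ s, G i) = ∑ i ∈ s, pushPS π (G i) := by
  ext n; simp [map_sum]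

/-- `pushPS` is linear over rational power series. -/
lemma pushPS_map_mul (π : ℂ →ₗ[ℚ] ℚ) (Fq : PowerSeries ℚ) (G : PowerSeries ℂ) :
    pushPS π (PowerSeries.map (algebraMap ℚ ℂ) Fq * G) = Fq * pushPS π G := by
  ext n
  rw [coeff_pushPS, coeff_mul, coeff_mul, map_sum]
  refine Finset.sum_congr rfl fun x _ => ?_
  rw [coeff_map, coeff_pushPS, ← Algebra.smul_def, map_smul, smul_eq_mul]

lemma pushPS_map (π : ℂ →ₗ[ℚ] ℚ) (hπ : ∀ r : ℚ, π (algebraMap ℚ ℂ r) = r) (Fq : PowerSeries ℚ) :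
    pushPS π (PowerSeries.map (algebraMap ℚ ℂ) Fq) = Fq := by
  ext n
  rw [coeff_pushPS, coeff_map, hπ]

/-- Bounded denominators for the push-forward of a `ℂ`-combination of integral series. -/
lemma pushPS_bounded (G : PowerSeries ℂ)
    (hG : G ∈ Submodule.span ℂ (Set.range (PowerSeries.map (Int.castRingHom ℂ)))) :
    ∀ π : ℂ →ₗ[ℚ] ℚ, ∃ D : ℕ, D ≠ 0 ∧ (D : ℚ) • pushPS π G ∈ intSeries := by
  induction hG using Submodule.span_induction with
  | mem G hG =>
    obtain ⟨P, rfl⟩ := hG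
    intro π
    refine ⟨(π 1).den, (π 1).den_pos.ne', ?_⟩
    rw [mem_intSeries_iff]
    intro n
    refine ⟨(π 1).num * coeff n P, ?_⟩
    have h1 : ((coeff n P : ℤ) : ℂ) = ((coeff n P : ℤ) : ℚ) • (1 : ℂ) := by
      rw [Algebra.smul_def, mul_one]; simp
    have h2 : π ((coeff n P : ℤ) : ℂ) = ((coeff n P : ℤ) : ℚ) * π 1 := by
      rw [h1, map_smul, smul_eq_mul]
    have h3 : ((π 1).den : ℚ) * π 1 = (π 1).num := Rat.den_mul_eq_num (π 1)
    simp only [map_smul, coeff_pushPS, coeff_map, eq_intCast, smul_eq_mul, Int.cast_mul]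
    rw [h2]
    linear_combination ((coeff n P : ℤ) : ℚ) * h3
  | zero =>
    intro π
    exact ⟨1, one_ne_zero, by rw [pushPS_zero, smul_zero]; exact intSeries.zero_mem⟩
  | add G H _ _ ihG ihH =>
    intro π
    obtain ⟨D1, hD1, h1⟩ := ihG π
    obtain ⟨D2, hD2, h2⟩ := ihH π
    refine ⟨D1 * D2, mul_ne_zero hD1 hD2, ?_⟩
    have hD : ∀ (k : ℕ), ∀ X ∈ intSeries, (k : ℚ) • X ∈ intSeries := by
      intro k X hX
      rw [mem_intSeries_iff] at hX ⊢
      intro n
      obtain ⟨m, hm⟩ := hX n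
      exact ⟨(k : ℤ) * m, by simp [hm]⟩
    have e : ((D1 * D2 : ℕ) : ℚ) • pushPS π (G + H) =
        (D2 : ℚ) • ((D1 : ℚ) • pushPS π G) + (D1 : ℚ) • ((D2 : ℚ) • pushPS π H) := by
      rw [pushPS_add, smul_add, smul_smul, smul_smul]
      push_cast
      rw [mul_comm (D2 : ℚ) (D1 : ℚ)]
    rw [e]
    exact intSeries.add_mem (hD _ _ h1) (hD _ _ h2)
  | smul z G _ ih =>
    intro π
    have e : pushPS π (z • G) = pushPS (π ∘ₗ (LinearMap.mulLeft ℚ z)) G := by
      ext n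
      simp
    rw [e]
    exact ih _

/-- **INT-3 (bounded denominators).** -/
theorem bounded_denominators (F d q' : PowerSeries ℂ)
    (hF : ∀ n, ∃ r : ℚ, PowerSeries.coeff n F = (r : ℂ))
    (hd : d ∈ Submodule.span ℂ (Set.range (PowerSeries.map (Int.castRingHom ℂ))))
    (hq : q' ∈ Submodule.span ℂ (Set.range (PowerSeries.map (Int.castRingHom ℂ))))
    (hd0 : d ≠ 0) (h1 : F * d = q')
    (μ : ℕ) (c : ℕ → PowerSeries ℂ)
    (hc : ∀ i, c i ∈ Submodule.span ℂ (Set.range (PowerSeries.map (Int.castRingHom ℂ))))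
    (h2 : F ^ μ + ∑ i ∈ Finset.range μ, c i * F ^ i = 0) :
    ∃ D : ℕ, D ≠ 0 ∧ ∀ n, ∃ m : ℤ, (D : ℂ) * PowerSeries.coeff n F = (m : ℂ) := by
  classical
  -- rational model of `F`
  choose r hr using hF
  set Fq : PowerSeries ℚ := PowerSeries.mk r with hFq
  have hFmap : PowerSeries.map (algebraMap ℚ ℂ) Fq = F := by
    ext n
    simp [hFq, hr n]
  -- a retraction `ρ : ℂ → ℚ`
  obtain ⟨ρ, hρ⟩ := LinearMap.exists_leftInverse_of_injective
    (Algebra.linearMap ℚ ℂ) (LinearMap.ker_eq_bot.mpr (algebraMap ℚ ℂ).injective)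
  have hρ' : ∀ x : ℚ, ρ (algebraMap ℚ ℂ x) = x := fun x => by
    have := LinearMap.congr_fun hρ x
    simpa using this
  -- a nonzero coefficient of `d`
  obtain ⟨n1, hn1⟩ : ∃ n, coeff n d ≠ 0 := by
    by_contra hcon
    push Not at hcon
    exact hd0 (PowerSeries.ext fun n => by simpa using hcon n)
  set π : ℂ →ₗ[ℚ] ℚ := ρ ∘ₗ (LinearMap.mulLeft ℚ (coeff n1 d)⁻¹) with hπ
  set d1 := pushPS π d with hd1
  set q1 := pushPS π q' with hq1
  have hd1ne : d1 ≠ 0 := by
    intro h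
    have h3 : coeff n1 d1 = 1 := by
      rw [hd1, coeff_pushPS, hπ]
      simp only [LinearMap.coe_comp, Function.comp_apply, LinearMap.mulLeft_apply]
      rw [inv_mul_cancel₀ hn1]
      have := hρ' 1
      simpa using this
    rw [h] at h3
    simp at h3
  have hFd1 : Fq * d1 = q1 := by
    rw [hd1, hq1, ← pushPS_map_mul, hFmap, h1]
  -- the monic equation over `ℚ`
  set c' : ℕ → PowerSeries ℚ := fun i => pushPS ρ (c i) with hc'
  have h2' : Fq ^ μ + ∑ i ∈ Finset.range μ, c' i * Fq ^ i = 0 := by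
    have h3 := congrArg (pushPS ρ) h2
    rw [pushPS_zero, pushPS_add, pushPS_sum] at h3
    rw [← h3]
    congr 1
    · rw [← hFmap, ← map_pow, pushPS_map ρ hρ']
    · refine Finset.sum_congr rfl fun i _ => ?_
      rw [← hFmap, ← map_pow, mul_comm (c i), pushPS_map_mul, mul_comm]
  -- common denominator
  obtain ⟨Dd, hDd0, hDd⟩ := pushPS_bounded d hd π
  obtain ⟨Dq, hDq0, hDq⟩ := pushPS_bounded q' hq π
  have hcD : ∀ i, ∃ D : ℕ, D ≠ 0 ∧ (D : ℚ) • c' i ∈ intSeries := fun i =>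
    pushPS_bounded (c i) (hc i) ρ
  choose Dc hDc0 hDc using hcD
  set D0 : ℕ := Dd * Dq * ∏ i ∈ Finset.range μ, Dc i with hD0def
  have hD0 : D0 ≠ 0 := by
    refine mul_ne_zero (mul_ne_zero hDd0 hDq0) ?_
    exact Finset.prod_ne_zero_iff.mpr fun i _ => hDc0 i
  have hmul : ∀ (a b : ℕ) (X : PowerSeries ℚ), a ∣ b → (a : ℚ) • X ∈ intSeries →
      (b : ℚ) • X ∈ intSeries := by
    rintro a b X ⟨k, rfl⟩ hX
    rw [mem_intSeries_iff] at hX ⊢
    intro n
    obtain ⟨m, hm⟩ := hX n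
    refine ⟨(k : ℤ) * m, ?_⟩
    simp only [map_smul, smul_eq_mul] at hm ⊢
    push_cast
    rw [← hm]; ring
  have hres := smul_mem_intSeries_of_monic Fq d1 q1 hd1ne D0 hD0
    (hmul Dd D0 _ (Dvd.dvd.mul_right (Dvd.intro _ rfl) _) hDd)
    (hmul Dq D0 _ (Dvd.dvd.mul_right (Dvd.intro_left _ rfl) _) hDq) hFd1 μ c'
    (fun i hi => hmul (Dc i) D0 _
      (Dvd.dvd.mul_left (Finset.dvd_prod_of_mem _ (Finset.mem_range.mpr hi)) _) (hDc i)) h2'
  refine ⟨D0, hD0, fun n => ?_⟩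
  obtain ⟨m, hm⟩ := (mem_intSeries_iff _).mp hres n
  refine ⟨m, ?_⟩
  simp only [map_smul, smul_eq_mul, hFq, coeff_mk] at hm
  rw [hr n]
  exact_mod_cast hm

end Fermat.Agent.H32
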