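import Fermat.Agent.H93.KL.DescInterfaces

/-!
# P-ES / KL-DESC-b2 (helper32): constant field extensions are unramified, general form

`constExtUnramified : ConstExtUnramifiedSimpleStatement → ConstExtUnramifiedStatement`
(finite subset + primitive element).
-/

set_option autoImplicit false

noncomputable section

namespace Fermat.Agent.H32

open IntermediateField Fermat.Agent.H93.KL

/-- A finite set of elements of `E` algebraic over `K₁` (characteristic zero) lies in
`F₁(θ)` for a single `θ` algebraic over `K₁`. -/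
theorem exists_primitive_for_finset {K₁ F₁ E : Type*} [Field K₁] [Field F₁] [Field E]
    [CharZero K₁] [Algebra K₁ F₁] [Algebra F₁ E] [Algebra K₁ E] [IsScalarTower K₁ F₁ E]
    (T : Finset E) (hT : ∀ θ ∈ T, IsIntegral K₁ θ) :
    ∃ θ : E, IsIntegral K₁ θ ∧ ∀ s ∈ T, s ∈ F₁⟮θ⟯ := by
  classical
  let L : IntermediateField K₁ E := IntermediateField.adjoin K₁ (T : Set E)
  have hfd : FiniteDimensional K₁ L :=
    IntermediateField.finiteDimensional_adjoin (S := (T : Set E)) (fun x hx => hT x hx)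
  obtain ⟨α, hα⟩ := Field.exists_primitive_element K₁ L
  refine ⟨(α : E), ?_, fun s hs => ?_⟩
  · have h1 : IsIntegral K₁ α := IsIntegral.of_finite K₁ α
    exact (isIntegral_algebraMap_iff (algebraMap L E).injective).mpr h1
  · -- `s ∈ L = K₁(α) ⊆ F₁(α)`
    have hsL : s ∈ L := IntermediateField.subset_adjoin K₁ _ hs
    have h2 : (⟨s, hsL⟩ : L) ∈ K₁⟮α⟯ := by rw [hα]; exact IntermediateField.mem_top
    have h3 : s ∈ IntermediateField.lift K₁⟮α⟯ := by
      rw [IntermediateField.mem_lift (⟨s, hsL⟩ : L)]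
      exact h2
    rw [IntermediateField.lift_adjoin_simple] at h3
    -- `K₁⟮(α : E)⟯ ⊆ F₁⟮(α : E)⟯` as sets
    have key : ∀ z : E, z ∈ K₁⟮(α : E)⟯ → z ∈ F₁⟮(α : E)⟯ := by
      intro z hz
      have hle : K₁⟮(α : E)⟯ ≤ (F₁⟮(α : E)⟯).restrictScalars K₁ := by
        rw [IntermediateField.adjoin_le_iff]
        intro w hw
        rw [Set.mem_singleton_iff] at hw
        rw [hw]
        exact IntermediateField.mem_adjoin_simple_self F₁ (α : E)
      exact hle hz
    exact key s h3

/-- **KL-DESC-b2.** -/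
theorem constExtUnramified (h : ConstExtUnramifiedSimpleStatement) :
    ConstExtUnramifiedStatement := by
  intro K₁ F₁ E _ _ _ _ _ _ _ _ S hS hStop O W hK hOW t ht ht' hunif y hy
  classical
  have hyS : y ∈ IntermediateField.adjoin F₁ S := by rw [hStop]; exact IntermediateField.mem_top
  obtain ⟨T, hTS, hyT⟩ := IntermediateField.exists_finset_of_mem_adjoin hyS
  obtain ⟨θ, hθ, hθT⟩ := exists_primitive_for_finset (K₁ := K₁) (F₁ := F₁) T
    (fun s hs => hS s (hTS hs))
  have hyθ : y ∈ F₁⟮θ⟯ := by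
    have hle : IntermediateField.adjoin F₁ (T : Set E) ≤ F₁⟮θ⟯ := by
      rw [IntermediateField.adjoin_le_iff]
      intro s hs
      exact hθT s hs
    exact hle hyT
  -- the intermediate field `E₂ = F₁(θ)` as a type
  let E₂ : IntermediateField F₁ E := F₁⟮θ⟯
  let θ₂ : ↥E₂ := ⟨θ, IntermediateField.mem_adjoin_simple_self F₁ θ⟩
  let y₂ : ↥E₂ := ⟨y, hyθ⟩
  have htower : IsScalarTower K₁ ↥E₂ E := IsScalarTower.of_algebraMap_eq (fun _ => rfl)
  have hθ₂ : IsIntegral K₁ θ₂ :=
    (isIntegral_algebraMap_iff (A := ↥E₂) (B := E) (algebraMap ↥E₂ E).injective).mp hθ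
  have htop : IntermediateField.adjoin F₁ ({θ₂} : Set ↥E₂) = ⊤ := by
    apply IntermediateField.lift_injective E₂
    rw [IntermediateField.lift_adjoin_simple, IntermediateField.lift_top]
  let W₂ : ValuationSubring ↥E₂ := W.comap (algebraMap ↥E₂ E)
  have hOW₂ : ∀ x : F₁, algebraMap F₁ ↥E₂ x ∈ W₂ ↔ x ∈ O := by
    intro x
    rw [ValuationSubring.mem_comap]
    exact hOW x
  have hy₂ : y₂ ≠ 0 := by
    intro h0
    exact hy (congrArg Subtype.val h0)
  obtain ⟨n, hn1, hn2⟩ := h K₁ F₁ ↥E₂ θ₂ hθ₂ htop O W₂ hK hOW₂ t ht ht' hunif y₂ hy₂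
  refine ⟨n, ?_, ?_⟩
  · have := ValuationSubring.mem_comap.mp hn1
    rwa [map_mul, map_zpow₀] at this
  · have := ValuationSubring.mem_comap.mp hn2
    rwa [map_inv₀, map_mul, map_zpow₀] at this

end Fermat.Agent.H32
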