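import Mathlib
import Fermat.Agent.H21.CocDefs
import Fermat.Prelude.Def_CuspForm_HeckeAlgebra
import Fermat.Prelude.Sol.S_ModularForm_heckeT_slash_eq_self_of_mem_Gamma0

/-!
# P-HECKEFIN subtask HF-A5: coset rewriting for `T_p` and `U_p`
-/

set_option autoImplicit false

open UpperHalfPlane CongruenceSubgroup Matrix.SpecialLinearGroup
open scoped MatrixGroups ModularForm Manifold
open Fermat.Agent.H21

namespace Fermat.Agent.H32

open P2MW.S_ModularForm_heckeT_slash_eq_self_of_mem_Gamma0.ModularForm.HeckeSlashInvariance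

theorem hasEntriesIn_heckeMatrix {p : ℕ} (hp : p ≠ 0) (j : ℕ) :
    HasEntriesIn ℤ (ModularForm.heckeMatrix p j) := by
  intro a b
  have h : ∀ a b : Fin 2, (ModularForm.heckeMatrix p j : GL (Fin 2) ℝ) a b =
      (!![(1 : ℝ), (j : ℝ); 0, (p : ℝ)] : Matrix (Fin 2) (Fin 2) ℝ) a b := by
    intro a b
    have := ModularForm.val_heckeMatrix hp j
    exact congrFun (congrFun this a) b
  rw [h]
  fin_cases a <;> fin_cases b
  · exact ⟨1, by simp⟩
  · exact ⟨j, by simp⟩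
  · exact ⟨0, by simp⟩
  · exact ⟨p, by simp⟩

theorem hasEntriesIn_heckeDiagMatrix {p : ℕ} (hp : p ≠ 0) :
    HasEntriesIn ℤ (ModularForm.heckeDiagMatrix p) := by
  intro a b
  have h : ∀ a b : Fin 2, (ModularForm.heckeDiagMatrix p : GL (Fin 2) ℝ) a b =
      (!![(p : ℝ), 0; 0, 1] : Matrix (Fin 2) (Fin 2) ℝ) a b := by
    intro a b
    have := ModularForm.val_heckeDiagMatrix hp
    exact congrFun (congrFun this a) b
  rw [h]
  fin_cases a <;> fin_cases b
  · exact ⟨p, by simp⟩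
  · exact ⟨0, by simp⟩
  · exact ⟨0, by simp⟩
  · exact ⟨1, by simp⟩

theorem heckeT_rewriting (N p : ℕ) (hp : p.Prime) (hpN : ¬ p ∣ N) :
    ∃ (X : Type) (_ : Fintype X) (α : X → GL (Fin 2) ℝ),
      (∀ x, 0 < (α x).det.val) ∧ (∀ x, HasEntriesIn ℤ (α x)) ∧
      (∀ (k : ℤ) (f : ℍ → ℂ), ModularForm.heckeT k p f = ∑ x, f ∣[k] α x) ∧
      ∀ γ ∈ Gamma0 N, ∃ (σ : Equiv.Perm X) (κ : X → SL(2, ℤ)),
        (∀ x, κ x ∈ Gamma0 N) ∧ ∀ x, α x * mapGL ℝ γ = mapGL ℝ (κ x) * α (σ x) := by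
  classical
  have : Fact p.Prime := ⟨hp⟩
  have : NeZero p := ⟨hp.ne_zero⟩
  refine ⟨OnePoint (ZMod p), inferInstance, heckeRep p, ?_, ?_, ?_, ?_⟩
  · intro x
    induction x using OnePoint.rec with
    | infty => exact ModularForm.det_heckeDiagMatrix_pos p
    | coe j => exact ModularForm.det_heckeMatrix_pos p j.val
  · intro x
    induction x using OnePoint.rec with
    | infty => exact hasEntriesIn_heckeDiagMatrix hp.ne_zero
    | coe j => exact hasEntriesIn_heckeMatrix hp.ne_zero j.val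
  · intro k f
    exact heckeT_eq_sum_onePoint k f
  · intro γ hγ
    have hcN : (N : ℤ) ∣ γ 1 0 :=
      (ZMod.intCast_zmod_eq_zero_iff_dvd _ _).mp (CongruenceSubgroup.Gamma0_mem.mp hγ)
    have h := fun x => heckeRep_mul hpN γ hcN x
    choose κ hκ hmul using h
    refine ⟨MulAction.toPerm (redMatrix p γ), κ, ?_, ?_⟩
    · intro x
      exact CongruenceSubgroup.Gamma0_mem.mpr
        ((ZMod.intCast_zmod_eq_zero_iff_dvd _ _).mpr (hκ x))
    · intro x
      exact hmul x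

theorem heckeU_rewriting (N p : ℕ) [NeZero N] (hpN : p ∣ N) :
    ∃ (X : Type) (_ : Fintype X) (α : X → GL (Fin 2) ℝ),
      (∀ x, 0 < (α x).det.val) ∧ (∀ x, HasEntriesIn ℤ (α x)) ∧
      (∀ (k : ℤ) (f : ℍ → ℂ), ModularForm.heckeU k p f = ∑ x, f ∣[k] α x) ∧
      ∀ γ ∈ Gamma0 N, ∃ (σ : Equiv.Perm X) (κ : X → SL(2, ℤ)),
        (∀ x, κ x ∈ Gamma0 N) ∧ ∀ x, α x * mapGL ℝ γ = mapGL ℝ (κ x) * α (σ x) := by
  classical
  have hp0 : p ≠ 0 := by
    rintro rfl
    exact NeZero.ne N (Nat.eq_zero_of_zero_dvd hpN)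
  have : NeZero p := ⟨hp0⟩
  refine ⟨ZMod p, inferInstance, fun x => ModularForm.heckeMatrix p x.val, ?_, ?_, ?_, ?_⟩
  · intro x
    exact ModularForm.det_heckeMatrix_pos p x.val
  · intro x
    exact hasEntriesIn_heckeMatrix hp0 x.val
  · intro k f
    exact heckeU_eq_sum_zmod k f
  · intro γ hγ
    have hcN : (N : ℤ) ∣ γ 1 0 :=
      (ZMod.intCast_zmod_eq_zero_iff_dvd _ _).mp (CongruenceSubgroup.Gamma0_mem.mp hγ)
    have hc : (p : ℤ) ∣ γ 1 0 := (Int.natCast_dvd_natCast.mpr hpN).trans hcN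
    have h := fun x => heckeMatrix_mul_of_dvd γ hc x
    choose κ hκ hmul using h
    refine ⟨affinePerm γ ((ZMod.intCast_zmod_eq_zero_iff_dvd _ _).mpr hc), κ, ?_, ?_⟩
    · intro x
      rw [CongruenceSubgroup.Gamma0_mem, hκ x]
      push_cast
      rw [CongruenceSubgroup.Gamma0_mem.mp hγ, mul_zero]
    · intro x
      exact hmul x

end Fermat.Agent.H32
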