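import Fermat.Agent.H28.ES.Interface4

/-!
# P-ES / ES-G7a (helper32): `TensorEigenStatement` (pure algebra)

An eigenvector in `k ⊗_ℤ M` from `𝔽_p`-coordinates.
-/

set_option autoImplicit false
set_option linter.style.haveILetI false

noncomputable section

namespace Fermat.Agent.H32

open scoped TensorProduct

/-- Moving a `ZMod p`-scalar across a tensor product over `ℤ`. -/
theorem tmul_zmod_smul {p : ℕ} {k M : Type*} [AddCommGroup k] [AddCommGroup M]
    [Module (ZMod p) k] [Module (ZMod p) M] (τ : ZMod p) (a : k) (m : M) :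
    a ⊗ₜ[ℤ] (τ • m) = (τ • a) ⊗ₜ[ℤ] m := by
  rw [← ZMod.intCast_zmod_cast τ, Int.cast_smul_eq_zsmul, Int.cast_smul_eq_zsmul,
    TensorProduct.smul_tmul]

/-- A finite set of points separating the elements of a finite group of functions. -/
theorem exists_separating_finset {p : ℕ} {X M : Type*} [AddCommGroup M] [Finite M]
    (ev : M →+ (X → ZMod p)) (hev : Function.Injective ev) :
    ∃ S : Finset X, ∀ m : M, (∀ x ∈ S, ev m x = 0) → m = 0 := by
  classical
  have : Fintype M := Fintype.ofFinite M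
  have hex : ∀ m : {m : M // m ≠ 0}, ∃ x : X, ev m.1 x ≠ 0 := by
    intro m
    by_contra hcon
    push Not at hcon
    apply m.2
    apply hev
    rw [map_zero]
    funext x
    exact hcon x
  choose f hf using hex
  refine ⟨Finset.univ.image f, fun m hm => ?_⟩
  by_contra hm0
  exact hf ⟨m, hm0⟩ (hm _ (Finset.mem_image_of_mem f (Finset.mem_univ _)))

/-- The core, with the `ZMod p`-structures as instances. -/
theorem tensorEigen_aux (p : ℕ) [Fact p.Prime] (k : Type) [Field k] [Algebra (ZMod p) k]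
    (X : Type) (M : Type) [AddCommGroup M] [Module (ZMod p) M] [Module.Finite (ZMod p) M]
    [Finite M] (ev : M →+ (X → ZMod p)) (hev : Function.Injective ev)
    (ψ : X → k) (hψ : ψ ≠ 0)
    (hr : ∀ lam : k →+ ZMod p, ∃ m : M, ∀ x, ev m x = lam (ψ x))
    (ι : Type) (t : ι → (M →+ M)) (c : ι → k)
    (he : ∀ (i : ι) (lam : k →+ ZMod p) (m m' : M), (∀ x, ev m x = lam (ψ x)) →
        (∀ x, ev m' x = lam (c i * ψ x)) → t i m = m') :
    ∃ w : k ⊗[ℤ] M, w ≠ 0 ∧ ∀ i, (t i).toIntLinearMap.baseChange k w = c i • w := by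
  classical
  let b : Module.Basis (Fin (Module.finrank (ZMod p) M)) (ZMod p) M :=
    Module.finBasis (ZMod p) M
  let evL : M →ₗ[ZMod p] (X → ZMod p) := AddMonoidHom.toZModLinearMap p ev
  obtain ⟨S, hS⟩ := exists_separating_finset ev hev
  let evS : M →ₗ[ZMod p] (↥S → ZMod p) :=
    LinearMap.pi (fun x => (LinearMap.proj (x : X)).comp evL)
  have hevS_apply : ∀ (m : M) (x : ↥S), evS m x = ev m (x : X) := fun _ _ => rfl
  have hevS : LinearMap.ker evS = ⊥ := by
    rw [LinearMap.ker_eq_bot']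
    intro m hm
    apply hS
    intro x hx
    have := congrFun hm ⟨x, hx⟩
    rwa [hevS_apply] at this
  obtain ⟨r, hr'⟩ := evS.exists_leftInverse_of_injective hevS
  let e : ↥S → (↥S → ZMod p) := fun i => fun j => if i = j then 1 else 0
  have hrec : ∀ m : M, m = ∑ x : ↥S, ev m (x : X) • r (e x) := by
    intro m
    have h1 : r (evS m) = m := by
      have := LinearMap.congr_fun hr' m
      simpa using this
    rw [LinearMap.pi_apply_eq_sum_univ r (evS m)] at h1
    exact h1.symm
  -- the coordinates of the eigenvector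
  let a : Fin (Module.finrank (ZMod p) M) → k := fun j => ∑ x : ↥S, b.repr (r (e x)) j • ψ (x : X)
  have KP : ∀ (φ : k →ₗ[ZMod p] ZMod p) (m : M), (∀ x, ev m x = φ (ψ x)) →
      ∀ j, b.repr m j = φ (a j) := by
    intro φ m hm j
    have h1 : b.repr m j = ∑ x : ↥S, ev m (x : X) * b.repr (r (e x)) j := by
      conv_lhs => rw [hrec m]
      rw [map_sum, Finsupp.coe_finsetSum, Finset.sum_apply]
      refine Finset.sum_congr rfl fun x _ => ?_
      rw [map_smul, Finsupp.smul_apply, smul_eq_mul]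
    rw [h1, map_sum]
    refine Finset.sum_congr rfl fun x _ => ?_
    rw [map_smul, smul_eq_mul, hm, mul_comm]
  -- the chosen element for a functional
  have hΦ : ∀ φ : k →ₗ[ZMod p] ZMod p, ∃ m : M, ∀ x, ev m x = φ (ψ x) := fun φ =>
    hr φ.toAddMonoidHom
  choose Φ hΦs using hΦ
  refine ⟨∑ j, a j ⊗ₜ[ℤ] b j, ?_, ?_⟩
  · -- nonvanishing
    intro hw
    obtain ⟨x₀, hx₀⟩ : ∃ x₀, ψ x₀ ≠ 0 := by
      by_contra hcon
      push Not at hcon
      exact hψ (funext hcon)
    obtain ⟨φ, hφ⟩ := Module.Projective.exists_dual_ne_zero (ZMod p) hx₀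
    let f0 : k →+ M →+ M := (smulAddHom (ZMod p) M).comp φ.toAddMonoidHom
    have hf0 : ∀ (z : ℤ) (u : k) (m : M), f0 (z • u) m = f0 u (z • m) := by
      intro z u m
      show φ (z • u) • m = φ u • (z • m)
      rw [map_zsmul, smul_comm, smul_assoc]
    let L : k ⊗[ℤ] M →+ M := TensorProduct.liftAddHom f0 hf0
    have hL : L (∑ j, a j ⊗ₜ[ℤ] b j) = Φ φ := by
      rw [map_sum]
      have h2 : ∀ j, L (a j ⊗ₜ[ℤ] b j) = b.repr (Φ φ) j • b j := by
        intro j
        show φ (a j) • b j = _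
        rw [KP φ (Φ φ) (hΦs φ) j]
      rw [Finset.sum_congr rfl fun j _ => h2 j]
      exact b.sum_repr (Φ φ)
    rw [hw, map_zero] at hL
    have h3 := hΦs φ x₀
    rw [← hL, map_zero] at h3
    exact hφ h3.symm
  · -- eigenvector
    intro i
    have hti : ∀ (m : M) (l : Fin (Module.finrank (ZMod p) M)),
        b.repr (t i m) l = ∑ j, b.repr m j * b.repr (t i (b j)) l := by
      intro m l
      have h1 : t i m = ∑ j, b.repr m j • t i (b j) := by
        conv_lhs => rw [← b.sum_repr m]
        rw [map_sum]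
        refine Finset.sum_congr rfl fun j _ => ?_
        exact ZMod.map_smul (t i) _ _
      rw [h1, map_sum, Finsupp.coe_finsetSum, Finset.sum_apply]
      refine Finset.sum_congr rfl fun j _ => ?_
      rw [map_smul, Finsupp.smul_apply, smul_eq_mul]
    have hcoord : ∀ l, ∑ j, b.repr (t i (b j)) l • a j = c i * a l := by
      intro l
      rw [← sub_eq_zero, ← Module.forall_dual_apply_eq_zero_iff (ZMod p)]
      intro φ
      rw [map_sub, sub_eq_zero, map_sum]
      let φ' : k →ₗ[ZMod p] ZMod p := φ.comp (LinearMap.mulLeft (ZMod p) (c i))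
      have hm' : ∀ x, ev (Φ φ') x = φ (c i * ψ x) := fun x => hΦs φ' x
      have hte : t i (Φ φ) = Φ φ' := he i φ.toAddMonoidHom (Φ φ) (Φ φ') (hΦs φ) hm'
      have h1 : φ (c i * a l) = b.repr (Φ φ') l := (KP φ' (Φ φ') (hΦs φ') l).symm
      rw [h1, ← hte, hti]
      refine Finset.sum_congr rfl fun j _ => ?_
      rw [map_smul, smul_eq_mul, KP φ (Φ φ) (hΦs φ) j, mul_comm]
    rw [map_sum, Finset.smul_sum]
    have hL : ∀ j, (t i).toIntLinearMap.baseChange k (a j ⊗ₜ[ℤ] b j)
        = ∑ l, (b.repr (t i (b j)) l • a j) ⊗ₜ[ℤ] b l := by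
      intro j
      rw [LinearMap.baseChange_tmul]
      have h1 : (t i).toIntLinearMap (b j) = ∑ l, b.repr (t i (b j)) l • b l :=
        (b.sum_repr (t i (b j))).symm
      rw [h1, TensorProduct.tmul_sum]
      refine Finset.sum_congr rfl fun l _ => ?_
      exact tmul_zmod_smul _ _ _
    rw [Finset.sum_congr rfl fun j _ => hL j, Finset.sum_comm]
    refine Finset.sum_congr rfl fun l _ => ?_
    rw [← TensorProduct.sum_tmul, hcoord l, TensorProduct.smul_tmul', smul_eq_mul]

/-- **ES-G7a.** -/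
theorem tensorEigen : Fermat.Agent.H28.TensorEigenStatement := by
  intro p _ k _ _ X M _ _ ev hev ψ hψ hr ι t c he
  have hpM : ∀ m : M, p • m = 0 := by
    intro m
    apply hev
    rw [map_nsmul, map_zero]
    funext x
    simp
  exact @tensorEigen_aux p _ k _ (ZMod.algebra k p) X M _ (AddCommGroup.zmodModule hpM)
    (@Module.Finite.of_finite (ZMod p) M _ _ (AddCommGroup.zmodModule hpM) _) _
    ev hev ψ hψ hr ι t c he

end Fermat.Agent.H32
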