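import Fermat.Agent.H70.AddSub
import Fermat.Agent.H72.Ward
import Mathlib.AlgebraicGeometry.EllipticCurve.DivisionPolynomial.Degree

/-!
# Division polynomials and multiples of a point: Step A (helper32, S13 / WP3b)

For a nonsingular affine point `P = (x, y)` of a Weierstrass curve over a field let
`h n = ψₙ(x, y) = normEDS (ψ₂(x,y)) (Ψ₃(x)) (preΨ₄(x)) n`.  If `j • P ≠ 0` for `1 ≤ j ≤ k` then
`h k ≠ 0` and `(x - x(k • P)) * h k ^ 2 = h (k - 1) * h (k + 1)`.
Consequently the first zero of `h` at a positive index is exactly the order of `P`.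
-/

set_option autoImplicit false

namespace Fermat.Agent.H32

open WeierstrassCurve WeierstrassCurve.Affine
open Fermat.Agent.H38 Fermat.Agent.H70 Fermat.Agent.H72

variable {F : Type*} [Field F]

/-- the values `ψₙ(x, y)` of the division polynomials at a point -/
noncomputable def dpVal (W : WeierstrassCurve F) (x y : F) (n : ℤ) : F :=
  normEDS (W.ψ₂.evalEval x y) (W.Ψ₃.eval x) (W.preΨ₄.eval x) n

section values

variable (W : WeierstrassCurve F) (x y : F)

@[simp] lemma dpVal_zero : dpVal W x y 0 = 0 := normEDS_zero ..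
@[simp] lemma dpVal_one : dpVal W x y 1 = 1 := normEDS_one ..
@[simp] lemma dpVal_two : dpVal W x y 2 = W.ψ₂.evalEval x y := normEDS_two ..
@[simp] lemma dpVal_three : dpVal W x y 3 = W.Ψ₃.eval x := normEDS_three ..
@[simp] lemma dpVal_four : dpVal W x y 4 = W.preΨ₄.eval x * W.ψ₂.evalEval x y := normEDS_four ..
@[simp] lemma dpVal_neg (n : ℤ) : dpVal W x y (-n) = -dpVal W x y n := normEDS_neg ..

lemma dpVal_eq_evalEval (n : ℤ) : dpVal W x y n = (W.ψ n).evalEval x y := by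
  have h := map_normEDS (Polynomial.evalEvalRingHom x y) W.ψ₂ (Polynomial.C W.Ψ₃)
    (Polynomial.C W.preΨ₄) n
  simp only [Polynomial.coe_evalEvalRingHom, Polynomial.evalEval_C] at h
  rw [dpVal, WeierstrassCurve.ψ, h]

lemma dpVal_rel (m n : ℤ) :
    dpVal W x y (m + n) * dpVal W x y (m - n) =
      dpVal W x y (m + 1) * dpVal W x y (m - 1) * dpVal W x y n ^ 2 -
        dpVal W x y (n + 1) * dpVal W x y (n - 1) * dpVal W x y m ^ 2 :=
  normEDS_rel ..

lemma dpVal_somos4 (m : ℤ) :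
    dpVal W x y (m + 2) * dpVal W x y (m - 2) =
      dpVal W x y (m + 1) * dpVal W x y (m - 1) * W.ψ₂.evalEval x y ^ 2 -
        W.Ψ₃.eval x * dpVal W x y m ^ 2 :=
  normEDS_somos4 ..

/-- on the curve, `ψₙ(x, y) = preΨₙ(x) * (ψ₂(x, y) if n even, 1 if n odd)` -/
lemma dpVal_eq_preΨ {x y : F} (h : W.toAffine.Equation x y) (n : ℤ) :
    dpVal W x y n = (W.preΨ n).eval x * if Even n then W.ψ₂.evalEval x y else 1 := by
  have h1 := map_preNormEDS (Polynomial.evalRingHom x) (W.Ψ₂Sq ^ 2) W.Ψ₃ W.preΨ₄ n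
  simp only [Polynomial.coe_evalRingHom, Polynomial.eval_pow] at h1
  rw [dpVal, normEDS, WeierstrassCurve.preΨ, h1, ← evalEval_ψ₂_sq W h, ← pow_mul]

lemma dpVal_odd_eq_preΨ {x y : F} (h : W.toAffine.Equation x y) {n : ℤ} (hn : ¬ Even n) :
    dpVal W x y n = (W.preΨ n).eval x := by
  rw [dpVal_eq_preΨ W h, if_neg hn, mul_one]

end values

variable [DecidableEq F]

section stepA

variable (W : WeierstrassCurve F) {x y : F} (h : W.toAffine.Nonsingular x y)

include h in
lemma dp_two_nsmul_eq_zero_iff :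
    (2 : ℕ) • (Point.some x y h : W.toAffine.Point) = 0 ↔ W.ψ₂.evalEval x y = 0 := by
  rw [two_nsmul_eq_zero_iff W (Point.some_ne_zero h), xc_some, dblDen_eq_eval,
    ← evalEval_ψ₂_sq W h.1, sq_eq_zero_iff]

/-- **Step A.** -/
theorem dp_stepA : ∀ k : ℕ, 1 ≤ k →
    (∀ j : ℕ, 1 ≤ j → j ≤ k → j • (Point.some x y h : W.toAffine.Point) ≠ 0) →
    dpVal W x y k ≠ 0 ∧
      (x - xc W (k • (Point.some x y h : W.toAffine.Point))) * dpVal W x y k ^ 2 =
        dpVal W x y ((k : ℤ) - 1) * dpVal W x y ((k : ℤ) + 1) := by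
  intro k
  induction k using Nat.strong_induction_on with
  | _ k ih =>
  intro hk hall
  set P : W.toAffine.Point := Point.some x y h with hPdef
  have hP : P ≠ 0 := Point.some_ne_zero h
  have hxP : xc W P = x := rfl
  -- small cases
  rcases Nat.lt_or_ge k 4 with hk4 | hk4
  · interval_cases k
    · -- k = 1
      refine ⟨by simp, ?_⟩
      simp [hxP]
    · -- k = 2
      have h2 : 2 • P ≠ 0 := hall 2 (by norm_num) le_rfl
      have hb : W.ψ₂.evalEval x y ≠ 0 := fun hb => h2 ((dp_two_nsmul_eq_zero_iff W h).mpr hb)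
      refine ⟨by simpa using hb, ?_⟩
      have hdup := xc_sub_xc_two_nsmul W hP h2
      rw [hxP, ← evalEval_ψ₂_sq W h.1] at hdup
      have e1 : ((2 : ℕ) : ℤ) - 1 = 1 := by norm_num
      have e2 : ((2 : ℕ) : ℤ) + 1 = 3 := by norm_num
      rw [e1, e2]
      simpa using hdup
    · -- k = 3
      have h2 : 2 • P ≠ 0 := hall 2 (by norm_num) (by norm_num)
      have h3 : 3 • P ≠ 0 := hall 3 (by norm_num) le_rfl
      have hb : W.ψ₂.evalEval x y ≠ 0 := fun hb => h2 ((dp_two_nsmul_eq_zero_iff W h).mpr hb)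
      have hne := xc_ne_xc_two_nsmul W hP h2 h3
      have hdup := xc_sub_xc_two_nsmul W hP h2
      rw [hxP, ← evalEval_ψ₂_sq W h.1] at hdup
      have hc : W.Ψ₃.eval x ≠ 0 := by
        rw [← hdup]
        exact mul_ne_zero (sub_ne_zero.mpr (by rwa [hxP] at hne)) (pow_ne_zero _ hb)
      refine ⟨by simpa using hc, ?_⟩
      have htrip := xc_sub_xc_three_nsmul W hP h3
      rw [hxP, ← evalEval_ψ₂_sq W h.1] at htrip
      have e1 : ((3 : ℕ) : ℤ) - 1 = 2 := by norm_num
      have e2 : ((3 : ℕ) : ℤ) + 1 = 4 := by norm_num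
      rw [e1, e2]
      simp only [Nat.cast_ofNat, dpVal_three, dpVal_two, dpVal_four]
      linear_combination htrip
  · -- k ≥ 4
    obtain ⟨m, rfl⟩ : ∃ m, k = m + 4 := ⟨k - 4, by omega⟩
    have hall' : ∀ i : ℕ, i ≤ m + 3 → ∀ j : ℕ, 1 ≤ j → j ≤ i → j • P ≠ 0 :=
      fun i hi j hj hji => hall j hj (by omega)
    obtain ⟨hu, -⟩ := ih (m + 1) (by omega) (by omega) (hall' _ (by omega))
    obtain ⟨hv, e2⟩ := ih (m + 2) (by omega) (by omega) (hall' _ (by omega))
    obtain ⟨hw, e1⟩ := ih (m + 3) (by omega) (by omega) (hall' _ (by omega))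
    set Q : W.toAffine.Point := (m + 3) • P with hQdef
    have hQ : Q ≠ 0 := hall (m + 3) (by omega) (by omega)
    have hQP : Q + P = (m + 4) • P := by rw [hQdef, ← succ_nsmul]
    have hQP' : Q - P = (m + 2) • P := by
      rw [hQdef, show m + 3 = (m + 2) + 1 from rfl, succ_nsmul, add_sub_cancel_right]
    have hne : xc W P ≠ xc W Q := by
      intro hx
      rcases eq_or_eq_neg_of_xc_eq W hQ hP hx.symm with h' | h'
      · exact hall (m + 2) (by omega) (by omega) (by rw [← hQP', h', sub_self])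
      · exact hall (m + 4) (by omega) le_rfl (by rw [← hQP, h', neg_add_cancel])
    have e3 := xc_sub_mul_xc_sub W hP hQ hne
    rw [hQP, hQP', hxP, dblDen_eq_eval, psi3_eq_eval, ← evalEval_ψ₂_sq W h.1] at e3
    have e4 := dpVal_somos4 W x y ((m : ℤ) + 3)
    -- normalise the integer indices
    have i1 : ((m + 1 : ℕ) : ℤ) = (m : ℤ) + 1 := by push_cast; ring
    have i2 : ((m + 2 : ℕ) : ℤ) = (m : ℤ) + 2 := by push_cast; ring
    have i3 : ((m + 3 : ℕ) : ℤ) = (m : ℤ) + 3 := by push_cast; ring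
    have i4 : ((m + 4 : ℕ) : ℤ) = (m : ℤ) + 4 := by push_cast; ring
    have j1 : (m : ℤ) + 2 - 1 = (m : ℤ) + 1 := by ring
    have j2 : (m : ℤ) + 2 + 1 = (m : ℤ) + 3 := by ring
    have j3 : (m : ℤ) + 3 - 1 = (m : ℤ) + 2 := by ring
    have j4 : (m : ℤ) + 3 + 1 = (m : ℤ) + 4 := by ring
    have j5 : (m : ℤ) + 3 + 2 = (m : ℤ) + 5 := by ring
    have j6 : (m : ℤ) + 3 - 2 = (m : ℤ) + 1 := by ring
    have j7 : (m : ℤ) + 4 - 1 = (m : ℤ) + 3 := by ring
    have j8 : (m : ℤ) + 4 + 1 = (m : ℤ) + 5 := by ring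
    rw [i1] at hu
    rw [i2] at hv
    rw [i3] at hw
    rw [i2, j1, j2] at e2
    rw [i3, j3, j4] at e1
    rw [j5, j6, j4, j3] at e4
    rw [i4, j7, j8]
    have hne' : x - xc W Q ≠ 0 := sub_ne_zero.mpr (by rwa [hxP] at hne)
    -- `h (m+4) ≠ 0`
    have hz : dpVal W x y ((m : ℤ) + 4) ≠ 0 := by
      intro hz
      rw [hz, mul_zero] at e1
      exact (mul_ne_zero hne' (pow_ne_zero _ hw)) e1
    refine ⟨hz, ?_⟩
    generalize dpVal W x y ((m : ℤ) + 1) = u at *
    generalize dpVal W x y ((m : ℤ) + 2) = v at *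
    generalize dpVal W x y ((m : ℤ) + 3) = w at *
    generalize dpVal W x y ((m : ℤ) + 4) = z at *
    generalize dpVal W x y ((m : ℤ) + 5) = t at *
    generalize W.ψ₂.evalEval x y = b at *
    generalize W.Ψ₃.eval x = c at *
    generalize xc W ((m + 2) • P) = x₂ at *
    generalize xc W ((m + 4) • P) = x₄ at *
    generalize xc W Q = x₃ at *
    have key : u * w * v ^ 2 * ((x - x₄) * z ^ 2 - w * t) = 0 := by
      linear_combination (-(v ^ 2 * (x - x₄) * z ^ 2)) * e2 +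
        (-((x - x₂) * (x - x₄) * v ^ 2 * ((x - x₃) * w ^ 2 + v * z)) + b ^ 2 * v ^ 2 * w ^ 2) * e1 +
        (v ^ 2 * w ^ 4) * e3 - (v ^ 2 * w ^ 2) * e4
    have hne0 : u * w * v ^ 2 ≠ 0 := mul_ne_zero (mul_ne_zero hu hw) (pow_ne_zero _ hv)
    have := (mul_eq_zero.mp key).resolve_left hne0
    linear_combination this

end stepA

end Fermat.Agent.H32
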