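import Fermat.Agent.H32.DPStepA

/-!
# Division polynomials and multiples of a point: Step B and the root/torsion equivalence
(helper32, S13 / WP3b)

* `dp_succ_eq_zero_iff`: the first zero of `n ↦ ψₙ(P)` is the order of `P`;
* `dp_stepB`: if `P` has exact order `N ≥ 2` then `ψₙ(P) ≠ 0` for `N ∤ n`;
* `dp_preΨ_eval_eq_zero_iff`: for an odd prime `p`, `preΨ_p(x) = 0 ↔ p • (x, y) = 0`.
-/

set_option autoImplicit false

namespace Fermat.Agent.H32

open WeierstrassCurve WeierstrassCurve.Affine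
open Fermat.Agent.H38 Fermat.Agent.H70 Fermat.Agent.H72

variable {F : Type*} [Field F] [DecidableEq F]
variable (W : WeierstrassCurve F) {x y : F} (h : W.toAffine.Nonsingular x y)

/-- **First zero.**  If `j • P ≠ 0` for `1 ≤ j ≤ k` then `ψ_{k+1}(P) = 0 ↔ (k + 1) • P = 0`. -/
theorem dp_succ_eq_zero_iff (k : ℕ) (hk : 1 ≤ k)
    (hall : ∀ j : ℕ, 1 ≤ j → j ≤ k → j • (Point.some x y h : W.toAffine.Point) ≠ 0) :
    dpVal W x y ((k : ℤ) + 1) = 0 ↔ (k + 1) • (Point.some x y h : W.toAffine.Point) = 0 := by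
  set P : W.toAffine.Point := Point.some x y h with hPdef
  have hP : P ≠ 0 := Point.some_ne_zero h
  have hxP : xc W P = x := rfl
  rcases Nat.eq_or_lt_of_le hk with rfl | hk2
  · have e : ((1 : ℕ) : ℤ) + 1 = 2 := by norm_num
    rw [e, dpVal_two]
    exact (dp_two_nsmul_eq_zero_iff W h).symm
  · obtain ⟨hk0, e⟩ := dp_stepA W h k hk hall
    obtain ⟨hk1, -⟩ := dp_stepA W h (k - 1) (by omega) (fun j hj hjk => hall j hj (by omega))
    have i1 : ((k - 1 : ℕ) : ℤ) = (k : ℤ) - 1 := by
      rw [Nat.cast_sub hk]; norm_num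
    rw [i1] at hk1
    have hkP : k • P ≠ 0 := hall k hk le_rfl
    constructor
    · intro hz
      rw [hz, mul_zero] at e
      have hx : x - xc W (k • P) = 0 :=
        (mul_eq_zero.mp e).resolve_right (pow_ne_zero _ hk0)
      have hx' : xc W (k • P) = xc W P := by rw [hxP]; exact (sub_eq_zero.mp hx).symm
      rcases eq_or_eq_neg_of_xc_eq W hkP hP hx' with h' | h'
      · exfalso
        apply hall (k - 1) (by omega) (by omega)
        have : k • P - P = 0 := by rw [h', sub_self]
        obtain ⟨m, rfl⟩ : ∃ m, k = m + 1 := ⟨k - 1, by omega⟩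
        rwa [succ_nsmul, add_sub_cancel_right] at this
      · rw [succ_nsmul, h', neg_add_cancel]
    · intro hz
      have h' : k • P = -P := by
        rw [succ_nsmul] at hz
        exact eq_neg_of_add_eq_zero_left hz
      have hx : x - xc W (k • P) = 0 := by rw [h', xc_neg, hxP, sub_self]
      rw [hx, zero_mul] at e
      exact (mul_eq_zero.mp e.symm).resolve_left hk1

/-- values of `ψ` below and at the exact order -/
theorem dp_order (N : ℕ) (hN2 : 2 ≤ N)
    (hN : N • (Point.some x y h : W.toAffine.Point) = 0)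
    (hmin : ∀ j : ℕ, 1 ≤ j → j < N → j • (Point.some x y h : W.toAffine.Point) ≠ 0) :
    dpVal W x y N = 0 ∧ ∀ j : ℕ, 1 ≤ j → j < N → dpVal W x y j ≠ 0 := by
  constructor
  · obtain ⟨k, rfl⟩ : ∃ k, N = k + 1 := ⟨N - 1, by omega⟩
    have := (dp_succ_eq_zero_iff W h k (by omega) (fun j hj hjk => hmin j hj (by omega))).mpr hN
    rwa [Nat.cast_add, Nat.cast_one]
  · intro j hj hjN
    exact (dp_stepA W h j hj (fun i hi hij => hmin i hi (by omega))).1

/-- **Step B.**  If `P` has exact order `N ≥ 2` and `N ∤ n` then `ψₙ(P) ≠ 0`. -/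
theorem dp_stepB (hΔ : W.Δ ≠ 0) (N : ℕ) (hN2 : 2 ≤ N)
    (hN : N • (Point.some x y h : W.toAffine.Point) = 0)
    (hmin : ∀ j : ℕ, 1 ≤ j → j < N → j • (Point.some x y h : W.toAffine.Point) ≠ 0) :
    ∀ n : ℕ, ¬ N ∣ n → dpVal W x y n ≠ 0 := by
  set P : W.toAffine.Point := Point.some x y h with hPdef
  have hP : P ≠ 0 := Point.some_ne_zero h
  have hxP : xc W P = x := rfl
  obtain ⟨hzero, hnz⟩ := dp_order W h N hN2 hN hmin
  -- `ψ_{N+1}(P) ≠ 0`
  have hsucc : dpVal W x y ((N : ℤ) + 1) ≠ 0 := by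
    rcases Nat.lt_or_ge N 4 with hN4 | hN4
    · interval_cases N
      · -- N = 2
        have e : ((2 : ℕ) : ℤ) + 1 = 3 := by norm_num
        rw [e, dpVal_three, ← psi3_eq_eval, psi3_eq]
        have hD : dblDen W x = 0 := by
          have := (two_nsmul_eq_zero_iff W hP).mp hN
          rwa [hxP] at this
        rw [hD, mul_zero, zero_sub, neg_ne_zero]
        exact dblNum_ne_zero_of_dblDen_eq_zero W hΔ hD
      · -- N = 3
        have e : ((3 : ℕ) : ℤ) + 1 = 4 := by norm_num
        rw [e, dpVal_four]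
        have h2 : 2 • P ≠ 0 := hmin 2 (by norm_num) (by norm_num)
        have hb : W.ψ₂.evalEval x y ≠ 0 := fun hb => h2 ((dp_two_nsmul_eq_zero_iff W h).mpr hb)
        obtain ⟨x', y', h', h2P⟩ := exists_some_of_ne_zero W h2
        have hcomp := preΨ₄_eval_eq_of_two_nsmul W h2P
        have h4 : (2 : ℕ) • (Point.some x' y' h' : W.toAffine.Point) ≠ 0 := by
          rw [← h2P, ← mul_nsmul]
          have : (2 * 2 : ℕ) • P = 3 • P + P := by
            rw [show (2 * 2 : ℕ) = 3 + 1 from rfl, succ_nsmul]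
          rw [this, hN, zero_add]
          exact hP
        have hb' : W.ψ₂.evalEval x' y' ≠ 0 :=
          fun hb' => h4 ((dp_two_nsmul_eq_zero_iff W h').mpr hb')
        rw [hcomp]
        exact mul_ne_zero (mul_ne_zero (pow_ne_zero _ hb) hb') hb
    · -- N ≥ 4
      have e4 := dpVal_somos4 W x y ((N : ℤ) - 1)
      have j1 : (N : ℤ) - 1 + 2 = (N : ℤ) + 1 := by ring
      have j2 : (N : ℤ) - 1 - 2 = ((N - 3 : ℕ) : ℤ) := by
        rw [Nat.cast_sub (by omega)]; push_cast; ring
      have j3 : (N : ℤ) - 1 + 1 = (N : ℤ) := by ring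
      have j4 : (N : ℤ) - 1 - 1 = ((N - 2 : ℕ) : ℤ) := by
        rw [Nat.cast_sub (by omega)]; push_cast; ring
      have j5 : (N : ℤ) - 1 = ((N - 1 : ℕ) : ℤ) := by
        rw [Nat.cast_sub (by omega)]; push_cast; ring
      rw [j1, j2, j3, j4, hzero, zero_mul, zero_mul, zero_sub, j5] at e4
      have hc : W.Ψ₃.eval x ≠ 0 := by
        have := hnz 3 (by norm_num) (by omega)
        simpa using this
      have hN1 : dpVal W x y ((N - 1 : ℕ) : ℤ) ≠ 0 := hnz (N - 1) (by omega) (by omega)
      intro hz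
      rw [hz, zero_mul] at e4
      exact (neg_ne_zero.mpr (mul_ne_zero hc (pow_ne_zero _ hN1))) e4.symm
  have hpred : dpVal W x y ((N : ℤ) - 1) ≠ 0 := by
    have := hnz (N - 1) (by omega) (by omega)
    rwa [Nat.cast_sub (by omega), Nat.cast_one] at this
  -- induction
  intro n
  induction n using Nat.strong_induction_on with
  | _ n ih =>
  intro hdvd
  rcases Nat.lt_or_ge n N with hlt | hge
  · have hn1 : 1 ≤ n := by
      rcases Nat.eq_zero_or_pos n with rfl | hpos
      · exact absurd (dvd_zero N) hdvd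
      · exact hpos
    exact hnz n hn1 hlt
  · have hne : n ≠ N := fun e => hdvd (e ▸ dvd_rfl)
    have hlt : N < n := lt_of_le_of_ne hge (Ne.symm hne)
    have hdvd' : ¬ N ∣ n - N := by
      intro hd
      apply hdvd
      have := Nat.dvd_add hd (dvd_refl N)
      rwa [Nat.sub_add_cancel hge] at this
    have ih' := ih (n - N) (by omega) hdvd'
    have hrel := dpVal_rel W x y ((n : ℤ) - N) N
    have k1 : (n : ℤ) - N + N = n := by ring
    rw [k1, hzero] at hrel
    have k2 : ((n - N : ℕ) : ℤ) = (n : ℤ) - N := by rw [Nat.cast_sub hge]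
    rw [k2] at ih'
    intro hz
    rw [hz, zero_mul] at hrel
    have : dpVal W x y ((N : ℤ) + 1) * dpVal W x y ((N : ℤ) - 1) *
        dpVal W x y ((n : ℤ) - N) ^ 2 = 0 := by
      linear_combination hrel
    exact (mul_ne_zero (mul_ne_zero hsucc hpred) (pow_ne_zero _ ih')) this

/-- For an odd prime `p`: `preΨ_p(x) = 0 ↔ p • (x, y) = 0`. -/
theorem dp_preΨ_eval_eq_zero_iff (hΔ : W.Δ ≠ 0) (p : ℕ) (hp : p.Prime) (hp2 : p ≠ 2) :
    (W.preΨ p).eval x = 0 ↔ p • (Point.some x y h : W.toAffine.Point) = 0 := by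
  set P : W.toAffine.Point := Point.some x y h with hPdef
  have hP : P ≠ 0 := Point.some_ne_zero h
  have hodd : ¬ Even ((p : ℕ) : ℤ) := by
    rw [Int.even_coe_nat]
    exact fun he => hp2 ((Nat.Prime.even_iff hp).mp he)
  rw [← dpVal_odd_eq_preΨ W h.1 hodd]
  have hp1 : 2 ≤ p := hp.two_le
  constructor
  · intro hz
    by_contra hpP
    by_cases hex : ∃ j : ℕ, 1 ≤ j ∧ j • P = 0
    · classical
      let N := Nat.find hex
      have hNspec : 1 ≤ N ∧ N • P = 0 := Nat.find_spec hex
      have hNmin : ∀ j : ℕ, 1 ≤ j → j < N → j • P ≠ 0 := fun j hj hjN hj0 =>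
        Nat.find_min hex hjN ⟨hj, hj0⟩
      have hN2 : 2 ≤ N := by
        rcases Nat.lt_or_ge N 2 with hlt | hge
        · exfalso
          have : N = 1 := by omega
          rw [this, one_nsmul] at hNspec
          exact hP hNspec.2
        · exact hge
      have hNp : ¬ N ∣ p := by
        intro hd
        rcases (Nat.dvd_prime hp).mp hd with h1 | h1
        · omega
        · exact hpP (h1 ▸ hNspec.2)
      exact dp_stepB W h hΔ N hN2 hNspec.2 hNmin p hNp hz
    · push Not at hex
      exact (dp_stepA W h p (by omega) (fun j hj _ => hex j hj)).1 hz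
  · intro hpP
    have hmin : ∀ j : ℕ, 1 ≤ j → j < p → j • P ≠ 0 := by
      intro j hj hjp hj0
      have hd1 : addOrderOf P ∣ p := addOrderOf_dvd_of_nsmul_eq_zero hpP
      have hd2 : addOrderOf P ∣ j := addOrderOf_dvd_of_nsmul_eq_zero hj0
      rcases (Nat.dvd_prime hp).mp hd1 with h1 | h1
      · exact hP (AddMonoid.addOrderOf_eq_one_iff.mp h1)
      · rw [h1] at hd2
        have := Nat.le_of_dvd (by omega) hd2
        omega
    exact (dp_order W h p hp1 hpP hmin).1

end Fermat.Agent.H32
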