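import Fermat.Agent.H32.DPStepB
import Mathlib.FieldTheory.IsAlgClosed.Basic
import Mathlib.Algebra.Module.Torsion.Basic

/-!
# `p`-torsion points and the `p`-th division polynomial (helper32, S13 / WP3b)

Over an algebraically closed field `K` with `p ≠ 0` in `K`, for a Weierstrass curve with `Δ ≠ 0`
and an odd prime `p`:

* `dp_preΨ_root_iff` : `preΨ_p(x) = 0 ↔ ∃ y h, (p : ℤ) • (x, y) = 0`;
* `dp_exists_torsion` : there is a point `P ≠ 0` with `p • P = 0`;
* `dp_torsion_finset` : the `p`-torsion points lie in a finite set of cardinality `≤ p ^ 2`;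
* `dp_nontrivial_torsionBy`, `dp_finite_torsionBy`, `dp_card_torsionBy_le` : the same for
  `Submodule.torsionBy ℤ W.toAffine.Point p`.
-/

set_option autoImplicit false

namespace Fermat.Agent.H32

open WeierstrassCurve WeierstrassCurve.Affine
open Fermat.Agent.H38 Fermat.Agent.H70 Fermat.Agent.H72

variable {K : Type*} [Field K] [DecidableEq K] (W : WeierstrassCurve K)

omit [DecidableEq K] in
/-- over an algebraically closed field every `x` is the abscissa of a point of the curve -/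
theorem dp_exists_equation [IsAlgClosed K] (x : K) : ∃ y : K, W.toAffine.Equation x y := by
  let q : Polynomial K := Polynomial.X ^ 2 + Polynomial.C (W.a₁ * x + W.a₃) * Polynomial.X -
    Polynomial.C (x ^ 3 + W.a₂ * x ^ 2 + W.a₄ * x + W.a₆)
  have hdeg : q.degree = 2 := by
    have h1 : (Polynomial.C (W.a₁ * x + W.a₃) * Polynomial.X -
        Polynomial.C (x ^ 3 + W.a₂ * x ^ 2 + W.a₄ * x + W.a₆) : Polynomial K).degree < 2 := by
      refine lt_of_le_of_lt (Polynomial.degree_sub_le _ _) (max_lt ?_ ?_)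
      · refine lt_of_le_of_lt (Polynomial.degree_C_mul_X_le _) ?_
        norm_num
      · refine lt_of_le_of_lt Polynomial.degree_C_le ?_
        norm_num
    have h2 : (Polynomial.X ^ 2 : Polynomial K).degree = 2 := Polynomial.degree_X_pow 2
    show (Polynomial.X ^ 2 + Polynomial.C (W.a₁ * x + W.a₃) * Polynomial.X -
      Polynomial.C (x ^ 3 + W.a₂ * x ^ 2 + W.a₄ * x + W.a₆) : Polynomial K).degree = 2
    rw [add_sub_assoc, Polynomial.degree_add_eq_left_of_degree_lt (by rw [h2]; exact h1), h2]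
  obtain ⟨y, hy⟩ := IsAlgClosed.exists_root q (by rw [hdeg]; norm_num)
  refine ⟨y, ?_⟩
  rw [Affine.equation_iff]
  simp only [q, Polynomial.IsRoot.def, Polynomial.eval_sub, Polynomial.eval_add,
    Polynomial.eval_pow, Polynomial.eval_X, Polynomial.eval_mul, Polynomial.eval_C] at hy
  linear_combination hy

/-- **Roots of `preΨ_p` are the abscissae of the nonzero `p`-torsion points.** -/
theorem dp_preΨ_root_iff [IsAlgClosed K] (hΔ : W.Δ ≠ 0) (p : ℕ) (hp : p.Prime) (hp2 : p ≠ 2)
    (x : K) :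
    (W.preΨ p).eval x = 0 ↔
      ∃ (y : K) (h : W.toAffine.Nonsingular x y),
        (p : ℤ) • (Point.some x y h : W.toAffine.Point) = 0 := by
  constructor
  · intro hx
    obtain ⟨y, hy⟩ := dp_exists_equation W x
    have h : W.toAffine.Nonsingular x y := (equation_iff_nonsingular_of_Δ_ne_zero hΔ).mp hy
    refine ⟨y, h, ?_⟩
    rw [natCast_zsmul]
    exact (dp_preΨ_eval_eq_zero_iff W h hΔ p hp hp2).mp hx
  · rintro ⟨y, h, hP⟩
    rw [natCast_zsmul] at hP
    exact (dp_preΨ_eval_eq_zero_iff W h hΔ p hp hp2).mpr hP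

/-- **Existence of a nonzero `p`-torsion point.** -/
theorem dp_exists_torsion [IsAlgClosed K] (hΔ : W.Δ ≠ 0) (p : ℕ) (hp : p.Prime) (hp2 : p ≠ 2)
    (hpK : (p : K) ≠ 0) :
    ∃ P : W.toAffine.Point, P ≠ 0 ∧ p • P = 0 := by
  have hp3 : 2 < p := lt_of_le_of_ne hp.two_le (Ne.symm hp2)
  have hdeg : 0 < (W.preΨ (p : ℤ)).natDegree :=
    W.natDegree_preΨ_pos (by simpa using hp3) (by simpa using hpK)
  obtain ⟨x, hx⟩ := IsAlgClosed.exists_root (W.preΨ (p : ℤ))
    (by
      intro h0
      rw [Polynomial.degree_eq_natDegree (by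
        intro hz
        rw [hz, Polynomial.natDegree_zero] at hdeg
        exact lt_irrefl _ hdeg)] at h0
      have : (W.preΨ (p : ℤ)).natDegree = 0 := by exact_mod_cast h0
      omega)
  obtain ⟨y, h, hP⟩ := (dp_preΨ_root_iff W hΔ p hp hp2 x).mp hx
  refine ⟨Point.some x y h, Point.some_ne_zero h, ?_⟩
  rwa [natCast_zsmul] at hP

/-- **Counting.**  The `p`-torsion points lie in a finite set with at most `p ^ 2` elements. -/
theorem dp_torsion_finset (hΔ : W.Δ ≠ 0) (p : ℕ) (hp : p.Prime) (hp2 : p ≠ 2)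
    (hpK : (p : K) ≠ 0) :
    ∃ S : Finset W.toAffine.Point, (∀ P : W.toAffine.Point, p • P = 0 → P ∈ S) ∧
      S.card ≤ p ^ 2 := by
  classical
  have hne : W.preΨ (p : ℤ) ≠ 0 := W.preΨ_ne_zero (by simpa using hpK)
  have hodd : ¬ Even ((p : ℕ) : ℤ) := by
    rw [Int.even_coe_nat]
    exact fun he => hp2 ((Nat.Prime.even_iff hp).mp he)
  have hdeg : (W.preΨ (p : ℤ)).natDegree = (p ^ 2 - 1) / 2 := by
    rw [W.natDegree_preΨ (by simpa using hpK), if_neg hodd, Int.natAbs_natCast]
  let R : Finset K := (W.preΨ (p : ℤ)).roots.toFinset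
  have hRcard : R.card ≤ (p ^ 2 - 1) / 2 := by
    calc R.card ≤ Multiset.card (W.preΨ (p : ℤ)).roots := Multiset.toFinset_card_le _
      _ ≤ (W.preΨ (p : ℤ)).natDegree := Polynomial.card_roots' _
      _ = (p ^ 2 - 1) / 2 := hdeg
  -- the fibre over a root
  let fib : K → Finset W.toAffine.Point := fun x =>
    if hx : ∃ P : W.toAffine.Point, P ≠ 0 ∧ xc W P = x then {hx.choose, -hx.choose} else ∅
  have hfib : ∀ x, (fib x).card ≤ 2 := by
    intro x
    by_cases hx : ∃ P : W.toAffine.Point, P ≠ 0 ∧ xc W P = x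
    · simp only [fib, dif_pos hx]
      exact Finset.card_le_two
    · simp only [fib, dif_neg hx]
      simp
  refine ⟨insert 0 (R.biUnion fib), ?_, ?_⟩
  · intro P hP
    by_cases hP0 : P = 0
    · rw [hP0]; exact Finset.mem_insert_self _ _
    · apply Finset.mem_insert_of_mem
      obtain ⟨x, y, h, rfl⟩ := exists_some_of_ne_zero W hP0
      have hroot : (W.preΨ (p : ℤ)).eval x = 0 :=
        (dp_preΨ_eval_eq_zero_iff W h hΔ p hp hp2).mpr hP
      have hxR : x ∈ R := by
        simp only [R, Multiset.mem_toFinset]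
        exact (Polynomial.mem_roots hne).mpr hroot
      rw [Finset.mem_biUnion]
      refine ⟨x, hxR, ?_⟩
      have hx : ∃ P : W.toAffine.Point, P ≠ 0 ∧ xc W P = x :=
        ⟨Point.some x y h, Point.some_ne_zero h, rfl⟩
      simp only [fib, dif_pos hx, Finset.mem_insert, Finset.mem_singleton]
      exact eq_or_eq_neg_of_xc_eq W (Point.some_ne_zero h) hx.choose_spec.1
        (by rw [hx.choose_spec.2]; rfl)
  · calc (insert 0 (R.biUnion fib)).card ≤ (R.biUnion fib).card + 1 := Finset.card_insert_le _ _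
      _ ≤ (∑ x ∈ R, (fib x).card) + 1 := by
        exact Nat.add_le_add_right Finset.card_biUnion_le 1
      _ ≤ (∑ _x ∈ R, 2) + 1 := by
        exact Nat.add_le_add_right (Finset.sum_le_sum (fun x _ => hfib x)) 1
      _ = R.card * 2 + 1 := by rw [Finset.sum_const, smul_eq_mul]
      _ ≤ (p ^ 2 - 1) / 2 * 2 + 1 := by
        exact Nat.add_le_add_right (Nat.mul_le_mul_right 2 hRcard) 1
      _ ≤ p ^ 2 := by
        have h1 : (p ^ 2 - 1) / 2 * 2 ≤ p ^ 2 - 1 := Nat.div_mul_le_self _ _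
        have h2 : 1 ≤ p ^ 2 := Nat.one_le_pow _ _ hp.pos
        omega

section torsionBy

variable (hΔ : W.Δ ≠ 0) (p : ℕ) (hp : p.Prime) (hp2 : p ≠ 2) (hpK : (p : K) ≠ 0)

include hΔ hp hp2 hpK

theorem dp_finite_torsionBy :
    Finite (Submodule.torsionBy ℤ W.toAffine.Point (p : ℤ)) := by
  obtain ⟨S, hS, -⟩ := dp_torsion_finset W hΔ p hp hp2 hpK
  have hsub : (Submodule.torsionBy ℤ W.toAffine.Point (p : ℤ) : Set W.toAffine.Point) ⊆ S := by
    intro P hP
    have h1 : (p : ℤ) • P = 0 := (Submodule.mem_torsionBy_iff _ _).mp hP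
    rw [natCast_zsmul] at h1
    exact hS P h1
  exact (S.finite_toSet.subset hsub).to_subtype

theorem dp_card_torsionBy_le :
    Nat.card (Submodule.torsionBy ℤ W.toAffine.Point (p : ℤ)) ≤ p ^ 2 := by
  obtain ⟨S, hS, hcard⟩ := dp_torsion_finset W hΔ p hp hp2 hpK
  have hsub : (Submodule.torsionBy ℤ W.toAffine.Point (p : ℤ) : Set W.toAffine.Point) ⊆ S := by
    intro P hP
    have h1 : (p : ℤ) • P = 0 := (Submodule.mem_torsionBy_iff _ _).mp hP
    rw [natCast_zsmul] at h1
    exact hS P h1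
  calc Nat.card (Submodule.torsionBy ℤ W.toAffine.Point (p : ℤ))
      = Set.ncard (Submodule.torsionBy ℤ W.toAffine.Point (p : ℤ) : Set W.toAffine.Point) := rfl
    _ ≤ Set.ncard (S : Set W.toAffine.Point) := Set.ncard_le_ncard hsub S.finite_toSet
    _ = S.card := Set.ncard_coe_finset S
    _ ≤ p ^ 2 := hcard

theorem dp_nontrivial_torsionBy [IsAlgClosed K] :
    Nontrivial (Submodule.torsionBy ℤ W.toAffine.Point (p : ℤ)) := by
  obtain ⟨P, hP0, hP⟩ := dp_exists_torsion W hΔ p hp hp2 hpK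
  have hmem : P ∈ Submodule.torsionBy ℤ W.toAffine.Point (p : ℤ) := by
    rw [Submodule.mem_torsionBy_iff, natCast_zsmul]
    exact hP
  refine ⟨⟨⟨P, hmem⟩, 0, ?_⟩⟩
  intro h
  exact hP0 (congrArg Subtype.val h)

end torsionBy

end Fermat.Agent.H32
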