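import Fermat.Agent.H32.DepQExp

/-!
# P-DS, DS-2H (row 474): the `N`-depletion, part 4: the coefficients `c_u` (Ramanujan sums) and
the depleted form
-/

set_option autoImplicit false

open UpperHalfPlane CongruenceSubgroup ModularFormClass
open scoped MatrixGroups ModularForm Pointwise

namespace Fermat.Agent.H32

noncomputable section

/-- `c_x = N⁻¹ ∑_{k ∈ (ℤ/N)ˣ} e(-k x / N)`. -/
def depCoeff (N : ℕ) [NeZero N] (x : ZMod N) : ℂ :=
  (N : ℂ)⁻¹ * ∑ k : (ZMod N)ˣ, ZMod.stdAddChar (-((k : ZMod N) * x))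

lemma depCoeff_unit_mul (N : ℕ) [NeZero N] (t : (ZMod N)ˣ) (x : ZMod N) :
    depCoeff N ((t : ZMod N) * x) = depCoeff N x := by
  unfold depCoeff
  congr 1
  refine Fintype.sum_equiv (Equiv.mulRight t) _ _ fun k => ?_
  simp [mul_assoc]

lemma depCoeff_sum (N : ℕ) [NeZero N] (m : ZMod N) :
    ∑ x : ZMod N, depCoeff N x * ZMod.stdAddChar (x * m) = if IsUnit m then 1 else 0 := by
  classical
  have hN : (N : ℂ) ≠ 0 := Nat.cast_ne_zero.mpr (NeZero.ne N)
  have h1 : ∀ x : ZMod N, depCoeff N x * ZMod.stdAddChar (x * m) =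
      (N : ℂ)⁻¹ * ∑ k : (ZMod N)ˣ, ZMod.stdAddChar (x * (m - (k : ZMod N))) := by
    intro x
    unfold depCoeff
    rw [mul_assoc, Finset.sum_mul]
    congr 1
    refine Finset.sum_congr rfl fun k _ => ?_
    rw [← AddChar.map_add_eq_mul]
    congr 1
    ring
  simp_rw [h1]
  rw [← Finset.mul_sum, Finset.sum_comm]
  simp_rw [AddChar.sum_mulShift _ (ZMod.isPrimitive_stdAddChar N), ZMod.card]
  by_cases hm : IsUnit m
  · obtain ⟨k₀, rfl⟩ := hm
    rw [if_pos k₀.isUnit, Finset.sum_eq_single k₀]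
    · simp [hN]
    · intro k _ hk
      rw [if_neg]
      · simp
      · rw [sub_eq_zero]
        intro h
        exact hk (Units.ext h.symm)
    · intro h
      exact absurd (Finset.mem_univ _) h
  · rw [if_neg hm, Finset.sum_eq_zero, mul_zero]
    intro k _
    rw [if_neg]
    · simp
    · rw [sub_eq_zero]
      intro h
      exact hm (h ▸ k.isUnit)

/-- The `N`-depletion of `f`. -/
def depForm (N : ℕ) [NeZero N] {k : ℤ} (f : CuspForm (Gamma1 N) k) :
    CuspForm (Gamma1 (N ^ 3)) k :=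
  ∑ x : ZMod N, depCoeff N x • depShift N f (x.val : ℤ)

lemma dep_coe_sum {Γ : Subgroup (GL (Fin 2) ℝ)} {k : ℤ} {ι : Type*} (s : Finset ι)
    (F : ι → CuspForm Γ k) : (⇑(∑ i ∈ s, F i) : ℍ → ℂ) = ∑ i ∈ s, ⇑(F i) := by
  classical
  induction s using Finset.induction_on with
  | empty => simp
  | insert i s his ih => rw [Finset.sum_insert his, Finset.sum_insert his, ← ih]; rfl

lemma coe_depForm (N : ℕ) [NeZero N] {k : ℤ} (f : CuspForm (Gamma1 N) k) :
    (⇑(depForm N f) : ℍ → ℂ) = ∑ x : ZMod N, depCoeff N x • ⇑(depShift N f (x.val : ℤ)) := by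
  unfold depForm
  rw [dep_coe_sum]
  rfl

lemma depForm_apply (N : ℕ) [NeZero N] {k : ℤ} (f : CuspForm (Gamma1 N) k) (τ : ℍ) :
    depForm N f τ = ∑ x : ZMod N, depCoeff N x * depShift N f (x.val : ℤ) τ := by
  rw [coe_depForm, Finset.sum_apply]
  rfl

/-- The `q`-expansion of the depletion. -/
lemma qCoeff_depForm (N : ℕ) [NeZero N] {k : ℤ} (f : CuspForm (Gamma1 N) k) (n : ℕ) :
    qCoeff (depForm N f) n = if n.Coprime N then qCoeff f n else 0 := by
  have hsum : ∀ τ : ℍ, HasSum (fun m : ℕ ↦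
      (∑ x : ZMod N, depCoeff N x * (qCoeff f m * ZMod.stdAddChar (x * (m : ZMod N)))) •
        Function.Periodic.qParam 1 (τ : ℂ) ^ m) (depForm N f τ) := by
    intro τ
    rw [depForm_apply]
    have := hasSum_sum (f := fun (x : ZMod N) (m : ℕ) =>
        depCoeff N x * ((qCoeff f m * ZMod.stdAddChar (x * (m : ZMod N))) *
          Function.Periodic.qParam 1 (τ : ℂ) ^ m))
      (a := fun x : ZMod N => depCoeff N x * depShift N f (x.val : ℤ) τ)
      (s := Finset.univ) (fun x _ => by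
        have h := (hasSum_depShift N f (x.val : ℤ) τ).mul_left (depCoeff N x)
        simpa using h)
    convert this using 2 with m
    rw [smul_eq_mul, Finset.sum_mul]
    refine Finset.sum_congr rfl fun x _ => ?_
    ring
  have := ModularFormClass.qExpansion_coeff_unique one_pos (dep_one_mem_strictPeriods (N ^ 3))
    (f := depForm N f) hsum n
  rw [qCoeff, ← this]
  have h2 : ∑ x : ZMod N, depCoeff N x * (qCoeff f n * ZMod.stdAddChar (x * (n : ZMod N))) =
      qCoeff f n * ∑ x : ZMod N, depCoeff N x * ZMod.stdAddChar (x * (n : ZMod N)) := by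
    rw [Finset.mul_sum]
    refine Finset.sum_congr rfl fun x _ => ?_
    ring
  rw [h2, depCoeff_sum]
  by_cases h : n.Coprime N
  · rw [if_pos ((ZMod.isUnit_iff_coprime n N).mpr h), if_pos h, mul_one]
  · rw [if_neg (fun h' => h ((ZMod.isUnit_iff_coprime n N).mp h')), if_neg h, mul_zero]

end

end Fermat.Agent.H32
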