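import Mathlib
import Fermat.Prelude.Def_FLTPrelim_Modularity

/-!
# P-DS, DS-2H (row 474): the `N`-depletion, part 1: matrices

`depAlpha N u = [1, u/N; 0, 1]` and the conjugation formula
`α_u γ α_{u'}⁻¹ ∈ SL(2, ℤ)` for `N² ∣ c_γ`, `N ∣ d u - a u'`.
-/

set_option autoImplicit false

open UpperHalfPlane CongruenceSubgroup ModularFormClass
open scoped MatrixGroups ModularForm

namespace Fermat.Agent.H32

noncomputable section

/-- The translation matrix `[1, u/N; 0, 1]`. -/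
def depAlpha (N : ℕ) (u : ℤ) : GL (Fin 2) ℝ :=
  Matrix.GeneralLinearGroup.upperRightHom ((u : ℝ) / N)

/-- The integral matrix `α_u γ α_{u'}⁻¹`. -/
def depConj (N : ℕ) (γ : SL(2, ℤ)) (u u' c₂ e : ℤ)
    (hc : γ 1 0 = (N : ℤ) ^ 2 * c₂) (he : γ 1 1 * u - γ 0 0 * u' = N * e) : SL(2, ℤ) :=
  ⟨!![γ 0 0 + N * c₂ * u, γ 0 1 + e - c₂ * u * u'; γ 1 0, γ 1 1 - N * c₂ * u'], by
    have hdet : γ 0 0 * γ 1 1 - γ 0 1 * γ 1 0 = 1 := by
      have := γ.2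
      rwa [Matrix.det_fin_two] at this
    rw [Matrix.det_fin_two_of]
    rw [hc] at hdet ⊢
    linear_combination hdet + (N : ℤ) * c₂ * he⟩

@[simp] lemma depConj_00 (N : ℕ) (γ : SL(2, ℤ)) (u u' c₂ e : ℤ)
    (hc : γ 1 0 = (N : ℤ) ^ 2 * c₂) (he : γ 1 1 * u - γ 0 0 * u' = N * e) :
    depConj N γ u u' c₂ e hc he 0 0 = γ 0 0 + N * c₂ * u := rfl

@[simp] lemma depConj_10 (N : ℕ) (γ : SL(2, ℤ)) (u u' c₂ e : ℤ)
    (hc : γ 1 0 = (N : ℤ) ^ 2 * c₂) (he : γ 1 1 * u - γ 0 0 * u' = N * e) :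
    depConj N γ u u' c₂ e hc he 1 0 = γ 1 0 := rfl

@[simp] lemma depConj_11 (N : ℕ) (γ : SL(2, ℤ)) (u u' c₂ e : ℤ)
    (hc : γ 1 0 = (N : ℤ) ^ 2 * c₂) (he : γ 1 1 * u - γ 0 0 * u' = N * e) :
    depConj N γ u u' c₂ e hc he 1 1 = γ 1 1 - N * c₂ * u' := rfl

@[simp] lemma depConj_01 (N : ℕ) (γ : SL(2, ℤ)) (u u' c₂ e : ℤ)
    (hc : γ 1 0 = (N : ℤ) ^ 2 * c₂) (he : γ 1 1 * u - γ 0 0 * u' = N * e) :
    depConj N γ u u' c₂ e hc he 0 1 = γ 0 1 + e - c₂ * u * u' := rfl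

lemma depCoe_apply (g : SL(2, ℤ)) (i j : Fin 2) :
    ((g : GL (Fin 2) ℝ) : Matrix (Fin 2) (Fin 2) ℝ) i j = ((g i j : ℤ) : ℝ) := rfl

lemma depAlpha_mul_eq (N : ℕ) [NeZero N] (γ : SL(2, ℤ)) (u u' c₂ e : ℤ)
    (hc : γ 1 0 = (N : ℤ) ^ 2 * c₂) (he : γ 1 1 * u - γ 0 0 * u' = N * e) :
    depAlpha N u * (γ : GL (Fin 2) ℝ) =
      (depConj N γ u u' c₂ e hc he : GL (Fin 2) ℝ) * depAlpha N u' := by
  have hN : (N : ℝ) ≠ 0 := Nat.cast_ne_zero.mpr (NeZero.ne N)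
  have hcR : ((γ 1 0 : ℤ) : ℝ) = (N : ℝ) ^ 2 * c₂ := by
    exact_mod_cast congrArg (Int.cast (R := ℝ)) hc
  have heR : ((γ 1 1 : ℤ) : ℝ) * u - ((γ 0 0 : ℤ) : ℝ) * u' = N * e := by
    exact_mod_cast congrArg (Int.cast (R := ℝ)) he
  apply Units.ext
  ext i j
  fin_cases i <;> fin_cases j <;>
    simp only [depAlpha, Units.val_mul, Matrix.mul_apply, Fin.sum_univ_two, depCoe_apply,
      depConj_00, depConj_01, depConj_10, depConj_11,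
      Matrix.GeneralLinearGroup.upperRightHom_apply, Fin.zero_eta, Fin.mk_one, Fin.isValue,
      Matrix.of_apply, Matrix.cons_val_zero, Matrix.cons_val_one, Matrix.cons_val',
      Matrix.cons_val_fin_one, hcR, Int.cast_add, Int.cast_sub, Int.cast_mul, Int.cast_natCast]
  · field_simp
    ring
  · field_simp
    linear_combination heR
  · ring
  · field_simp
    ring

end

end Fermat.Agent.H32
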