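import Fermat.Agent.H32.DepTranslate

/-!
# P-DS, DS-2H (row 474): the `N`-depletion, part 3: periodicity, `q`-expansion and nebentypus of
the translates
-/

set_option autoImplicit false

open UpperHalfPlane CongruenceSubgroup ModularFormClass
open scoped MatrixGroups ModularForm Pointwise

namespace Fermat.Agent.H32

noncomputable section

lemma dep_one_mem_strictPeriods (N : ℕ) :
    (1 : ℝ) ∈ (Gamma1 N : Subgroup (GL (Fin 2) ℝ)).strictPeriods := by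
  rw [strictPeriods_Gamma1]
  exact AddSubgroup.mem_zmultiples 1

lemma dep_int_mem_strictPeriods (N : ℕ) (k : ℤ) :
    (k : ℝ) ∈ (Gamma1 N : Subgroup (GL (Fin 2) ℝ)).strictPeriods := by
  rw [strictPeriods_Gamma1]
  exact AddSubgroup.mem_zmultiples_iff.mpr ⟨k, by simp⟩

/-- The translate by `u/N` depends on `u` modulo `N` only. -/
lemma depShift_congr (N : ℕ) [NeZero N] {k : ℤ} (f : CuspForm (Gamma1 N) k) (u u' : ℤ)
    (h : (u : ZMod N) = (u' : ZMod N)) : depShift N f u = depShift N f u' := by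
  have hN : (N : ℝ) ≠ 0 := Nat.cast_ne_zero.mpr (NeZero.ne N)
  obtain ⟨j, hj⟩ : (N : ℤ) ∣ u - u' := by
    rw [← ZMod.intCast_zmod_eq_zero_iff_dvd]
    push_cast
    rw [h, sub_self]
  have hu : u = u' + N * j := by omega
  ext τ
  rw [depShift_apply, depShift_apply]
  have hNC : (N : ℂ) ≠ 0 := Nat.cast_ne_zero.mpr (NeZero.ne N)
  have huC : (u : ℂ) = u' + N * j := by exact_mod_cast congrArg (Int.cast (R := ℂ)) hu
  have : ((u : ℝ) / N) +ᵥ τ = (j : ℝ) +ᵥ (((u' : ℝ) / N) +ᵥ τ) := by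
    ext
    simp only [coe_vadd]
    push_cast
    rw [huC]
    field_simp
    ring
  rw [this]
  exact SlashInvariantForm.vAdd_apply_of_mem_strictPeriods f _ (dep_int_mem_strictPeriods N j)

/-- The `q`-parameter at a translate. -/
lemma dep_qParam_shift (N : ℕ) [NeZero N] (u : ℤ) (τ : ℍ) (m : ℕ) :
    Function.Periodic.qParam 1 ((((u : ℝ) / N) +ᵥ τ : ℍ) : ℂ) ^ m =
      ZMod.stdAddChar ((u : ZMod N) * (m : ZMod N)) * Function.Periodic.qParam 1 (τ : ℂ) ^ m := by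
  have h1 : Function.Periodic.qParam 1 ((((u : ℝ) / N) +ᵥ τ : ℍ) : ℂ) =
      ZMod.stdAddChar (u : ZMod N) * Function.Periodic.qParam 1 (τ : ℂ) := by
    rw [ZMod.stdAddChar_coe, Function.Periodic.qParam, Function.Periodic.qParam,
      ← Complex.exp_add]
    congr 1
    simp only [coe_vadd]
    push_cast
    ring
  rw [h1, mul_pow, ← AddChar.map_nsmul_eq_pow]
  congr 2
  rw [nsmul_eq_mul, mul_comm]

/-- The `q`-expansion of a translate. -/
lemma hasSum_depShift (N : ℕ) [NeZero N] {k : ℤ} (f : CuspForm (Gamma1 N) k) (u : ℤ) (τ : ℍ) :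
    HasSum (fun m : ℕ ↦ (qCoeff f m * ZMod.stdAddChar ((u : ZMod N) * (m : ZMod N))) *
        Function.Periodic.qParam 1 (τ : ℂ) ^ m) (depShift N f u τ) := by
  have := ModularForm.hasSum_qExpansion f one_pos (dep_one_mem_strictPeriods N)
    (((u : ℝ) / N) +ᵥ τ)
  rw [depShift_apply]
  convert this using 2 with m
  rw [dep_qParam_shift, qCoeff, mul_assoc]

/-- The transformation of the translates under `Γ₀(N³)`. -/
lemma depShift_slash (N : ℕ) [NeZero N] {k : ℤ} (f : CuspForm (Gamma1 N) k)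
    (ε : DirichletCharacter ℂ N)
    (hε : ∀ γ : SL(2, ℤ), γ ∈ Gamma0 N →
      (⇑f) ∣[k] γ = (ε (((γ : Matrix (Fin 2) (Fin 2) ℤ) 1 1 : ℤ) : ZMod N)) • ⇑f)
    (γ : SL(2, ℤ)) (hγ : γ ∈ Gamma0 (N ^ 3)) (u : ℤ) :
    (⇑(depShift N f u)) ∣[k] γ =
      ε ((γ 1 1 : ℤ) : ZMod N) • ⇑(depShift N f (γ 1 1 ^ 2 * u)) := by
  have hdet : γ 0 0 * γ 1 1 - γ 0 1 * γ 1 0 = 1 := by
    have := γ.2
    rwa [Matrix.det_fin_two] at this
  obtain ⟨c₃, hc₃⟩ := dep_dvd_of_mem_Gamma0 hγ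
  have hdvd : (N : ℤ) ∣ γ 1 1 * u - γ 0 0 * (γ 1 1 ^ 2 * u) := by
    refine ⟨-(γ 1 1 * u * γ 0 1 * (N ^ 2 * c₃)), ?_⟩
    have h1 : γ 0 0 * γ 1 1 = 1 + γ 0 1 * γ 1 0 := by linarith
    have : γ 1 1 * u - γ 0 0 * (γ 1 1 ^ 2 * u) = γ 1 1 * u * (1 - γ 0 0 * γ 1 1) := by ring
    rw [this, h1, hc₃]
    push_cast
    ring
  obtain ⟨γ', hγ', h10, h11, -⟩ := exists_depConj N γ hγ u (γ 1 1 ^ 2 * u) hdvd
  have hγ'mem : γ' ∈ Gamma0 N := by
    rw [Gamma0_mem, h10, hc₃]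
    push_cast
    simp
  calc (⇑(depShift N f u)) ∣[k] γ
      = ((⇑f) ∣[k] depAlpha N u) ∣[k] (γ : GL (Fin 2) ℝ) := rfl
    _ = (⇑f) ∣[k] (depAlpha N u * (γ : GL (Fin 2) ℝ)) := (SlashAction.slash_mul ..).symm
    _ = (⇑f) ∣[k] ((γ' : GL (Fin 2) ℝ) * depAlpha N (γ 1 1 ^ 2 * u)) := by rw [hγ']
    _ = ((⇑f) ∣[k] γ') ∣[k] depAlpha N (γ 1 1 ^ 2 * u) := SlashAction.slash_mul ..
    _ = (ε ((γ' 1 1 : ℤ) : ZMod N) • ⇑f) ∣[k] depAlpha N (γ 1 1 ^ 2 * u) := by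
        rw [hε γ' hγ'mem]
    _ = ε ((γ 1 1 : ℤ) : ZMod N) • ⇑(depShift N f (γ 1 1 ^ 2 * u)) := by
        ext τ
        rw [h11, depAlpha_slash_apply, Pi.smul_apply, Pi.smul_apply, depShift_apply]

end

end Fermat.Agent.H32
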