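import Fermat.Agent.H32.DepMatrix

/-!
# P-DS, DS-2H (row 474): the `N`-depletion, part 2: translates of a cusp form

For `f ∈ S_k(Γ₁(N))` and `u : ℤ` the function `τ ↦ f (τ + u/N)` is a cusp form on `Γ₁(N³)`.
-/

set_option autoImplicit false

open UpperHalfPlane CongruenceSubgroup ModularFormClass
open scoped MatrixGroups ModularForm Pointwise

namespace Fermat.Agent.H32

noncomputable section

/-- `f ∣[k] α_u` is `τ ↦ f (u/N + τ)`. -/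
lemma depAlpha_slash_apply (N : ℕ) (u : ℤ) (k : ℤ) (f : ℍ → ℂ) (τ : ℍ) :
    (f ∣[k] depAlpha N u) τ = f (((u : ℝ) / N) +ᵥ τ) := by
  suffices depAlpha N u • τ = ((u : ℝ) / N) +ᵥ τ by
    simp_rw [ModularForm.slash_def, this]
    simp [depAlpha, σ, denom, Matrix.GeneralLinearGroup.val_det_apply]
  ext
  simp [depAlpha, σ, num, denom, coe_vadd, UpperHalfPlane.coe_smul, add_comm]

/-- Divisibility form of membership in `Γ₀(M)`. -/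
lemma dep_dvd_of_mem_Gamma0 {M : ℕ} {γ : SL(2, ℤ)} (h : γ ∈ Gamma0 M) : (M : ℤ) ∣ γ 1 0 := by
  rw [Gamma0_mem] at h
  exact (ZMod.intCast_zmod_eq_zero_iff_dvd _ _).mp h

/-- The key conjugation statement. -/
lemma exists_depConj (N : ℕ) [NeZero N] (γ : SL(2, ℤ)) (hγ : γ ∈ Gamma0 (N ^ 3)) (u u' : ℤ)
    (h : (N : ℤ) ∣ γ 1 1 * u - γ 0 0 * u') :
    ∃ γ' : SL(2, ℤ), depAlpha N u * (γ : GL (Fin 2) ℝ) = (γ' : GL (Fin 2) ℝ) * depAlpha N u' ∧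
      γ' 1 0 = γ 1 0 ∧ ((γ' 1 1 : ℤ) : ZMod N) = ((γ 1 1 : ℤ) : ZMod N) ∧
      ((γ' 0 0 : ℤ) : ZMod N) = ((γ 0 0 : ℤ) : ZMod N) := by
  obtain ⟨c₃, hc₃⟩ := dep_dvd_of_mem_Gamma0 hγ
  obtain ⟨e, he⟩ := h
  have hc : γ 1 0 = (N : ℤ) ^ 2 * ((N : ℤ) * c₃) := by
    rw [hc₃]; push_cast; ring
  refine ⟨depConj N γ u u' (N * c₃) e hc he, depAlpha_mul_eq N γ u u' _ e hc he, rfl, ?_, ?_⟩
  · rw [depConj_11]
    push_cast
    simp
  · rw [depConj_00]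
    push_cast
    simp

/-- Membership in `Γ₁(M)` gives the congruences modulo every divisor. -/
lemma dep_gamma1_cast {M N : ℕ} (hNM : N ∣ M) {γ : SL(2, ℤ)} (h : γ ∈ Gamma1 M) :
    ((γ 0 0 : ℤ) : ZMod N) = 1 ∧ ((γ 1 1 : ℤ) : ZMod N) = 1 ∧ ((γ 1 0 : ℤ) : ZMod N) = 0 := by
  rw [Gamma1_mem] at h
  have key : ∀ a b : ℤ, ((a : ℤ) : ZMod M) = (b : ZMod M) → ((a : ℤ) : ZMod N) = (b : ZMod N) := by
    intro a b hab
    have := congrArg (ZMod.castHom hNM (ZMod N)) hab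
    simpa using this
  refine ⟨?_, ?_, ?_⟩
  · simpa using key (γ 0 0) 1 (by simpa using h.1)
  · simpa using key (γ 1 1) 1 (by simpa using h.2.1)
  · simpa using key (γ 1 0) 0 (by simpa using h.2.2)

lemma dep_gamma1_le_gamma0 (M : ℕ) : Gamma1 M ≤ Gamma0 M := by
  intro γ hγ
  rw [Gamma0_mem]
  rw [Gamma1_mem] at hγ
  exact hγ.2.2

/-- `Γ₁(N³) ≤ α_u⁻¹ Γ₁(N) α_u`. -/
lemma dep_gamma1_le_conj (N : ℕ) [NeZero N] (u : ℤ) :
    (Gamma1 (N ^ 3) : Subgroup (GL (Fin 2) ℝ)) ≤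
      ConjAct.toConjAct (depAlpha N u)⁻¹ • (Gamma1 N : Subgroup (GL (Fin 2) ℝ)) := by
  intro g hg
  obtain ⟨γ, hγ, rfl⟩ := Subgroup.mem_map.mp hg
  rw [map_inv, Subgroup.mem_inv_pointwise_smul_iff, ConjAct.toConjAct_smul]
  have h3 : N ∣ N ^ 3 := Dvd.intro_left (N ^ 2) (by ring)
  obtain ⟨h00, h11, -⟩ := dep_gamma1_cast h3 hγ
  have hdvd : (N : ℤ) ∣ γ 1 1 * u - γ 0 0 * u := by
    rw [← ZMod.intCast_zmod_eq_zero_iff_dvd]
    push_cast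
    rw [h00, h11]
    ring
  obtain ⟨γ', hγ', h10', h11', h00'⟩ :=
    exists_depConj N γ (dep_gamma1_le_gamma0 _ hγ) u u hdvd
  have : depAlpha N u * (γ : GL (Fin 2) ℝ) * (depAlpha N u)⁻¹ = (γ' : GL (Fin 2) ℝ) := by
    rw [hγ']; group
  refine Subgroup.mem_map.mpr ⟨γ', ?_, this.symm⟩
  rw [Gamma1_mem]
  refine ⟨by rw [h00', h00], by rw [h11', h11], ?_⟩
  rw [h10']
  exact (dep_gamma1_cast h3 hγ).2.2

/-- Restriction of a cusp form to a smaller subgroup. -/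
def depRestr {Γ Γ' : Subgroup (GL (Fin 2) ℝ)} (h : Γ' ≤ Γ) {k : ℤ} (f : CuspForm Γ k) :
    CuspForm Γ' k where
  toFun := f
  slash_action_eq' γ hγ := f.slash_action_eq' γ (h hγ)
  holo' := f.holo'
  zero_at_cusps' hc := f.zero_at_cusps' (hc.mono h)

/-- The translate `τ ↦ f (τ + u/N)` as a cusp form on `Γ₁(N³)`. -/
def depShift (N : ℕ) [NeZero N] {k : ℤ} (f : CuspForm (Gamma1 N) k) (u : ℤ) :
    CuspForm (Gamma1 (N ^ 3)) k :=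
  depRestr (dep_gamma1_le_conj N u) (CuspForm.translate f (depAlpha N u))

lemma coe_depShift (N : ℕ) [NeZero N] {k : ℤ} (f : CuspForm (Gamma1 N) k) (u : ℤ) :
    (⇑(depShift N f u) : ℍ → ℂ) = (⇑f) ∣[k] depAlpha N u := rfl

lemma depShift_apply (N : ℕ) [NeZero N] {k : ℤ} (f : CuspForm (Gamma1 N) k) (u : ℤ) (τ : ℍ) :
    depShift N f u τ = f (((u : ℝ) / N) +ᵥ τ) := by
  rw [coe_depShift, depAlpha_slash_apply]

end

end Fermat.Agent.H32
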