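import Fermat.Agent.H32.DepCoeff
import Fermat.Agent.H6.DS.Interfaces2

/-!
# P-DS, DS-2H (row 474): the `N`-depletion `f♭ = ∑_{(n,N)=1} a_n qⁿ`

`Fermat.Agent.H32.depletion : Fermat.Agent.H6.DS.DepletionStatement`.

`f♭(z) = ∑_{x mod N} c_x f(z + x/N)`, `c_x = N⁻¹ ∑_{k ∈ (ℤ/N)ˣ} e(-k x/N)`, is a cusp form on
`Γ₁(N³)` with `q`-expansion `∑_{(n,N)=1} a_n qⁿ` and the same nebentypus as `f`.
-/

set_option autoImplicit false

open UpperHalfPlane CongruenceSubgroup ModularFormClass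
open scoped MatrixGroups ModularForm Pointwise

namespace Fermat.Agent.H32

noncomputable section

/-- The lower right entry of an element of `Γ₀(M)` is a unit modulo every divisor of `M`. -/
lemma dep_isUnit_of_mem_Gamma0 {M N : ℕ} (hNM : N ∣ M) {γ : SL(2, ℤ)} (hγ : γ ∈ Gamma0 M) :
    IsUnit (((γ 1 1 : ℤ)) : ZMod N) := by
  have hdet : γ 0 0 * γ 1 1 - γ 0 1 * γ 1 0 = 1 := by
    have := γ.2
    rwa [Matrix.det_fin_two] at this
  have hc : ((γ 1 0 : ℤ) : ZMod N) = 0 := by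
    rw [ZMod.intCast_zmod_eq_zero_iff_dvd]
    exact (Int.natCast_dvd_natCast.mpr hNM).trans (dep_dvd_of_mem_Gamma0 hγ)
  have := congrArg (Int.cast (R := ZMod N)) hdet
  push_cast at this
  rw [hc, mul_zero, sub_zero] at this
  exact IsUnit.of_mul_eq_one _ (by rw [mul_comm]; exact this)

/-- The depletion has the same nebentypus. -/
theorem depForm_nebentypus (N : ℕ) [NeZero N] {k : ℤ} (f : CuspForm (Gamma1 N) k)
    (ε : DirichletCharacter ℂ N)
    (hε : ∀ γ : SL(2, ℤ), γ ∈ Gamma0 N →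
      (⇑f) ∣[k] γ = (ε (((γ : Matrix (Fin 2) (Fin 2) ℤ) 1 1 : ℤ) : ZMod N)) • ⇑f)
    (γ : SL(2, ℤ)) (hγ : γ ∈ Gamma0 (N ^ 3)) :
    (⇑(depForm N f)) ∣[k] γ = ε ((γ 1 1 : ℤ) : ZMod N) • ⇑(depForm N f) := by
  have h3 : N ∣ N ^ 3 := Dvd.intro_left (N ^ 2) (by ring)
  obtain ⟨t, ht⟩ := dep_isUnit_of_mem_Gamma0 h3 hγ
  rw [coe_depForm, SlashAction.sum_slash, Finset.smul_sum]
  have hterm : ∀ x : ZMod N,
      (depCoeff N x • ⇑(depShift N f (x.val : ℤ))) ∣[k] γ =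
        ε ((γ 1 1 : ℤ) : ZMod N) •
          (depCoeff N ((t ^ 2 : (ZMod N)ˣ) * x) •
            ⇑(depShift N f ((((t ^ 2 : (ZMod N)ˣ) * x : ZMod N).val : ℤ)))) := by
    intro x
    rw [ModularForm.SL_smul_slash, depShift_slash N f ε hε γ hγ, depCoeff_unit_mul, smul_comm]
    congr 3
    apply depShift_congr
    push_cast
    rw [ZMod.natCast_zmod_val, ZMod.natCast_zmod_val, ht]
  rw [Finset.sum_congr rfl fun x _ => hterm x]
  exact Fintype.sum_equiv (Units.mulLeft (t ^ 2)) _ _ fun x => rfl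

/-- **DS-2H.**  The `N`-depletion. -/
theorem depletion : Fermat.Agent.H6.DS.DepletionStatement := by
  intro N _ f
  refine ⟨depForm N f, qCoeff_depForm N f, ?_⟩
  intro ε hε γ hγ
  have h3 : N ∣ N ^ 3 := Dvd.intro_left (N ^ 2) (by ring)
  rw [depForm_nebentypus N f ε hε γ hγ]
  congr 1
  obtain ⟨t, ht⟩ := dep_isUnit_of_mem_Gamma0 (dvd_refl (N ^ 3)) hγ
  rw [← ht, DirichletCharacter.changeLevel_eq_cast_of_dvd ε h3 t, ht, ZMod.cast_intCast h3]

end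

end Fermat.Agent.H32
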