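import Mathlib

/-!
# P-ES / ES-A/MF (helper32): field-theoretic core

Let `k ⊆ F ⊆ E` be fields of characteristic zero, `k` infinite, `A` a `k`-subalgebra of `E` all of
whose elements are integral over `F` of degree `≤ n`, and `L` an intermediate field of `E/F` of
degree exactly `n` contained in the fraction field of `A`.  Then `A ⊆ L`.
-/

namespace Fermat.Agent.H32

open IntermediateField

section TwoElements

variable (k F : Type*) {E : Type*} [Field k] [Infinite k] [Field F] [Field E] [Algebra k F]
  [Algebra F E] [Algebra k E] [IsScalarTower k F E] [CharZero F]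

/-- Primitive element for two generators, with the scalar taken in an infinite subfield. -/
theorem exists_scalar_primitive (α β : E) (hα : IsIntegral F α) (hβ : IsIntegral F β) :
    ∃ t : k, F⟮α, β⟯ = F⟮α + t • β⟯ := by
  classical
  set M : IntermediateField F E := F⟮α, β⟯ with hM
  have hfd : FiniteDimensional F M := by
    refine IntermediateField.finiteDimensional_adjoin ?_
    rintro x (rfl | rfl)
    · exact hα
    · exact hβ
  have hfin : Finite (IntermediateField F M) :=
    Field.finite_intermediateField_of_exists_primitive_element F M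
      (Field.exists_primitive_element F M)
  have hα_mem : α ∈ M := subset_adjoin F {α, β} (Set.mem_insert α {β})
  have hβ_mem : β ∈ M := subset_adjoin F {α, β} (Set.mem_insert_of_mem α rfl)
  have hset : {K : IntermediateField F E | K ≤ M}.Finite := by
    have : {K : IntermediateField F E | K ≤ M} ⊆
        Set.range (IntermediateField.lift (F := M)) := by
      intro K hK
      exact ⟨IntermediateField.restrict hK, IntermediateField.lift_restrict hK⟩
    exact (Set.finite_range _).subset this
  let f : k → IntermediateField F E := fun t => F⟮α + t • β⟯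
  have hmaps : Set.MapsTo f Set.univ {K : IntermediateField F E | K ≤ M} := by
    intro t _
    change F⟮α + t • β⟯ ≤ M
    rw [adjoin_simple_le_iff]
    have h1 : t • β ∈ M := by
      rw [← algebraMap_smul F t β]
      exact M.smul_mem hβ_mem
    exact M.add_mem hα_mem h1
  obtain ⟨x, -, y, -, hneq, heq⟩ :=
    Set.Infinite.exists_ne_map_eq_of_mapsTo Set.infinite_univ hmaps hset
  refine ⟨x, le_antisymm ?_ (hmaps (Set.mem_univ x))⟩
  rw [hM, adjoin_le_iff]
  have hx_in : α + x • β ∈ F⟮α + x • β⟯ := mem_adjoin_simple_self F _
  have hy_in : α + y • β ∈ F⟮α + x • β⟯ := by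
    have : α + y • β ∈ F⟮α + y • β⟯ := mem_adjoin_simple_self F _
    have heq' : F⟮α + x • β⟯ = F⟮α + y • β⟯ := heq
    rw [heq']
    exact this
  generalize F⟮α + x • β⟯ = K at hx_in hy_in ⊢
  have hβ_in : β ∈ K := by
    have h1 := sub_mem hx_in hy_in
    have h2 : (α + x • β) - (α + y • β) = (x - y) • β := by
      rw [sub_smul]; abel
    rw [h2] at h1
    have h3 : (algebraMap k F (x - y))⁻¹ • ((x - y) • β) ∈ K :=
      IntermediateField.smul_mem _ h1
    have hne : algebraMap k F (x - y) ≠ 0 := by
      rw [Ne, map_eq_zero]
      exact sub_ne_zero.mpr hneq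
    rw [← algebraMap_smul F (x - y) β, smul_smul, inv_mul_cancel₀ hne, one_smul] at h3
    exact h3
  have hα_in : α ∈ K := by
    have h1 : x • β ∈ K := by
      rw [← algebraMap_smul F x β]
      exact IntermediateField.smul_mem _ hβ_in
    have := sub_mem hx_in h1
    rwa [add_sub_cancel_right] at this
  rintro z (rfl | rfl)
  · exact hα_in
  · exact hβ_in

end TwoElements

section Finset

variable (k F : Type*) {E : Type*} [Field k] [Infinite k] [Field F] [Field E] [Algebra k F]
  [Algebra F E] [Algebra k E] [IsScalarTower k F E] [CharZero F]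

/-- A finite subset of a `k`-subalgebra consisting of integral elements generates a simple
extension with a primitive element in the subalgebra. -/
theorem exists_primitive_mem_subalgebra (A : Subalgebra k E)
    (hA : ∀ a ∈ A, IsIntegral F a) (S : Finset E) (hS : ∀ s ∈ S, s ∈ A) :
    ∃ θ ∈ A, IntermediateField.adjoin F (S : Set E) = F⟮θ⟯ := by
  classical
  induction S using Finset.induction_on with
  | empty =>
    refine ⟨0, A.zero_mem, ?_⟩
    rw [Finset.coe_empty, adjoin_empty, adjoin_zero]
  | insert a S _ ih =>
    obtain ⟨θ, hθ, hθS⟩ := ih (fun s hs => hS s (Finset.mem_insert_of_mem hs))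
    have ha : a ∈ A := hS a (Finset.mem_insert_self a S)
    obtain ⟨t, ht⟩ := exists_scalar_primitive k F θ a (hA θ hθ) (hA a ha)
    refine ⟨θ + t • a, A.add_mem hθ (A.smul_mem ha t), ?_⟩
    rw [← ht, Finset.coe_insert]
    apply le_antisymm
    · rw [adjoin_le_iff]
      rintro z (rfl | hz)
      · exact subset_adjoin F {θ, z} (Set.mem_insert_of_mem θ rfl)
      · have h1 : z ∈ IntermediateField.adjoin F (S : Set E) := subset_adjoin F _ hz
        rw [hθS] at h1
        have h2 : F⟮θ⟯ ≤ F⟮θ, a⟯ := by
          apply adjoin.mono
          intro w hw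
          rw [Set.mem_singleton_iff] at hw
          rw [hw]
          exact Set.mem_insert θ {a}
        exact h2 h1
    · rw [adjoin_le_iff]
      rintro z (rfl | rfl)
      · have h1 : z ∈ F⟮z⟯ := mem_adjoin_simple_self F z
        rw [← hθS] at h1
        have h2 : IntermediateField.adjoin F (S : Set E) ≤
            IntermediateField.adjoin F (insert a (S : Set E)) :=
          adjoin.mono F _ _ (Set.subset_insert a S)
        exact h2 h1
      · exact subset_adjoin F _ (Set.mem_insert z S)

end Finset

section Main

variable (k F : Type*) {E : Type*} [Field k] [Infinite k] [Field F] [Field E] [Algebra k F]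
  [Algebra F E] [Algebra k E] [IsScalarTower k F E] [CharZero F]

/-- **Field-theoretic core of ES-A/MF.** -/
theorem subalgebra_le_of_degree_bound (A : Subalgebra k E) (L : IntermediateField F E) (n : ℕ)
    [FiniteDimensional F L] (hL : Module.finrank F L = n)
    (hA : ∀ a ∈ A, IsIntegral F a ∧ (minpoly F a).natDegree ≤ n)
    (hfrac : ∀ l ∈ L, ∃ r ∈ A, ∃ s ∈ A, s ≠ 0 ∧ l * s = r) :
    ∀ x ∈ A, x ∈ L := by
  classical
  intro x hx
  -- a finite generating set of `L` as an `F`-module
  obtain ⟨T, hT⟩ := (Module.finite_def (R := F) (M := L)).mp inferInstance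
  -- numerators and denominators
  have hch : ∀ l : L, ∃ r s : E, r ∈ A ∧ s ∈ A ∧ s ≠ 0 ∧ (l : E) * s = r := by
    intro l
    obtain ⟨r, hr, s, hs, hs0, h⟩ := hfrac l l.2
    exact ⟨r, s, hr, hs, hs0, h⟩
  choose r s hr hs hs0 hrs using hch
  let S : Finset E := insert x (T.image r ∪ T.image s)
  have hSA : ∀ z ∈ S, z ∈ A := by
    intro z hz
    rcases Finset.mem_insert.mp hz with rfl | hz
    · exact hx
    · rcases Finset.mem_union.mp hz with hz | hz
      · obtain ⟨l, -, rfl⟩ := Finset.mem_image.mp hz
        exact hr l
      · obtain ⟨l, -, rfl⟩ := Finset.mem_image.mp hz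
        exact hs l
  obtain ⟨θ, hθ, hθS⟩ := exists_primitive_mem_subalgebra k F A (fun a ha => (hA a ha).1) S hSA
  set M : IntermediateField F E := IntermediateField.adjoin F (S : Set E) with hM
  -- `L ≤ M`
  have hTM : ∀ l ∈ T, (l : E) ∈ M := by
    intro l hl
    have h1 : r l ∈ M := subset_adjoin F _ (by
      simp only [S, Finset.coe_insert, Finset.coe_union, Finset.coe_image]
      exact Set.mem_insert_of_mem _ (Or.inl ⟨l, hl, rfl⟩))
    have h2 : s l ∈ M := subset_adjoin F _ (by
      simp only [S, Finset.coe_insert, Finset.coe_union, Finset.coe_image]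
      exact Set.mem_insert_of_mem _ (Or.inr ⟨l, hl, rfl⟩))
    have h3 : (l : E) = r l / s l := by
      rw [eq_div_iff (hs0 l)]
      exact hrs l
    rw [h3]
    exact M.div_mem h1 h2
  have hLM : L ≤ M := by
    intro l hl
    have hmem : (⟨l, hl⟩ : L) ∈ Submodule.span F (T : Set L) := by
      rw [hT]; exact Submodule.mem_top
    have key : ∀ w : L, w ∈ Submodule.span F (T : Set L) → (w : E) ∈ M := by
      intro w hw
      induction hw using Submodule.span_induction with
      | mem w hw => exact hTM w hw
      | zero => exact M.zero_mem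
      | add u v _ _ hu hv => exact M.add_mem hu hv
      | smul c u _ hu => exact M.smul_mem hu
    exact key ⟨l, hl⟩ hmem
  -- degree of `M`
  have hθint : IsIntegral F θ := (hA θ hθ).1
  have hMfin : Module.finrank F M ≤ n := by
    rw [hθS, IntermediateField.adjoin.finrank hθint]
    exact (hA θ hθ).2
  have hMfd : FiniteDimensional F M := by
    rw [hθS]
    exact IntermediateField.adjoin.finiteDimensional hθint
  have hML : M = L := by
    symm
    refine IntermediateField.eq_of_le_of_finrank_le hLM ?_
    rw [hL]
    exact hMfin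
  rw [← hML]
  exact subset_adjoin F _ (by simp [S])

end Main

end Fermat.Agent.H32
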