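import Mathlib
import Fermat.Prelude.Def_ModularCurve_IgusaScheme
import Fermat.Prelude.Def_ModularCurve_X0ModL
import Fermat.Agent.H27.Igusa.Defs
import Fermat.Agent.H32.IgusaChain

/-!
# Function field generation from tracking (part (B1) of IG-D1)

`Ω := AlgebraicClosure ℂ((t))`, `ι_N : ℚ((q)) → Ω`, `q ↦ t^N`.  The *tracking statement* says that
every ring homomorphism `κ : ℚ(j(q^d) : d ∣ N) → Ω` with `κ j = ι j` and `κ j(q^N) = ι j(q^N)`
agrees with `ι` on every `j(q^d)`, `d ∣ N`.  We show that the tracking statement implies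
`ModularCurve.FunctionFieldGeneration N`, hence (with the chain bound) IG-D1.
-/

set_option autoImplicit false

noncomputable section

open ModularCurve ModularCurve.IgusaScheme Fermat.Agent.H27 IntermediateField

namespace Fermat.Agent.H32

section GenericGalois

variable {F E Ω : Type*} [Field F] [Field E] [Field Ω] [Algebra F E]

/-- integrality passes to a larger base field -/
theorem isIntegral_of_intermediateField_le {A B : IntermediateField F E} (h : A ≤ B) {x : E}
    (hx : IsIntegral A x) : IsIntegral B x := by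
  obtain ⟨p, hp, hpx⟩ := hx
  refine ⟨p.map (IntermediateField.inclusion h).toRingHom, hp.map _, ?_⟩
  rw [Polynomial.eval₂_map]
  exact hpx

/-- elements of a finite extension are integral -/
theorem isIntegral_of_relrank_lt_aleph0 {A B : IntermediateField F E} (h : A ≤ B)
    (hfin : A.relrank B < Cardinal.aleph0) {x : E} (hx : x ∈ B) : IsIntegral A x := by
  rw [relrank_eq_rank_of_le h, Module.rank_lt_aleph0_iff] at hfin
  have h1 : IsIntegral A (⟨x, hx⟩ : extendScalars h) := Algebra.IsIntegral.isIntegral _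
  exact (IntermediateField.isIntegral_iff (x := (⟨x, hx⟩ : extendScalars h))).mp h1

variable [CharZero F] [IsAlgClosed Ω]

/-- **Galois criterion.**  Let `G ≤ F'` be intermediate fields of `E / F` (characteristic `0`),
`F'` generated by a set `S` of elements algebraic over `G`, and `ι : E → Ω` an embedding into an
algebraically closed field.  If every ring homomorphism `κ : F' → Ω` which agrees with `ι` on `G`
satisfies `κ x = ι x`, then `x ∈ G`. -/
theorem mem_of_forall_ringHom_eq (G F' : IntermediateField F E) (S : Set E)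
    (hF' : F' = adjoin F S) (hS : ∀ s ∈ S, IsIntegral G s) (ι : E →+* Ω) (x : E) (hx : x ∈ F')
    (h : ∀ κ : ↥F' →+* Ω, (∀ g : ↥F', (g : E) ∈ G → κ g = ι g) → κ ⟨x, hx⟩ = ι x) :
    x ∈ G := by
  classical
  let algΩ : Algebra G Ω := (ι.comp (algebraMap G E)).toAlgebra
  have hmem : ∀ z ∈ F', z ∈ adjoin G S := by
    intro z hz
    rw [hF'] at hz
    have hle : adjoin F S ≤ restrictScalars F (adjoin G S) :=
      adjoin_le_iff.mpr (fun s hs => subset_adjoin G S hs)
    exact hle hz
  by_contra hxG
  have halg : Algebra.IsAlgebraic G (adjoin G S) := isAlgebraic_adjoin hS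
  have hint : IsIntegral G x := by
    have h1 : IsIntegral G (⟨x, hmem x hx⟩ : adjoin G S) :=
      (Algebra.IsAlgebraic.isAlgebraic _).isIntegral
    exact (IntermediateField.isIntegral_iff (x := (⟨x, hmem x hx⟩ : adjoin G S))).mp h1
  have h2 : 2 ≤ (minpoly G x).natDegree := by
    rw [minpoly.two_le_natDegree_iff hint]
    rintro ⟨g, hg⟩
    exact hxG (hg ▸ g.2)
  have hsep : (minpoly G x).Separable := (minpoly.irreducible hint).separable
  have hsplit : ((minpoly G x).map (algebraMap G Ω)).Splits := IsAlgClosed.splits _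
  have hcard := Polynomial.card_rootSet_eq_natDegree hsep hsplit
  obtain ⟨y, hy, hne⟩ : ∃ y ∈ (minpoly G x).rootSet Ω, y ≠ ι x := by
    by_contra hcon
    push Not at hcon
    have hsub : Subsingleton ((minpoly G x).rootSet Ω) :=
      ⟨fun a b => Subtype.ext ((hcon a a.2).trans (hcon b b.2).symm)⟩
    have := Fintype.card_le_one_iff_subsingleton.mpr hsub
    omega
  have hy0 : Polynomial.aeval y (minpoly G x) = 0 := Polynomial.aeval_eq_zero_of_mem_rootSet hy
  obtain ⟨φ, hφ⟩ := exists_algHom_adjoin_of_splits_of_aeval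
    (hK := fun s hs => ⟨hS s hs, IsAlgClosed.splits _⟩) (hx := hmem x hx) hy0
  let κ : ↥F' →+* Ω := φ.toRingHom.comp
    (RingHom.codRestrict (F'.val : ↥F' →+* E) (adjoin G S) (fun z => hmem z z.2))
  have hκ := h κ (fun g hg => φ.commutes ⟨(g : E), hg⟩)
  exact hne (hφ.symm.trans hκ)

end GenericGalois

/-- the embedding `ι_N : ℚ((q)) → Ω = AlgebraicClosure ℂ((t))`, `q ↦ t^N` -/
def iotaOmega (N : ℕ) [NeZero N] : LaurentSeries ℚ →+* AlgebraicClosure (LaurentSeries ℂ) :=
  (algebraMap (LaurentSeries ℂ) (AlgebraicClosure (LaurentSeries ℂ))).comp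
    ((qExpand ℂ N).comp (coeffMap (algebraMap ℚ ℂ)))

/-- **Tracking statement** at level `N`: a ring homomorphism `ℚ(j(q^d) : d ∣ N) → Ω` which agrees
with `ι_N` at `j(q)` and `j(q^N)` agrees with `ι_N` at every `j(q^d)`, `d ∣ N`. -/
def TrackingStatement (N : ℕ) [NeZero N] : Prop :=
  ∀ κ : ↥(modularFunctionFieldFull N) →+* AlgebraicClosure (LaurentSeries ℂ),
    (∀ g : ↥(modularFunctionFieldFull N), (g : LaurentSeries ℚ) = jq → κ g = iotaOmega N jq) →
    (∀ g : ↥(modularFunctionFieldFull N), (g : LaurentSeries ℚ) = qExpand ℚ N jq →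
      κ g = iotaOmega N (qExpand ℚ N jq)) →
    ∀ (d : ℕ) [NeZero d], d ∣ N → ∀ g : ↥(modularFunctionFieldFull N),
      (g : LaurentSeries ℚ) = qExpand ℚ d jq → κ g = iotaOmega N (qExpand ℚ d jq)

/-- every `j(q^d)` is integral over `ℚ(j)` -/
theorem isIntegral_qExpand_jq (hM : HasHeckeData ℂ) (d : ℕ) [NeZero d] :
    IsIntegral ℚ⟮jq⟯ (qExpand ℚ d jq) := by
  obtain ⟨G, hKG, hdG, -, hrank⟩ := exists_chain_field hM d (Nat.pos_of_ne_zero (NeZero.ne d))
  rw [jd_eq] at hdG
  exact isIntegral_of_relrank_lt_aleph0 hKG (hrank.trans_lt (Cardinal.natCast_lt_aleph0)) hdG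

/-- **Tracking implies generation.** -/
theorem functionFieldGeneration_of_tracking (hM : HasHeckeData ℂ) (N : ℕ) [NeZero N]
    (h : TrackingStatement N) : FunctionFieldGeneration N := by
  intro d hd hne
  have hK : ℚ⟮jq⟯ ≤ modularFunctionField N := adjoin_jq_le N
  have hS : ∀ s ∈ divisorExpansions N, IsIntegral (modularFunctionField N) s := by
    rintro s ⟨d', hd', -, rfl⟩
    exact isIntegral_of_intermediateField_le hK (isIntegral_qExpand_jq hM d')
  have hx : qExpand ℚ d jq ∈ modularFunctionFieldFull N := jqd_mem_full N hd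
  refine mem_of_forall_ringHom_eq (modularFunctionField N) (modularFunctionFieldFull N)
    (divisorExpansions N) rfl hS (iotaOmega N) (qExpand ℚ d jq) hx ?_
  intro κ hκ
  refine h κ (fun g hg => ?_) (fun g hg => ?_) d hd ⟨_, hx⟩ rfl
  · rw [← hg]
    exact hκ g (hg ▸ jq_mem N)
  · rw [← hg]
    exact hκ g (hg ▸ jqN_mem N)

/-- **IG-D1 from tracking.** -/
theorem relrank_full_le_dedekindPsi_of_tracking (hM : HasHeckeData ℂ) (N : ℕ) [NeZero N]
    (h : TrackingStatement N) :
    IntermediateField.relrank (IntermediateField.adjoin ℚ {jq}) (modularFunctionFieldFull N) ≤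
      (dedekindPsi N : Cardinal) :=
  relrank_full_le_dedekindPsi_of_generation hM N (functionFieldGeneration_of_tracking hM N h)

end Fermat.Agent.H32
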