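import Mathlib

/-!
# P-ES / KL-CONN (helper32): connectedness of the special fibre of a two-chart model

`A` a local ring with principal maximal ideal `(π)`, `A → E` injective, `Rfin`, `Rinf`, `Rmid`
subalgebras of `E` with `Rfin, Rinf ≤ Rmid`, `Rfin ∩ Rinf = A` and bounded `π`-power torsion of
`Rmid / (Rfin + Rinf)` (the `H¹` of the structure sheaf).  Then a compatible pair of idempotents
modulo `π` on the two charts is trivial: both are `0` or both are `1` modulo `π`.
-/

set_option autoImplicit false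

namespace Fermat.Agent.H32

section Newton

variable {E : Type*} [CommRing E]

/-- `z ∈ P ^ n • S`. -/
def PowMem (P : E) (S : Subring E) (n : ℕ) (z : E) : Prop := ∃ r ∈ S, z = P ^ n * r

theorem PowMem.add {P : E} {S : Subring E} {n : ℕ} {z w : E} (hz : PowMem P S n z)
    (hw : PowMem P S n w) : PowMem P S n (z + w) := by
  obtain ⟨r, hr, rfl⟩ := hz
  obtain ⟨s, hs, rfl⟩ := hw
  exact ⟨r + s, S.add_mem hr hs, by ring⟩

theorem PowMem.neg {P : E} {S : Subring E} {n : ℕ} {z : E} (hz : PowMem P S n z) :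
    PowMem P S n (-z) := by
  obtain ⟨r, hr, rfl⟩ := hz
  exact ⟨-r, S.neg_mem hr, by ring⟩

theorem PowMem.sub {P : E} {S : Subring E} {n : ℕ} {z w : E} (hz : PowMem P S n z)
    (hw : PowMem P S n w) : PowMem P S n (z - w) := by
  rw [sub_eq_add_neg]
  exact hz.add hw.neg

theorem PowMem.mul_left {P : E} {S : Subring E} {n : ℕ} {z : E} (hz : PowMem P S n z)
    {s : E} (hs : s ∈ S) : PowMem P S n (s * z) := by
  obtain ⟨r, hr, rfl⟩ := hz
  exact ⟨s * r, S.mul_mem hs hr, by ring⟩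

theorem PowMem.mul_right {P : E} {S : Subring E} {n : ℕ} {z : E} (hz : PowMem P S n z)
    {s : E} (hs : s ∈ S) : PowMem P S n (z * s) := by
  rw [mul_comm]
  exact hz.mul_left hs

theorem PowMem.mono {P : E} {S T : Subring E} (hST : S ≤ T) {n : ℕ} {z : E}
    (hz : PowMem P S n z) : PowMem P T n z := by
  obtain ⟨r, hr, rfl⟩ := hz
  exact ⟨r, hST hr, rfl⟩

theorem PowMem.of_le {P : E} {S : Subring E} (hP : P ∈ S) {m n : ℕ} (hmn : m ≤ n) {z : E}
    (hz : PowMem P S n z) : PowMem P S m z := by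
  obtain ⟨r, hr, rfl⟩ := hz
  obtain ⟨k, rfl⟩ := Nat.exists_eq_add_of_le hmn
  exact ⟨P ^ k * r, S.mul_mem (S.pow_mem hP k) hr, by ring⟩

theorem PowMem.mul {P : E} {S : Subring E} {m n : ℕ} {z w : E} (hz : PowMem P S m z)
    (hw : PowMem P S n w) : PowMem P S (m + n) (z * w) := by
  obtain ⟨r, hr, rfl⟩ := hz
  obtain ⟨s, hs, rfl⟩ := hw
  exact ⟨r * s, S.mul_mem hr hs, by ring⟩

theorem PowMem.mem {P : E} {S : Subring E} (hP : P ∈ S) {n : ℕ} {z : E}
    (hz : PowMem P S n z) : z ∈ S := by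
  obtain ⟨r, hr, rfl⟩ := hz
  exact S.mul_mem (S.pow_mem hP n) hr

/-- **Newton lifting of idempotents** inside a subring. -/
theorem exists_idempotent_lift {P : E} {S : Subring E} (hP : P ∈ S) {a : E} (ha : a ∈ S)
    (ha2 : PowMem P S 1 (a ^ 2 - a)) (n : ℕ) :
    ∃ e ∈ S, PowMem P S 1 (e - a) ∧ PowMem P S (n + 1) (e ^ 2 - e) := by
  induction n with
  | zero => exact ⟨a, ha, ⟨0, S.zero_mem, by ring⟩, ha2⟩
  | succ n ih =>
    obtain ⟨e, he, hea, he2⟩ := ih
    have h1 : (1 - 2 * e) ∈ S :=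
      S.sub_mem S.one_mem (S.mul_mem (by
        have : (2 : E) = 1 + 1 := by norm_num
        rw [this]; exact S.add_mem S.one_mem S.one_mem) he)
    have h3 : (4 * e ^ 2 - 4 * e - 3) ∈ S := by
      have e3 : (4 * e ^ 2 - 4 * e - 3 : E) = (1 - 2 * e) * (1 - 2 * e) - (1 + 1 + 1 + 1) := by
        ring
      rw [e3]
      exact S.sub_mem (S.mul_mem h1 h1)
        (S.add_mem (S.add_mem (S.add_mem S.one_mem S.one_mem) S.one_mem) S.one_mem)
    refine ⟨3 * e ^ 2 - 2 * e ^ 3, ?_, ?_, ?_⟩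
    · have e1 : (3 * e ^ 2 - 2 * e ^ 3 : E) = e + (e ^ 2 - e) * (1 - 2 * e) := by ring
      rw [e1]
      exact S.add_mem he (S.mul_mem (he2.mem hP) h1)
    · have e1 : (3 * e ^ 2 - 2 * e ^ 3 - a : E) = (e - a) + (e ^ 2 - e) * (1 - 2 * e) := by ring
      rw [e1]
      exact hea.add ((he2.of_le hP (Nat.le_add_left 1 n)).mul_right h1)
    · have e1 : ((3 * e ^ 2 - 2 * e ^ 3) ^ 2 - (3 * e ^ 2 - 2 * e ^ 3) : E)
          = (e ^ 2 - e) * (e ^ 2 - e) * (4 * e ^ 2 - 4 * e - 3) := by ring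
      rw [e1]
      have h4 := (he2.mul he2).mul_right h3
      exact h4.of_le hP (by omega)

/-- **Uniqueness of idempotent lifts**: two idempotents modulo `P ^ n` that agree modulo `P`
agree modulo `P ^ n`. -/
theorem idempotent_lift_unique {P : E} {S : Subring E} (hP : P ∈ S) {e f : E} (he : e ∈ S)
    (hf : f ∈ S) (n : ℕ) (he2 : PowMem P S n (e ^ 2 - e)) (hf2 : PowMem P S n (f ^ 2 - f))
    (hef : PowMem P S 1 (e - f)) : PowMem P S n (e - f) := by
  have key : (e - f : E) = (e - f) ^ 3 - ((e ^ 2 - e) * (1 + e - 3 * f)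
      - (f ^ 2 - f) * (1 + f - 3 * e)) := by ring
  have h3 : ∀ x : E, x ∈ S → 3 * x ∈ S := fun x hx => by
    have : (3 * x : E) = x + x + x := by ring
    rw [this]; exact S.add_mem (S.add_mem hx hx) hx
  have hs1 : (1 + e - 3 * f) ∈ S := S.sub_mem (S.add_mem S.one_mem he) (h3 f hf)
  have hs2 : (1 + f - 3 * e) ∈ S := S.sub_mem (S.add_mem S.one_mem hf) (h3 e he)
  have hcorr : PowMem P S n ((e ^ 2 - e) * (1 + e - 3 * f) - (f ^ 2 - f) * (1 + f - 3 * e)) :=
    (he2.mul_right hs1).sub (hf2.mul_right hs2)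
  have main : ∀ k : ℕ, k ≤ n → PowMem P S k (e - f) := by
    intro k
    induction k with
    | zero => intro _; exact ⟨e - f, S.sub_mem he hf, by ring⟩
    | succ k ih =>
      intro hk
      rcases Nat.eq_zero_or_pos k with h0 | hpos
      · subst h0; exact hef
      · have hk' := ih (Nat.le_of_succ_le hk)
        have hcube : PowMem P S (k + 1) ((e - f) ^ 3) := by
          have h1 : PowMem P S (k + k + k) ((e - f) ^ 3) := by
            have := (hk'.mul hk').mul hk'
            have e3 : (e - f) ^ 3 = (e - f) * (e - f) * (e - f) := by ring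
            rw [e3]; exact this
          exact h1.of_le hP (by omega)
        rw [key]
        exact hcube.sub (hcorr.of_le hP hk)
  exact main n le_rfl

end Newton

section Core

variable {A E : Type*} [CommRing A] [CommRing E] [Algebra A E]

/-- **KL-CONN, core form.**  Two charts `Rfin`, `Rinf` inside `Rmid` with `Rfin ∩ Rinf = A` and
`π`-power torsion of `Rmid / (Rfin + Rinf)` killed by `π ^ t`: a compatible pair of idempotents
modulo `π` is trivial. -/
theorem connectedness_core [IsLocalRing A] (hinj : Function.Injective (algebraMap A E)) (π : A)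
    (hπ : IsLocalRing.maximalIdeal A = Ideal.span {π})
    (Rfin Rinf Rmid : Subalgebra A E) (hfin : Rfin ≤ Rmid) (hinf : Rinf ≤ Rmid)
    (hcap : ∀ y : E, y ∈ Rfin → y ∈ Rinf → ∃ c : A, algebraMap A E c = y)
    (t : ℕ) (hH1 : ∀ c ∈ Rmid, ∀ n : ℕ,
       (∃ u ∈ Rfin, ∃ v ∈ Rinf, algebraMap A E π ^ n * c = u + v) →
        ∃ u ∈ Rfin, ∃ v ∈ Rinf, algebraMap A E π ^ t * c = u + v)
    {a b : E} (ha : a ∈ Rfin) (hb : b ∈ Rinf)
    (ha2 : ∃ r ∈ Rfin, a ^ 2 - a = algebraMap A E π * r)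
    (hb2 : ∃ r ∈ Rinf, b ^ 2 - b = algebraMap A E π * r)
    (hab : ∃ r ∈ Rmid, a - b = algebraMap A E π * r) :
    ((∃ r ∈ Rfin, a = algebraMap A E π * r) ∧ (∃ r ∈ Rinf, b = algebraMap A E π * r)) ∨
    ((∃ r ∈ Rfin, a - 1 = algebraMap A E π * r) ∧
      (∃ r ∈ Rinf, b - 1 = algebraMap A E π * r)) := by
  set P : E := algebraMap A E π with hPdef
  have hPfin : P ∈ Rfin.toSubring := Rfin.algebraMap_mem π
  have hPinf : P ∈ Rinf.toSubring := Rinf.algebraMap_mem π
  have hPmid : P ∈ Rmid.toSubring := Rmid.algebraMap_mem π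
  have hfin' : Rfin.toSubring ≤ Rmid.toSubring := fun x hx => hfin hx
  have hinf' : Rinf.toSubring ≤ Rmid.toSubring := fun x hx => hinf hx
  have of1 : ∀ (S : Subalgebra A E) (z : E), (∃ r ∈ S, z = P * r) → PowMem P S.toSubring 1 z := by
    rintro S z ⟨r, hr, h⟩
    exact ⟨r, hr, by rw [pow_one]; exact h⟩
  have to1 : ∀ (S : Subalgebra A E) (z : E), PowMem P S.toSubring 1 z → (∃ r ∈ S, z = P * r) := by
    rintro S z ⟨r, hr, h⟩
    exact ⟨r, hr, by rw [h, pow_one]⟩
  have ha2' := of1 Rfin _ ha2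
  have hb2' := of1 Rinf _ hb2
  have hab' := of1 Rmid _ hab
  obtain ⟨e, he, hea, he2⟩ := exists_idempotent_lift hPfin (show a ∈ Rfin.toSubring from ha) ha2' t
  obtain ⟨f, hf, hfb, hf2⟩ := exists_idempotent_lift hPinf (show b ∈ Rinf.toSubring from hb) hb2' t
  have hef1 : PowMem P Rmid.toSubring 1 (e - f) := by
    have e1 : e - f = (e - a) + (a - b) - (f - b) := by ring
    rw [e1]
    exact ((hea.mono hfin').add hab').sub (hfb.mono hinf')
  have hef := idempotent_lift_unique hPmid (hfin' he) (hinf' hf) (t + 1) (he2.mono hfin')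
    (hf2.mono hinf') hef1
  obtain ⟨c, hc, hcef⟩ := hef
  obtain ⟨u, hu, v, hv, huv⟩ := hH1 c hc (t + 1)
    ⟨e, he, -f, Rinf.neg_mem hf, by rw [← hcef]; ring⟩
  -- the glued constant
  have hd1 : e - P * u ∈ Rfin := Rfin.sub_mem he (Rfin.mul_mem hPfin hu)
  have hd2 : e - P * u = f + P * v := by
    have : e - f = P * (u + v) := by rw [hcef, pow_succ, ← huv]; ring
    linear_combination this
  have hd3 : e - P * u ∈ Rinf := by
    rw [hd2]; exact Rinf.add_mem hf (Rinf.mul_mem hPinf hv)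
  obtain ⟨d0, hd0⟩ := hcap _ hd1 hd3
  set d : E := e - P * u with hd
  have had : PowMem P Rfin.toSubring 1 (a - d) := by
    have e1 : a - d = P ^ 1 * u - (e - a) := by rw [hd]; ring
    rw [e1]
    exact (show PowMem P Rfin.toSubring 1 (P ^ 1 * u) from ⟨u, hu, rfl⟩).sub hea
  have hbd : PowMem P Rinf.toSubring 1 (b - d) := by
    have e1 : b - d = -(P ^ 1 * v) - (f - b) := by rw [hd2]; ring
    rw [e1]
    exact (show PowMem P Rinf.toSubring 1 (P ^ 1 * v) from ⟨v, hv, rfl⟩).neg.sub hfb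
  by_cases h0 : d0 ∈ IsLocalRing.maximalIdeal A
  · left
    rw [hπ, Ideal.mem_span_singleton'] at h0
    obtain ⟨d1, hd1'⟩ := h0
    have hdP : d = P ^ 1 * algebraMap A E d1 := by
      rw [← hd0, ← hd1', map_mul, pow_one]; ring
    refine ⟨to1 Rfin _ ?_, to1 Rinf _ ?_⟩
    · have e1 : a = (a - d) + d := by ring
      rw [e1]
      exact had.add ⟨algebraMap A E d1, Rfin.algebraMap_mem d1, hdP⟩
    · have e1 : b = (b - d) + d := by ring
      rw [e1]
      exact hbd.add ⟨algebraMap A E d1, Rinf.algebraMap_mem d1, hdP⟩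
  · by_cases h1 : d0 - 1 ∈ IsLocalRing.maximalIdeal A
    · right
      rw [hπ, Ideal.mem_span_singleton'] at h1
      obtain ⟨d1, hd1'⟩ := h1
      have hdP : d - 1 = P ^ 1 * algebraMap A E d1 := by
        rw [← hd0, ← map_one (algebraMap A E), ← map_sub, ← hd1', map_mul, pow_one]; ring
      refine ⟨to1 Rfin _ ?_, to1 Rinf _ ?_⟩
      · have e1 : a - 1 = (a - d) + (d - 1) := by ring
        rw [e1]
        exact had.add ⟨algebraMap A E d1, Rfin.algebraMap_mem d1, hdP⟩
      · have e1 : b - 1 = (b - d) + (d - 1) := by ring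
        rw [e1]
        exact hbd.add ⟨algebraMap A E d1, Rinf.algebraMap_mem d1, hdP⟩
    · exfalso
      have hu0 : IsUnit d0 := IsLocalRing.notMem_maximalIdeal.mp h0
      have hu1 : IsUnit (d0 - 1) := IsLocalRing.notMem_maximalIdeal.mp h1
      obtain ⟨w', hw'⟩ := (hu0.mul hu1).exists_right_inv
      have hdfin : d ∈ Rfin := hd1
      have hdinf : d ∈ Rinf := hd3
      have hdd : algebraMap A E (d0 * (d0 - 1)) = d ^ 2 - d := by
        rw [map_mul, map_sub, map_one, hd0]; ring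
      have hq1 : PowMem P Rfin.toSubring 1 (d ^ 2 - d) := by
        have e1 : d ^ 2 - d = (a ^ 2 - a) - (a - d) * (a + d - 1) := by ring
        rw [e1]
        exact ha2'.sub (had.mul_right
          (Rfin.sub_mem (Rfin.add_mem ha hdfin) Rfin.one_mem))
      have hq2 : PowMem P Rinf.toSubring 1 (d ^ 2 - d) := by
        have e1 : d ^ 2 - d = (b ^ 2 - b) - (b - d) * (b + d - 1) := by ring
        rw [e1]
        exact hb2'.sub (hbd.mul_right
          (Rinf.sub_mem (Rinf.add_mem hb hdinf) Rinf.one_mem))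
      obtain ⟨r1, hr1, h1'⟩ := hq1
      obtain ⟨r2, hr2, h2'⟩ := hq2
      rw [pow_one] at h1' h2'
      have hone : algebraMap A E (d0 * (d0 - 1)) * algebraMap A E w' = 1 := by
        rw [← map_mul, hw', map_one]
      have hP1 : P * (r1 * algebraMap A E w') = 1 := by
        rw [← mul_assoc, ← h1', ← hdd, hone]
      have hP2 : P * (r2 * algebraMap A E w') = 1 := by
        rw [← mul_assoc, ← h2', ← hdd, hone]
      have heq : r1 * algebraMap A E w' = r2 * algebraMap A E w' := by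
        calc r1 * algebraMap A E w' = r1 * algebraMap A E w' * (P * (r2 * algebraMap A E w')) := by
              rw [hP2, mul_one]
          _ = (P * (r1 * algebraMap A E w')) * (r2 * algebraMap A E w') := by ring
          _ = r2 * algebraMap A E w' := by rw [hP1, one_mul]
      obtain ⟨q0, hq0⟩ := hcap (r1 * algebraMap A E w')
        (Rfin.mul_mem hr1 (Rfin.algebraMap_mem w'))
        (by rw [heq]; exact Rinf.mul_mem hr2 (Rinf.algebraMap_mem w'))
      have hπq : π * q0 = 1 := by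
        apply hinj
        rw [map_mul, map_one, hq0]
        exact hP1
      have hπmem : π ∈ IsLocalRing.maximalIdeal A := by
        rw [hπ]; exact Ideal.mem_span_singleton_self π
      exact (IsLocalRing.mem_maximalIdeal π).mp hπmem (IsUnit.of_mul_eq_one _ hπq)

end Core

end Fermat.Agent.H32
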