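import Fermat.Agent.H32.KLConn

/-!
# P-ES / KL-CONN (helper32): finitely generated `H¹` form

The bounded-torsion hypothesis of `connectedness_core` follows from finite generation of
`Rmid / (Rfin + Rinf)` over a Noetherian local ring with principal maximal ideal (e.g. a DVR).
-/

set_option autoImplicit false

namespace Fermat.Agent.H32

section FG

variable {A E : Type*} [CommRing A] [CommRing E] [Algebra A E]

/-- Bounded `π`-power torsion modulo `N` on a set contained in `N + (f.g.)`, over a Noetherian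
ring. -/
theorem exists_torsion_bound [IsNoetherianRing A] (π : A) (N : Submodule A E)
    (G : Finset E) :
    ∃ t : ℕ, ∀ c : E, c ∈ N ⊔ Submodule.span A (G : Set E) → ∀ n : ℕ, π ^ n • c ∈ N →
      π ^ t • c ∈ N := by
  classical
  let W : Submodule A (E ⧸ N) := Submodule.map N.mkQ (Submodule.span A (G : Set E))
  have hWfg : W.FG := (Submodule.fg_span (Finset.finite_toSet G)).map _
  have hWn : IsNoetherian A ↥W := isNoetherian_of_fg_of_noetherian W hWfg
  let f : ℕ →o Submodule A ↥W :=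
    { toFun := fun n => LinearMap.ker (LinearMap.lsmul A ↥W (π ^ n))
      monotone' := by
        intro m n hmn q hq
        rw [LinearMap.mem_ker, LinearMap.lsmul_apply] at hq ⊢
        obtain ⟨k, rfl⟩ := Nat.exists_eq_add_of_le hmn
        rw [pow_add, mul_comm, mul_smul, hq, smul_zero] }
  obtain ⟨t, ht⟩ := monotone_stabilizes_iff_noetherian.mpr hWn f
  refine ⟨t, fun c hc n hn => ?_⟩
  have hcW : N.mkQ c ∈ W := by
    obtain ⟨u, hu, g, hg, rfl⟩ := Submodule.mem_sup.mp hc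
    refine ⟨g, hg, ?_⟩
    have hu0 : N.mkQ u = 0 := by
      rw [Submodule.mkQ_apply]
      exact (Submodule.Quotient.mk_eq_zero N).mpr hu
    rw [map_add, hu0, zero_add]
  have h1 : (⟨N.mkQ c, hcW⟩ : ↥W) ∈ f (max n t) := by
    have h2 : (⟨N.mkQ c, hcW⟩ : ↥W) ∈ f n := by
      show (⟨N.mkQ c, hcW⟩ : ↥W) ∈ LinearMap.ker (LinearMap.lsmul A ↥W (π ^ n))
      rw [LinearMap.mem_ker, LinearMap.lsmul_apply]
      apply Subtype.ext
      show π ^ n • N.mkQ c = 0
      rw [← map_smul, Submodule.mkQ_apply]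
      exact (Submodule.Quotient.mk_eq_zero N).mpr hn
    exact f.monotone (le_max_left n t) h2
  rw [← ht (max n t) (le_max_right n t)] at h1
  have h3 : π ^ t • (⟨N.mkQ c, hcW⟩ : ↥W) = 0 := by
    have := h1
    rwa [show f t = LinearMap.ker (LinearMap.lsmul A ↥W (π ^ t)) from rfl, LinearMap.mem_ker,
      LinearMap.lsmul_apply] at this
  have h4 : π ^ t • N.mkQ c = 0 := congrArg Subtype.val h3
  rw [← map_smul, Submodule.mkQ_apply] at h4
  exact (Submodule.Quotient.mk_eq_zero N).mp h4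

/-- **KL-CONN, finitely generated form.** -/
theorem connectedness_of_fg [IsLocalRing A] [IsNoetherianRing A]
    (hinj : Function.Injective (algebraMap A E)) (π : A)
    (hπ : IsLocalRing.maximalIdeal A = Ideal.span {π})
    (Rfin Rinf Rmid : Subalgebra A E) (hfin : Rfin ≤ Rmid) (hinf : Rinf ≤ Rmid)
    (hcap : ∀ y : E, y ∈ Rfin → y ∈ Rinf → ∃ c : A, algebraMap A E c = y)
    (G : Finset E)
    (hG : Subalgebra.toSubmodule Rmid ≤
      Subalgebra.toSubmodule Rfin ⊔ Subalgebra.toSubmodule Rinf ⊔ Submodule.span A (G : Set E))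
    {a b : E} (ha : a ∈ Rfin) (hb : b ∈ Rinf)
    (ha2 : ∃ r ∈ Rfin, a ^ 2 - a = algebraMap A E π * r)
    (hb2 : ∃ r ∈ Rinf, b ^ 2 - b = algebraMap A E π * r)
    (hab : ∃ r ∈ Rmid, a - b = algebraMap A E π * r) :
    ((∃ r ∈ Rfin, a = algebraMap A E π * r) ∧ (∃ r ∈ Rinf, b = algebraMap A E π * r)) ∨
    ((∃ r ∈ Rfin, a - 1 = algebraMap A E π * r) ∧
      (∃ r ∈ Rinf, b - 1 = algebraMap A E π * r)) := by
  obtain ⟨t, ht⟩ := exists_torsion_bound π
    (Subalgebra.toSubmodule Rfin ⊔ Subalgebra.toSubmodule Rinf) G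
  refine connectedness_core hinj π hπ Rfin Rinf Rmid hfin hinf hcap t ?_ ha hb ha2 hb2 hab
  intro c hc n hn
  have e : ∀ k : ℕ, algebraMap A E π ^ k * c = π ^ k • c := fun k => by
    rw [Algebra.smul_def, map_pow]
  have hmem : ∀ z : E, (∃ u ∈ Rfin, ∃ v ∈ Rinf, z = u + v) ↔
      z ∈ Subalgebra.toSubmodule Rfin ⊔ Subalgebra.toSubmodule Rinf := by
    intro z
    rw [Submodule.mem_sup]
    constructor
    · rintro ⟨u, hu, v, hv, rfl⟩
      exact ⟨u, hu, v, hv, rfl⟩
    · rintro ⟨u, hu, v, hv, rfl⟩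
      exact ⟨u, hu, v, hv, rfl⟩
  rw [hmem, e] at hn ⊢
  exact ht c (hG hc) n hn

/-- **KL-CONN over a discrete valuation ring.** -/
theorem connectedness_dvr [IsDomain A] [IsDiscreteValuationRing A]
    (hinj : Function.Injective (algebraMap A E)) (π : A) (hπ : Irreducible π)
    (Rfin Rinf Rmid : Subalgebra A E) (hfin : Rfin ≤ Rmid) (hinf : Rinf ≤ Rmid)
    (hcap : ∀ y : E, y ∈ Rfin → y ∈ Rinf → ∃ c : A, algebraMap A E c = y)
    (G : Finset E)
    (hG : Subalgebra.toSubmodule Rmid ≤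
      Subalgebra.toSubmodule Rfin ⊔ Subalgebra.toSubmodule Rinf ⊔ Submodule.span A (G : Set E))
    {a b : E} (ha : a ∈ Rfin) (hb : b ∈ Rinf)
    (ha2 : ∃ r ∈ Rfin, a ^ 2 - a = algebraMap A E π * r)
    (hb2 : ∃ r ∈ Rinf, b ^ 2 - b = algebraMap A E π * r)
    (hab : ∃ r ∈ Rmid, a - b = algebraMap A E π * r) :
    ((∃ r ∈ Rfin, a = algebraMap A E π * r) ∧ (∃ r ∈ Rinf, b = algebraMap A E π * r)) ∨
    ((∃ r ∈ Rfin, a - 1 = algebraMap A E π * r) ∧
      (∃ r ∈ Rinf, b - 1 = algebraMap A E π * r)) :=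
  connectedness_of_fg hinj π hπ.maximalIdeal_eq Rfin Rinf Rmid hfin hinf hcap G hG ha hb ha2 hb2
    hab

end FG

end Fermat.Agent.H32
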