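import Fermat.Agent.H32.KLConn2

/-!
# P-ES / KL-CONN (helper32): two-chart form

`x ∈ Rfin`, `y = 1/x ∈ Rinf`, `Rfin` a finite `A[x]`-module, `Rmid = Rfin[1/x] = Rinf[x]`:
then `Rmid / (Rfin + Rinf)` is a finitely generated `A`-module and the connectedness lemma
applies.
-/

set_option autoImplicit false

namespace Fermat.Agent.H32

section TwoCharts

variable {A E : Type*} [CommRing A] [CommRing E] [Algebra A E]

theorem pow_mul_pow_of_mul_eq_one {x y : E} (hxy : x * y = 1) (k i : ℕ) :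
    y ^ k * x ^ i = if k ≤ i then x ^ (i - k) else y ^ (k - i) := by
  have h1 : ∀ m : ℕ, y ^ m * x ^ m = 1 := fun m => by
    rw [← mul_pow, mul_comm, hxy, one_pow]
  split_ifs with h
  · obtain ⟨j, rfl⟩ := Nat.exists_eq_add_of_le h
    rw [Nat.add_sub_cancel_left, pow_add, ← mul_assoc, h1, one_mul]
  · push Not at h
    obtain ⟨j, rfl⟩ := Nat.exists_eq_add_of_le h.le
    rw [Nat.add_sub_cancel_left, pow_add, mul_comm (y ^ i), mul_assoc, h1, mul_one]

/-- The finite generating set of `H¹`. -/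
noncomputable def h1Gens (y : E) (B : Finset E) (M : ℕ) : Finset E :=
  open Classical in (B ×ˢ Finset.range M).image (fun bk => y ^ bk.2 * bk.1)

theorem mem_h1Gens {y : E} {B : Finset E} {M : ℕ} {b : E} (hb : b ∈ B) {k : ℕ} (hk : k < M) :
    y ^ k * b ∈ h1Gens y B M := by
  classical
  unfold h1Gens
  exact Finset.mem_image.mpr ⟨(b, k), Finset.mem_product.mpr ⟨hb, Finset.mem_range.mpr hk⟩, rfl⟩

/-- `Rmid ⊆ Rfin + Rinf + (finitely generated)` in the two-chart situation. -/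
theorem twoChart_fg (Rfin Rinf Rmid : Subalgebra A E) {x y : E} (hx : x ∈ Rfin) (hy : y ∈ Rinf)
    (hxy : x * y = 1)
    (hmid1 : ∀ c ∈ Rmid, ∃ k : ℕ, x ^ k * c ∈ Rfin)
    (B : Finset E) (hBfin : ∀ b ∈ B, b ∈ Rfin)
    (M : ℕ) (hBinf : ∀ b ∈ B, y ^ M * b ∈ Rinf)
    (hB : ∀ r ∈ Rfin, ∃ p : E → Polynomial A, r = ∑ b ∈ B, Polynomial.aeval x (p b) * b) :
    Subalgebra.toSubmodule Rmid ≤
      Subalgebra.toSubmodule Rfin ⊔ Subalgebra.toSubmodule Rinf ⊔
        Submodule.span A (h1Gens y B M : Set E) := by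
  classical
  set S : Submodule A E := Subalgebra.toSubmodule Rfin ⊔ Subalgebra.toSubmodule Rinf ⊔
        Submodule.span A (h1Gens y B M : Set E) with hS
  have hfinS : ∀ z ∈ Rfin, z ∈ S := fun z hz =>
    Submodule.mem_sup_left (Submodule.mem_sup_left hz)
  have hinfS : ∀ z ∈ Rinf, z ∈ S := fun z hz =>
    Submodule.mem_sup_left (Submodule.mem_sup_right hz)
  have hGS : ∀ z ∈ h1Gens y B M, z ∈ S := fun z hz =>
    Submodule.mem_sup_right (Submodule.subset_span hz)
  -- monomials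
  have hmono : ∀ b ∈ B, ∀ (k i : ℕ), y ^ k * x ^ i * b ∈ S := by
    intro b hb k i
    rw [pow_mul_pow_of_mul_eq_one hxy]
    split_ifs with h
    · exact hfinS _ (Rfin.mul_mem (Rfin.pow_mem hx _) (hBfin b hb))
    · by_cases hM : k - i < M
      · exact hGS _ (mem_h1Gens hb hM)
      · push Not at hM
        obtain ⟨j, hj⟩ := Nat.exists_eq_add_of_le hM
        rw [hj, add_comm, pow_add, mul_assoc]
        exact hinfS _ (Rinf.mul_mem (Rinf.pow_mem hy _) (hBinf b hb))
  have hpoly : ∀ b ∈ B, ∀ (k : ℕ) (p : Polynomial A),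
      y ^ k * (Polynomial.aeval x p * b) ∈ S := by
    intro b hb k p
    induction p using Polynomial.induction_on' with
    | add p q hp hq =>
      rw [map_add, add_mul, mul_add]
      exact S.add_mem hp hq
    | monomial i α =>
      rw [Polynomial.aeval_monomial]
      have e : y ^ k * (algebraMap A E α * x ^ i * b) = α • (y ^ k * x ^ i * b) := by
        rw [Algebra.smul_def]; ring
      rw [e]
      exact S.smul_mem α (hmono b hb k i)
  intro c hc
  obtain ⟨k, hk⟩ := hmid1 c hc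
  obtain ⟨p, hp⟩ := hB _ hk
  have hc' : c = y ^ k * (x ^ k * c) := by
    have h1 : y ^ k * x ^ k = 1 := by rw [← mul_pow, mul_comm, hxy, one_pow]
    rw [← mul_assoc, h1, one_mul]
  rw [hc', hp, Finset.mul_sum]
  exact S.sum_mem fun b hb => hpoly b hb k (p b)

/-- A uniform exponent clearing the poles at infinity of a finite set. -/
theorem exists_uniform_pow (Rinf : Subalgebra A E) {y : E} (hy : y ∈ Rinf) (B : Finset E)
    (hB : ∀ b ∈ B, ∃ k : ℕ, y ^ k * b ∈ Rinf) : ∃ M : ℕ, ∀ b ∈ B, y ^ M * b ∈ Rinf := by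
  classical
  induction B using Finset.induction_on with
  | empty => exact ⟨0, fun b hb => absurd hb (Finset.notMem_empty b)⟩
  | insert b B _ ih =>
    obtain ⟨M, hM⟩ := ih (fun c hc => hB c (Finset.mem_insert_of_mem hc))
    obtain ⟨k, hk⟩ := hB b (Finset.mem_insert_self b B)
    refine ⟨M + k, fun c hc => ?_⟩
    rcases Finset.mem_insert.mp hc with rfl | hc
    · rw [pow_add, mul_assoc]
      exact Rinf.mul_mem (Rinf.pow_mem hy _) hk
    · rw [add_comm, pow_add, mul_assoc]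
      exact Rinf.mul_mem (Rinf.pow_mem hy _) (hM c hc)

/-- **KL-CONN, two-chart form.**  `A` a Noetherian local ring with maximal ideal `(π)` (e.g. a
DVR with uniformiser `π`), `A → E` injective; `Rfin ∋ x`, `Rinf ∋ y = 1/x` subalgebras of `E`
with `Rfin ∩ Rinf = A`; `Rmid ⊇ Rfin, Rinf` with `Rmid ⊆ Rfin[1/x]` and `Rmid ⊆ Rinf[x]`;
`Rfin` generated by the finite set `B` as a module over `A[x]`.  If `a ∈ Rfin`, `b ∈ Rinf` are
idempotent modulo `π` and agree modulo `π Rmid`, then both are `0` or both are `1` modulo `π`. -/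
theorem connectedness_twoChart [IsLocalRing A] [IsNoetherianRing A]
    (hinj : Function.Injective (algebraMap A E)) (π : A)
    (hπ : IsLocalRing.maximalIdeal A = Ideal.span {π})
    (Rfin Rinf Rmid : Subalgebra A E) (hfin : Rfin ≤ Rmid) (hinf : Rinf ≤ Rmid)
    (hcap : ∀ y : E, y ∈ Rfin → y ∈ Rinf → ∃ c : A, algebraMap A E c = y)
    {x y : E} (hx : x ∈ Rfin) (hy : y ∈ Rinf) (hxy : x * y = 1)
    (hmid1 : ∀ c ∈ Rmid, ∃ k : ℕ, x ^ k * c ∈ Rfin)
    (hmid2 : ∀ c ∈ Rmid, ∃ k : ℕ, y ^ k * c ∈ Rinf)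
    (B : Finset E) (hBfin : ∀ b ∈ B, b ∈ Rfin)
    (hB : ∀ r ∈ Rfin, ∃ p : E → Polynomial A, r = ∑ b ∈ B, Polynomial.aeval x (p b) * b)
    {a b : E} (ha : a ∈ Rfin) (hb : b ∈ Rinf)
    (ha2 : ∃ r ∈ Rfin, a ^ 2 - a = algebraMap A E π * r)
    (hb2 : ∃ r ∈ Rinf, b ^ 2 - b = algebraMap A E π * r)
    (hab : ∃ r ∈ Rmid, a - b = algebraMap A E π * r) :
    ((∃ r ∈ Rfin, a = algebraMap A E π * r) ∧ (∃ r ∈ Rinf, b = algebraMap A E π * r)) ∨
    ((∃ r ∈ Rfin, a - 1 = algebraMap A E π * r) ∧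
      (∃ r ∈ Rinf, b - 1 = algebraMap A E π * r)) := by
  obtain ⟨M, hM⟩ := exists_uniform_pow Rinf hy B (fun b hb => hmid2 b (hfin (hBfin b hb)))
  exact connectedness_of_fg hinj π hπ Rfin Rinf Rmid hfin hinf hcap (h1Gens y B M)
    (twoChart_fg Rfin Rinf Rmid hx hy hxy hmid1 B hBfin M hM hB) ha hb ha2 hb2 hab

/-- The generation hypothesis of `connectedness_twoChart` from a span over `A[x]`. -/
theorem exists_poly_of_mem_span {x : E} (B : Finset E) {r : E}
    (hr : r ∈ Submodule.span (Algebra.adjoin A {x}) (B : Set E)) :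
    ∃ p : E → Polynomial A, r = ∑ b ∈ B, Polynomial.aeval x (p b) * b := by
  classical
  induction hr using Submodule.span_induction with
  | mem z hz =>
    refine ⟨fun b => if b = z then 1 else 0, ?_⟩
    rw [Finset.sum_eq_single z]
    · simp
    · intro b _ hbz
      simp [hbz]
    · intro hz'
      exact absurd hz hz'
  | zero => exact ⟨fun _ => 0, by simp⟩
  | add u v _ _ hu hv =>
    obtain ⟨p, rfl⟩ := hu
    obtain ⟨q, rfl⟩ := hv
    refine ⟨fun b => p b + q b, ?_⟩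
    rw [← Finset.sum_add_distrib]
    refine Finset.sum_congr rfl fun b _ => ?_
    rw [map_add, add_mul]
  | smul s u _ hu =>
    obtain ⟨p, rfl⟩ := hu
    obtain ⟨s, hs⟩ := s
    have hs' := hs
    rw [Algebra.adjoin_singleton_eq_range_aeval] at hs'
    obtain ⟨g, rfl⟩ := hs'
    refine ⟨fun b => g * p b, ?_⟩
    have e : (⟨Polynomial.aeval x g, hs⟩ : ↥(Algebra.adjoin A {x})) •
        (∑ b ∈ B, Polynomial.aeval x (p b) * b)
        = Polynomial.aeval x g * ∑ b ∈ B, Polynomial.aeval x (p b) * b := rfl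
    refine e.trans ?_
    rw [Finset.mul_sum]
    refine Finset.sum_congr rfl fun b _ => ?_
    rw [map_mul, mul_assoc]

end TwoCharts

end Fermat.Agent.H32
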