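import Fermat.Agent.H22.ES.Interfaces
import Fermat.Agent.H32.KLConn3

/-!
# P-ES / KL-CONN (helper32): helper22's `ConnectednessStatement`

`connectednessStatement : Fermat.Agent.H22.ES.ConnectednessStatement`.
-/

set_option autoImplicit false

namespace Fermat.Agent.H32

/-- The overlap ring `Rfin[1/x]` as a subalgebra. -/
def overlapAlg {A E : Type*} [CommRing A] [CommRing E] [Algebra A E] (Rfin : Subalgebra A E)
    (x : E) (hx : x ∈ Rfin) : Subalgebra A E where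
  carrier := {c | ∃ k : ℕ, x ^ k * c ∈ Rfin}
  mul_mem' := by
    rintro c c' ⟨k, hk⟩ ⟨l, hl⟩
    refine ⟨k + l, ?_⟩
    have e : x ^ (k + l) * (c * c') = (x ^ k * c) * (x ^ l * c') := by rw [pow_add]; ring
    rw [e]
    exact Rfin.mul_mem hk hl
  add_mem' := by
    rintro c c' ⟨k, hk⟩ ⟨l, hl⟩
    refine ⟨k + l, ?_⟩
    have e : x ^ (k + l) * (c + c') = x ^ l * (x ^ k * c) + x ^ k * (x ^ l * c') := by
      rw [pow_add]; ring
    rw [e]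
    exact Rfin.add_mem (Rfin.mul_mem (Rfin.pow_mem hx l) hk)
      (Rfin.mul_mem (Rfin.pow_mem hx k) hl)
  algebraMap_mem' := fun r => ⟨0, by rw [pow_zero, one_mul]; exact Rfin.algebraMap_mem r⟩

theorem mem_overlapAlg {A E : Type*} [CommRing A] [CommRing E] [Algebra A E]
    {Rfin : Subalgebra A E} {x : E} {hx : x ∈ Rfin} {c : E} :
    c ∈ overlapAlg Rfin x hx ↔ ∃ k : ℕ, x ^ k * c ∈ Rfin := Iff.rfl

/-- **KL-CONN** in helper22's shape. -/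
theorem connectednessStatement : Fermat.Agent.H22.ES.ConnectednessStatement := by
  intro A₀ _ _ _ E _ _ hinj ϖ hϖ x hx0 Rfin Rinf hx hy hfinite h1 h2 hcap a ha b hb ha2 hb2 hab
  obtain ⟨s, hsfin, hs⟩ := hfinite
  have hxy : x * x⁻¹ = 1 := mul_inv_cancel₀ hx0
  have hyx : ∀ k : ℕ, x⁻¹ ^ k * x ^ k = 1 := fun k => by
    rw [← mul_pow, inv_mul_cancel₀ hx0, one_pow]
  have hxyk : ∀ k : ℕ, x ^ k * x⁻¹ ^ k = 1 := fun k => by
    rw [← mul_pow, hxy, one_pow]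
  have hfin : Rfin ≤ overlapAlg Rfin x hx := fun c hc =>
    ⟨0, by rw [pow_zero, one_mul]; exact hc⟩
  have hinf : Rinf ≤ overlapAlg Rfin x hx := fun c hc => by
    obtain ⟨n, hn⟩ := h2 c hc
    exact ⟨n, by rw [mul_comm]; exact hn⟩
  have hmid2 : ∀ c ∈ overlapAlg Rfin x hx, ∃ k : ℕ, x⁻¹ ^ k * c ∈ Rinf := by
    rintro c ⟨k, hk⟩
    obtain ⟨n, hn⟩ := h1 _ hk
    refine ⟨n, ?_⟩
    have e : x⁻¹ ^ n * c = x⁻¹ ^ k * (x ^ k * c * x⁻¹ ^ n) := by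
      have := hyx k
      calc x⁻¹ ^ n * c = (x⁻¹ ^ k * x ^ k) * (x⁻¹ ^ n * c) := by rw [this, one_mul]
        _ = x⁻¹ ^ k * (x ^ k * c * x⁻¹ ^ n) := by ring
    rw [e]
    exact Rinf.mul_mem (Rinf.pow_mem hy k) hn
  have hres := connectedness_twoChart (A := A₀) (E := E) hinj ϖ hϖ.maximalIdeal_eq Rfin Rinf
    (overlapAlg Rfin x hx) hfin hinf
    (fun y hy1 hy2 => RingHom.mem_range.mp (hcap y hy1 hy2)) hx hy hxy
    (fun c hc => hc) hmid2 s hsfin (fun r hr => exists_poly_of_mem_span s (hs r hr))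
    ha hb
    (by obtain ⟨c, hc, h⟩ := ha2; exact ⟨c, hc, by rw [sq]; exact h⟩)
    (by obtain ⟨c, hc, h⟩ := hb2; exact ⟨c, hc, by rw [sq]; exact h⟩)
    (by
      obtain ⟨c, hc, n, h⟩ := hab
      refine ⟨c * x⁻¹ ^ n, ⟨n, ?_⟩, h⟩
      have e : x ^ n * (c * x⁻¹ ^ n) = c * (x ^ n * x⁻¹ ^ n) := by ring
      rw [e, hxyk, mul_one]
      exact hc)
  rcases hres with ⟨⟨r, hr, h⟩, ⟨r', hr', h'⟩⟩ | ⟨⟨r, hr, h⟩, ⟨r', hr', h'⟩⟩
  · exact Or.inl ⟨⟨r, hr, h⟩, ⟨r', hr', h'⟩⟩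
  · refine Or.inr ⟨⟨-r, Rfin.neg_mem hr, ?_⟩, ⟨-r', Rinf.neg_mem hr', ?_⟩⟩
    · rw [mul_neg, ← h]; ring
    · rw [mul_neg, ← h']; ring

end Fermat.Agent.H32
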