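import Mathlib

/-!
# P-S52 / WP-B5 (helper32): Manin's count

For a finite field `F` of odd characteristic and a squarefree cubic `f = X³ + aX + b`, the rational
function `x(Φ - P₀) = f · ((f^((q-1)/2) + 1) / (X^q - X))² - X^q - X` (the `x`-coordinate of
`Frobenius(P₀) - P₀` on the twist `f(t) Y² = X³ + aX + b`, `P₀ = (t, 1)`) has, in lowest terms,
numerator of degree `#E(F)` and denominator of degree `#E(F) - 1`, where
`#E(F) = 1 + #{(x, y) : y² = x³ + ax + b}`.
-/

namespace Fermat.Agent.H32

open Polynomial

section ManinCount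

variable {F : Type*} [Field F] [Fintype F]

/-- The cubic `f = X³ + aX + b`. -/
noncomputable def mcCubic (a b : F) : F[X] := X ^ 3 + C a * X + C b

/-- `g = f^(q/2) + 1` (`q/2 = (q-1)/2` for odd `q`). -/
noncomputable def mcG (a b : F) : F[X] := mcCubic a b ^ (Fintype.card F / 2) + 1

/-- `D = X^q - X`. -/
noncomputable def mcD (F : Type*) [Field F] [Fintype F] : F[X] := X ^ Fintype.card F - X

/-- The numerator `f g² - (X^q + X) D²` of `x(Φ - P₀)` over the denominator `D²`. -/
noncomputable def mcNum (a b : F) : F[X] :=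
  mcCubic a b * mcG a b ^ 2 - (X ^ Fintype.card F + X) * mcD F ^ 2

omit [Fintype F] in
lemma mcCubic_eval (a b x : F) : (mcCubic a b).eval x = x ^ 3 + a * x + b := by
  simp [mcCubic]

lemma mcD_eval (x : F) : (mcD F).eval x = 0 := by
  simp [mcD, FiniteField.pow_card]

lemma mcG_eval (a b x : F) :
    (mcG a b).eval x = (x ^ 3 + a * x + b) ^ (Fintype.card F / 2) + 1 := by
  simp [mcG, mcCubic]

lemma mcCubic_pow_card (a b : F) :
    mcCubic a b ^ Fintype.card F =
      X ^ (3 * Fintype.card F) + C a * X ^ Fintype.card F + C b := by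
  rw [← FiniteField.expand_card]
  simp only [mcCubic, map_add, map_mul, map_pow, expand_X, expand_C]
  ring

lemma mc_card_eq (hF : ringChar F ≠ 2) :
    Fintype.card F = 2 * (Fintype.card F / 2) + 1 := by
  have := FiniteField.odd_card_of_char_ne_two hF
  omega

lemma mc_half_pos (hF : ringChar F ≠ 2) : 0 < Fintype.card F / 2 := by
  have h1 := FiniteField.odd_card_of_char_ne_two hF
  have h2 : 1 < Fintype.card F := Fintype.one_lt_card
  omega

/-- Explicit expansion of the numerator. -/
lemma mcNum_expand (hF : ringChar F ≠ 2) (a b : F) :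
    mcNum a b = X ^ (2 * Fintype.card F + 1) +
      (X ^ (Fintype.card F + 2) + C a * X ^ Fintype.card F + C a * X + C (2 * b) +
        2 * mcCubic a b ^ (Fintype.card F / 2 + 1)) := by
  have hq := mc_card_eq hF
  have h1 := mcCubic_pow_card a b
  set q := Fintype.card F with hqdef
  set m := q / 2 with hm
  have h2 : mcCubic a b * mcG a b ^ 2 =
      mcCubic a b ^ q + 2 * mcCubic a b ^ (m + 1) + mcCubic a b := by
    have : mcCubic a b ^ q = mcCubic a b ^ (2 * m + 1) := by rw [← hq]
    rw [this, mcG]
    ring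
  rw [mcNum, h2, h1, mcD]
  simp only [mcCubic, map_mul, map_ofNat]
  ring

end ManinCount

end Fermat.Agent.H32
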