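import Fermat.Agent.H32.S52ManinCount

/-!
# P-S52 / WP-B5 (helper32): Manin's count, part 2 (degree and local structure of the numerator)
-/

namespace Fermat.Agent.H32

open Polynomial

section ManinCount

variable {F : Type*} [Field F] [Fintype F]

omit [Fintype F] in
lemma mc_two_ne_zero (hF : ringChar F ≠ 2) : (2 : F) ≠ 0 :=
  Ring.two_ne_zero hF

lemma natDegree_mcNum (hF : ringChar F ≠ 2) (a b : F) :
    (mcNum a b).natDegree = 2 * Fintype.card F + 1 := by
  have hq := mc_card_eq hF
  have hm := mc_half_pos hF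
  rw [mcNum_expand hF]
  set q := Fintype.card F with hqdef
  set m := q / 2 with hmdef
  have hf : (mcCubic a b).natDegree ≤ 3 := by
    unfold mcCubic
    compute_degree
  have h5 : (2 * mcCubic a b ^ (m + 1)).natDegree ≤ 2 * q := by
    calc (2 * mcCubic a b ^ (m + 1)).natDegree
        ≤ (mcCubic a b ^ (m + 1)).natDegree := by
          have : (2 : F[X]) = C 2 := (map_ofNat C 2).symm
          rw [this]
          exact natDegree_C_mul_le _ _
      _ ≤ (m + 1) * (mcCubic a b).natDegree := natDegree_pow_le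
      _ ≤ (m + 1) * 3 := Nat.mul_le_mul_left _ hf
      _ ≤ 2 * q := by omega
  have h1 : (X ^ (q + 2) : F[X]).natDegree ≤ 2 * q := by
    rw [natDegree_X_pow]; omega
  have h2 : (C a * X ^ q : F[X]).natDegree ≤ 2 * q := by
    refine (natDegree_C_mul_le _ _).trans ?_
    rw [natDegree_X_pow]; omega
  have h3 : (C a * X : F[X]).natDegree ≤ 2 * q := by
    refine (natDegree_C_mul_le _ _).trans ?_
    rw [natDegree_X]; omega
  have h4 : (C (2 * b) : F[X]).natDegree ≤ 2 * q := by
    rw [natDegree_C]; omega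
  have hR : (X ^ (q + 2) + C a * X ^ q + C a * X + C (2 * b) +
      2 * mcCubic a b ^ (m + 1)).natDegree ≤ 2 * q :=
    natDegree_add_le_of_degree_le (natDegree_add_le_of_degree_le
      (natDegree_add_le_of_degree_le (natDegree_add_le_of_degree_le h1 h2) h3) h4) h5
  rw [natDegree_add_eq_left_of_natDegree_lt, natDegree_X_pow]
  rw [natDegree_X_pow]
  omega

lemma mcNum_ne_zero (hF : ringChar F ≠ 2) (a b : F) : mcNum a b ≠ 0 := by
  intro h
  have := natDegree_mcNum hF a b
  rw [h, natDegree_zero] at this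
  omega

lemma mcNum_eval (a b α : F) :
    (mcNum a b).eval α =
      (α ^ 3 + a * α + b) * ((α ^ 3 + a * α + b) ^ (Fintype.card F / 2) + 1) ^ 2 := by
  simp [mcNum, mcG_eval, mcCubic_eval, mcD_eval]

/-- At a point where `f` is a nonzero square the numerator does not vanish. -/
lemma mcNum_eval_ne_zero_of_isSquare (hF : ringChar F ≠ 2) (a b α : F)
    (h0 : α ^ 3 + a * α + b ≠ 0) (hsq : IsSquare (α ^ 3 + a * α + b)) :
    (mcNum a b).eval α ≠ 0 := by
  rw [mcNum_eval, (FiniteField.isSquare_iff hF h0).mp hsq]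
  have h2 := mc_two_ne_zero hF
  refine mul_ne_zero h0 (pow_ne_zero _ ?_)
  norm_num
  exact h2

/-- At a point where `f` is not a square the numerator vanishes to order at least 2. -/
lemma sq_dvd_mcNum_of_not_isSquare (hF : ringChar F ≠ 2) (a b α : F)
    (hsq : ¬ IsSquare (α ^ 3 + a * α + b)) :
    (X - C α) ^ 2 ∣ mcNum a b := by
  have h0 : α ^ 3 + a * α + b ≠ 0 := by
    intro h
    exact hsq (h ▸ IsSquare.zero)
  have hpow : (α ^ 3 + a * α + b) ^ (Fintype.card F / 2) = -1 := by
    rcases FiniteField.pow_dichotomy hF h0 with h | h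
    · exact absurd ((FiniteField.isSquare_iff hF h0).mpr h) hsq
    · exact h
  have hg : (X - C α) ∣ mcG a b := by
    rw [dvd_iff_isRoot, IsRoot, mcG_eval, hpow]
    ring
  have hd : (X - C α) ∣ mcD F := by
    rw [dvd_iff_isRoot, IsRoot, mcD_eval]
  unfold mcNum
  exact dvd_sub (dvd_mul_of_dvd_right (pow_dvd_pow_of_dvd hg 2) _)
    (dvd_mul_of_dvd_right (pow_dvd_pow_of_dvd hd 2) _)

/-- At a root of `f` the numerator has a simple zero (uses `4a³ + 27b² ≠ 0`). -/
lemma mcNum_factor_of_root (hF : ringChar F ≠ 2) (a b α : F)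
    (hΔ : 4 * a ^ 3 + 27 * b ^ 2 ≠ 0) (h0 : α ^ 3 + a * α + b = 0) :
    ∃ M : F[X], mcNum a b = (X - C α) * M ∧ M.eval α ≠ 0 := by
  have hm := mc_half_pos hF
  obtain ⟨D₁, hD₁⟩ : (X - C α) ∣ mcD F := by
    rw [dvd_iff_isRoot, IsRoot, mcD_eval]
  have hb : b = -(α ^ 3 + a * α) := by linear_combination h0
  have hf : mcCubic a b = (X - C α) * (X ^ 2 + C α * X + C (α ^ 2 + a)) := by
    rw [mcCubic, hb]
    simp only [map_neg, map_add, map_mul, map_pow]
    ring
  refine ⟨(X ^ 2 + C α * X + C (α ^ 2 + a)) * mcG a b ^ 2 -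
      (X ^ Fintype.card F + X) * ((X - C α) * D₁ ^ 2), ?_, ?_⟩
  · rw [mcNum, hD₁]
    nth_rewrite 1 [hf]
    ring
  · have hg : (mcG a b).eval α = 1 := by
      rw [mcG_eval, h0, zero_pow hm.ne', zero_add]
    simp only [eval_sub, eval_mul, eval_add, eval_pow, eval_X, eval_C, hg, sub_self, zero_mul,
      mul_zero, sub_zero, one_pow, mul_one]
    intro h
    apply hΔ
    have ha : a = -(3 * α ^ 2) := by linear_combination h
    rw [hb, ha]
    ring

end ManinCount

end Fermat.Agent.H32
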