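import Fermat.Agent.H32.S52ManinCount2

/-!
# P-S52 / WP-B5 (helper32): Manin's count, part 3 (lowest terms and the count)
-/

namespace Fermat.Agent.H32

open Polynomial

section General

variable {K : Type*} [Field K]

/-- Degrees of numerator and denominator of a rational function given in coprime form. -/
lemma ratfunc_natDegree_of_isCoprime (p q : K[X]) (hp : p ≠ 0) (hq : q ≠ 0)
    (hpq : IsCoprime p q) :
    (RatFunc.num (algebraMap K[X] (RatFunc K) p / algebraMap K[X] (RatFunc K) q)).natDegree =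
        p.natDegree ∧
      (RatFunc.denom (algebraMap K[X] (RatFunc K) p / algebraMap K[X] (RatFunc K) q)).natDegree =
        q.natDegree := by
  set x := algebraMap K[X] (RatFunc K) p / algebraMap K[X] (RatFunc K) q with hx
  have hcross : x.num * q = p * x.denom := (RatFunc.num_mul_eq_mul_denom_iff hq).mpr hx
  have hxc : IsCoprime x.num x.denom := RatFunc.isCoprime_num_denom x
  have hd0 : x.denom ≠ 0 := RatFunc.denom_ne_zero x
  have hx0 : x ≠ 0 := by
    rw [hx]
    refine div_ne_zero ?_ ?_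
    · simpa using hp
    · simpa using hq
  have hn0 : x.num ≠ 0 := RatFunc.num_ne_zero hx0
  have h1 : p ∣ x.num := hpq.dvd_of_dvd_mul_right (Dvd.intro _ hcross.symm)
  have h2 : x.num ∣ p := hxc.dvd_of_dvd_mul_right (Dvd.intro _ hcross)
  have h3 : q ∣ x.denom := by
    refine hpq.symm.dvd_of_dvd_mul_left ?_
    exact Dvd.intro_left _ hcross
  have h4 : x.denom ∣ q := by
    refine hxc.symm.dvd_of_dvd_mul_left ?_
    exact Dvd.intro_left _ hcross.symm
  exact ⟨le_antisymm (natDegree_le_of_dvd h2 hp) (natDegree_le_of_dvd h1 hn0),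
    le_antisymm (natDegree_le_of_dvd h4 hq) (natDegree_le_of_dvd h3 hd0)⟩

end General

section ManinCount

variable {F : Type*} [Field F] [Fintype F]

open Classical in
/-- The local cancellation exponent at `α`: `1` at a root of `f`, `0` where `f` is a nonzero
square, `2` where `f` is not a square. -/
noncomputable def mcExp (a b α : F) : ℕ :=
  if α ^ 3 + a * α + b = 0 then 1 else if IsSquare (α ^ 3 + a * α + b) then 0 else 2

lemma mcExp_le_two (a b α : F) : mcExp a b α ≤ 2 := by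
  unfold mcExp
  split_ifs <;> omega

/-- The common factor `G = ∏ (X - α)^c(α)`. -/
noncomputable def mcGcd (a b : F) : F[X] := ∏ α : F, (X - C α) ^ mcExp a b α

/-- The reduced denominator `D' = ∏ (X - α)^(2 - c(α))`. -/
noncomputable def mcDen (a b : F) : F[X] := ∏ α : F, (X - C α) ^ (2 - mcExp a b α)

lemma mcD_eq_prod : mcD F = ∏ α : F, (X - C α) := by
  have hroots : (mcD F).roots = Finset.univ.val := FiniteField.roots_X_pow_card_sub_X F
  have hmonic : (mcD F).Monic := by
    unfold mcD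
    exact monic_X_pow_sub (by
      rw [degree_X]
      exact_mod_cast Fintype.one_lt_card)
  have hcard : Multiset.card (mcD F).roots = (mcD F).natDegree := by
    rw [hroots, mcD, FiniteField.X_pow_card_sub_X_natDegree_eq F Fintype.one_lt_card]
    simp
  have := prod_multiset_X_sub_C_of_monic_of_roots_card_eq hmonic hcard
  rw [hroots] at this
  rw [← this]
  rfl

lemma mcD_sq_eq (a b : F) : mcD F ^ 2 = mcGcd a b * mcDen a b := by
  rw [mcD_eq_prod, mcGcd, mcDen, ← Finset.prod_mul_distrib, ← Finset.prod_pow]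
  refine Finset.prod_congr rfl fun α _ => ?_
  rw [← pow_add]
  congr 1
  have := mcExp_le_two a b α
  omega

lemma mcGcd_ne_zero (a b : F) : mcGcd a b ≠ 0 := by
  unfold mcGcd
  exact Finset.prod_ne_zero_iff.mpr fun α _ => pow_ne_zero _ (X_sub_C_ne_zero α)

lemma mcDen_ne_zero (a b : F) : mcDen a b ≠ 0 := by
  unfold mcDen
  exact Finset.prod_ne_zero_iff.mpr fun α _ => pow_ne_zero _ (X_sub_C_ne_zero α)

lemma mcGcd_dvd_mcNum (hF : ringChar F ≠ 2) (a b : F) (hΔ : 4 * a ^ 3 + 27 * b ^ 2 ≠ 0) :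
    mcGcd a b ∣ mcNum a b := by
  unfold mcGcd
  refine Finset.prod_dvd_of_coprime ?_ ?_
  · intro α _ β _ hαβ
    exact (pairwise_coprime_X_sub_C (fun x y h => h) hαβ).pow
  · intro α _
    unfold mcExp
    split_ifs with h0 hsq
    · obtain ⟨M, hM, -⟩ := mcNum_factor_of_root hF a b α hΔ h0
      rw [pow_one, hM]
      exact dvd_mul_right _ _
    · simp
    · exact sq_dvd_mcNum_of_not_isSquare hF a b α hsq

/-- The reduced numerator. -/
noncomputable def mcRedNum (a b : F) : F[X] := mcNum a b / mcGcd a b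

lemma mcNum_eq (hF : ringChar F ≠ 2) (a b : F) (hΔ : 4 * a ^ 3 + 27 * b ^ 2 ≠ 0) :
    mcNum a b = mcGcd a b * mcRedNum a b := by
  unfold mcRedNum
  exact (EuclideanDomain.mul_div_cancel' (mcGcd_ne_zero a b) (mcGcd_dvd_mcNum hF a b hΔ)).symm

lemma mcRedNum_ne_zero (hF : ringChar F ≠ 2) (a b : F) (hΔ : 4 * a ^ 3 + 27 * b ^ 2 ≠ 0) :
    mcRedNum a b ≠ 0 := by
  intro h
  have := mcNum_eq hF a b hΔ
  rw [h, mul_zero] at this
  exact mcNum_ne_zero hF a b this

/-- The value at `α` of the product of the other factors of `G`. -/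
lemma mcGcd_split (a b α : F) :
    ∃ G₁ : F[X], mcGcd a b = (X - C α) ^ mcExp a b α * G₁ ∧ G₁.eval α ≠ 0 := by
  classical
  refine ⟨∏ β ∈ Finset.univ.erase α, (X - C β) ^ mcExp a b β, ?_, ?_⟩
  · unfold mcGcd
    exact (Finset.mul_prod_erase Finset.univ (fun β => (X - C β) ^ mcExp a b β)
      (Finset.mem_univ α)).symm
  · rw [eval_prod]
    refine Finset.prod_ne_zero_iff.mpr fun β hβ => ?_
    have hβα : β ≠ α := Finset.ne_of_mem_erase hβ
    simp only [eval_pow, eval_sub, eval_X, eval_C]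
    exact pow_ne_zero _ (sub_ne_zero.mpr (Ne.symm hβα))

lemma mcRedNum_eval_ne_zero (hF : ringChar F ≠ 2) (a b : F) (hΔ : 4 * a ^ 3 + 27 * b ^ 2 ≠ 0)
    (α : F) (hα : mcExp a b α < 2) : (mcRedNum a b).eval α ≠ 0 := by
  obtain ⟨G₁, hG₁, hG₁α⟩ := mcGcd_split a b α
  have hN := mcNum_eq hF a b hΔ
  unfold mcExp at hα hG₁
  split_ifs at hα hG₁ with h0 hsq
  · -- simple root
    obtain ⟨M, hM, hMα⟩ := mcNum_factor_of_root hF a b α hΔ h0
    rw [hG₁, hM, pow_one, mul_assoc] at hN
    have hM' : M = G₁ * mcRedNum a b := mul_left_cancel₀ (X_sub_C_ne_zero α) hN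
    intro h
    apply hMα
    rw [hM', eval_mul, h, mul_zero]
  · -- nonzero square
    have hne := mcNum_eval_ne_zero_of_isSquare hF a b α h0 hsq
    intro h
    apply hne
    rw [hN, eval_mul, h, mul_zero]
  · omega

lemma isCoprime_mcRedNum_mcDen (hF : ringChar F ≠ 2) (a b : F)
    (hΔ : 4 * a ^ 3 + 27 * b ^ 2 ≠ 0) : IsCoprime (mcRedNum a b) (mcDen a b) := by
  unfold mcDen
  refine IsCoprime.prod_right fun α _ => ?_
  by_cases hα : mcExp a b α < 2
  · refine IsCoprime.pow_right ?_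
    refine ((irreducible_X_sub_C α).coprime_iff_not_dvd.mpr ?_).symm
    rw [dvd_iff_isRoot]
    exact mcRedNum_eval_ne_zero hF a b hΔ α hα
  · have : 2 - mcExp a b α = 0 := by omega
    rw [this, pow_zero]
    exact isCoprime_one_right

lemma natDegree_mcGcd (a b : F) : (mcGcd a b).natDegree = ∑ α : F, mcExp a b α := by
  unfold mcGcd
  rw [natDegree_prod_of_monic _ _ (fun α _ => (monic_X_sub_C α).pow _)]
  refine Finset.sum_congr rfl fun α _ => ?_
  rw [natDegree_pow, natDegree_X_sub_C, mul_one]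

lemma natDegree_mcDen (a b : F) : (mcDen a b).natDegree = ∑ α : F, (2 - mcExp a b α) := by
  unfold mcDen
  rw [natDegree_prod_of_monic _ _ (fun α _ => (monic_X_sub_C α).pow _)]
  refine Finset.sum_congr rfl fun α _ => ?_
  rw [natDegree_pow, natDegree_X_sub_C, mul_one]

lemma natDegree_mcRedNum (hF : ringChar F ≠ 2) (a b : F) (hΔ : 4 * a ^ 3 + 27 * b ^ 2 ≠ 0) :
    (mcRedNum a b).natDegree = (∑ α : F, (2 - mcExp a b α)) + 1 := by
  have h1 := natDegree_mcNum hF a b
  rw [mcNum_eq hF a b hΔ, natDegree_mul (mcGcd_ne_zero a b) (mcRedNum_ne_zero hF a b hΔ),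
    natDegree_mcGcd] at h1
  have h2 : (∑ α : F, mcExp a b α) + ∑ α : F, (2 - mcExp a b α) = 2 * Fintype.card F := by
    rw [← Finset.sum_add_distrib]
    have : ∀ α : F, mcExp a b α + (2 - mcExp a b α) = 2 := fun α => by
      have := mcExp_le_two a b α
      omega
    simp [this, mul_comm]
  omega

/-- The rational function `x(Φ - P₀) = f (g / D)² - X^q - X`. -/
noncomputable def mcRat (a b : F) : RatFunc F :=
  algebraMap F[X] (RatFunc F) (mcNum a b) / algebraMap F[X] (RatFunc F) (mcD F ^ 2)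

lemma mcRat_eq (a b : F) :
    mcRat a b = algebraMap F[X] (RatFunc F) (mcCubic a b) *
        (algebraMap F[X] (RatFunc F) (mcG a b) / algebraMap F[X] (RatFunc F) (mcD F)) ^ 2 -
      (RatFunc.X ^ Fintype.card F + RatFunc.X) := by
  have hD : algebraMap F[X] (RatFunc F) (mcD F) ≠ 0 := by
    refine RatFunc.algebraMap_ne_zero ?_
    unfold mcD
    exact FiniteField.X_pow_card_sub_X_ne_zero F Fintype.one_lt_card
  rw [mcRat, mcNum]
  simp only [map_sub, map_mul, map_pow, map_add, RatFunc.algebraMap_X]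
  field_simp

lemma mcRat_eq_red (hF : ringChar F ≠ 2) (a b : F) (hΔ : 4 * a ^ 3 + 27 * b ^ 2 ≠ 0) :
    mcRat a b = algebraMap F[X] (RatFunc F) (mcRedNum a b) /
      algebraMap F[X] (RatFunc F) (mcDen a b) := by
  have hG : algebraMap F[X] (RatFunc F) (mcGcd a b) ≠ 0 :=
    RatFunc.algebraMap_ne_zero (mcGcd_ne_zero a b)
  rw [mcRat, mcNum_eq hF a b hΔ, mcD_sq_eq a b, map_mul, map_mul, mul_div_mul_left _ _ hG]

/-- **Manin's count**, polynomial form: in lowest terms, `x(Φ - P₀)` has numerator of degree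
`1 + ∑_α (2 - c(α))` and denominator of degree `∑_α (2 - c(α))`. -/
theorem mcRat_natDegree (hF : ringChar F ≠ 2) (a b : F) (hΔ : 4 * a ^ 3 + 27 * b ^ 2 ≠ 0) :
    (mcRat a b).num.natDegree = (∑ α : F, (2 - mcExp a b α)) + 1 ∧
      (mcRat a b).denom.natDegree = ∑ α : F, (2 - mcExp a b α) := by
  rw [mcRat_eq_red hF a b hΔ]
  obtain ⟨h1, h2⟩ := ratfunc_natDegree_of_isCoprime (mcRedNum a b) (mcDen a b)
    (mcRedNum_ne_zero hF a b hΔ) (mcDen_ne_zero a b) (isCoprime_mcRedNum_mcDen hF a b hΔ)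
  rw [h1, h2, natDegree_mcRedNum hF a b hΔ, natDegree_mcDen]
  exact ⟨rfl, rfl⟩

end ManinCount

end Fermat.Agent.H32
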