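import Fermat.Agent.H32.S52ManinCount3
import Fermat.Prelude.Def_FLTPrelim_Modularity

/-!
# P-S52 / WP-B5 (helper32): Manin's count, part 4 (point count)

Final statements:
* `manin_count` : `num`/`denom` degrees of `x(Φ - P₀)` in terms of the number of affine solutions;
* `manin_count_card` : the same in terms of `WeierstrassCurve.card` (prelude) of a short
  Weierstrass curve;
* `manin_count_trace` : `traceOfFrobenius = q + 1 - natDegree (num x(Φ - P₀))`.
-/

namespace Fermat.Agent.H32

open Polynomial

section ManinCount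

variable {F : Type*} [Field F] [Fintype F]

open Classical in
/-- Number of square roots of `c` in a finite field of odd characteristic. -/
lemma mc_card_sqrt (hF : ringChar F ≠ 2) (c : F) :
    Fintype.card {y : F // y ^ 2 = c} =
      if c = 0 then 1 else if IsSquare c then 2 else 0 := by
  split_ifs with h0 hsq
  · subst h0
    rw [Fintype.card_eq_one_iff]
    refine ⟨⟨0, by simp⟩, fun y => ?_⟩
    apply Subtype.ext
    simpa using y.2
  · obtain ⟨s, rfl⟩ := hsq
    have hs : s ≠ 0 := by
      rintro rfl
      simp at h0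
    have h2 := mc_two_ne_zero hF
    have hne : s ≠ -s := by
      intro h
      have : (2 : F) * s = 0 := by linear_combination h
      rcases mul_eq_zero.mp this with h | h
      · exact h2 h
      · exact hs h
    rw [Fintype.card_subtype]
    have : (Finset.univ.filter fun y : F => y ^ 2 = s * s) = {s, -s} := by
      ext y
      simp only [Finset.mem_filter, Finset.mem_univ, true_and, Finset.mem_insert,
        Finset.mem_singleton]
      constructor
      · intro h
        have : (y - s) * (y + s) = 0 := by linear_combination h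
        rcases mul_eq_zero.mp this with h | h
        · left; linear_combination h
        · right; linear_combination h
      · rintro (rfl | rfl) <;> ring
    rw [this, Finset.card_pair hne]
  · rw [Fintype.card_eq_zero_iff]
    refine ⟨fun y => hsq ⟨y.1, ?_⟩⟩
    have := y.2
    rw [pow_two] at this
    exact this.symm

open Classical in
lemma mc_card_sqrt_eq (hF : ringChar F ≠ 2) (a b α : F) :
    Fintype.card {y : F // y ^ 2 = α ^ 3 + a * α + b} = 2 - mcExp a b α := by
  rw [mc_card_sqrt hF, mcExp]
  split_ifs <;> rfl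

open Classical in
/-- The number of affine solutions of `y² = x³ + ax + b` is `∑_α (2 - c(α))`. -/
lemma mc_card_affine (hF : ringChar F ≠ 2) (a b : F) :
    Nat.card {p : F × F // p.2 ^ 2 = p.1 ^ 3 + a * p.1 + b} = ∑ α : F, (2 - mcExp a b α) := by
  rw [Nat.card_eq_fintype_card,
    Fintype.card_congr (Equiv.subtypeProdEquivSigmaSubtype
      (fun (x y : F) => y ^ 2 = x ^ 3 + a * x + b)), Fintype.card_sigma]
  refine Finset.sum_congr rfl fun α _ => ?_
  rw [← mc_card_sqrt_eq hF a b α]

/-- **Manin's count** (P-S52 / WP-B5). For a finite field `F` of odd characteristic and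
`4a³ + 27b² ≠ 0`, the rational function
`x(Φ - P₀) = f (g / D)² - X^q - X` (`f = X³ + aX + b`, `g = f^(q/2) + 1`, `D = X^q - X`)
has numerator of degree `n + 1` and denominator of degree `n`, where `n` is the number of affine
solutions of `y² = x³ + ax + b` over `F`. -/
theorem manin_count (hF : ringChar F ≠ 2) (a b : F) (hΔ : 4 * a ^ 3 + 27 * b ^ 2 ≠ 0) :
    (mcRat a b).num.natDegree =
        Nat.card {p : F × F // p.2 ^ 2 = p.1 ^ 3 + a * p.1 + b} + 1 ∧
      (mcRat a b).denom.natDegree =
        Nat.card {p : F × F // p.2 ^ 2 = p.1 ^ 3 + a * p.1 + b} := by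
  rw [mc_card_affine hF]
  exact mcRat_natDegree hF a b hΔ

/-- The number of points (including the point at infinity) of the short Weierstrass curve
`y² = x³ + ax + b` with nonzero discriminant. -/
lemma mc_card_point (W : WeierstrassCurve F) (h1 : W.a₁ = 0)
    (h2 : W.a₂ = 0) (h3 : W.a₃ = 0) (hΔ : W.Δ ≠ 0) :
    Nat.card W.toAffine.Point =
      Nat.card {p : F × F // p.2 ^ 2 = p.1 ^ 3 + W.a₄ * p.1 + W.a₆} + 1 := by
  classical
  rw [Nat.card_congr (WeierstrassCurve.Affine.nonsingularPointEquiv (W' := W.toAffine))]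
  change Nat.card (Option {xy : F × F // W.toAffine.Nonsingular xy.1 xy.2}) = _
  rw [Finite.card_option]
  congr 1
  refine Nat.card_congr (Equiv.subtypeEquivRight fun p => ?_)
  rw [← WeierstrassCurve.Affine.equation_iff_nonsingular_of_Δ_ne_zero hΔ,
    WeierstrassCurve.Affine.equation_iff, h1, h2, h3]
  constructor
  · intro h; linear_combination h
  · intro h; linear_combination h

omit [Fintype F] in
/-- The discriminant condition for a short Weierstrass curve. -/
lemma mc_disc_ne_zero (W : WeierstrassCurve F) (h1 : W.a₁ = 0)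
    (h2 : W.a₂ = 0) (h3 : W.a₃ = 0) (hΔ : W.Δ ≠ 0) :
    4 * W.a₄ ^ 3 + 27 * W.a₆ ^ 2 ≠ 0 := by
  intro h
  apply hΔ
  simp only [WeierstrassCurve.Δ, WeierstrassCurve.b₂, WeierstrassCurve.b₄, WeierstrassCurve.b₆,
    WeierstrassCurve.b₈, h1, h2, h3]
  linear_combination (-16 : F) * h

/-- **Manin's count**, in terms of the prelude's `WeierstrassCurve.card`. -/
theorem manin_count_card (hF : ringChar F ≠ 2) (W : WeierstrassCurve F) (h1 : W.a₁ = 0)
    (h2 : W.a₂ = 0) (h3 : W.a₃ = 0) (hΔ : W.Δ ≠ 0) :
    (mcRat W.a₄ W.a₆).num.natDegree = W.card ∧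
      (mcRat W.a₄ W.a₆).denom.natDegree + 1 = W.card := by
  obtain ⟨hn, hd⟩ := manin_count hF W.a₄ W.a₆ (mc_disc_ne_zero W h1 h2 h3 hΔ)
  rw [WeierstrassCurve.card, mc_card_point W h1 h2 h3 hΔ, hn, hd]
  exact ⟨rfl, rfl⟩

/-- **Manin's count**, in terms of the prelude's `traceOfFrobenius`:
`a_q = q + 1 - deg x(Φ - P₀)`. -/
theorem manin_count_trace (hF : ringChar F ≠ 2) (W : WeierstrassCurve F) (h1 : W.a₁ = 0)
    (h2 : W.a₂ = 0) (h3 : W.a₃ = 0) (hΔ : W.Δ ≠ 0) :
    ((mcRat W.a₄ W.a₆).num.natDegree : ℤ) = (Nat.card F : ℤ) + 1 - W.traceOfFrobenius := by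
  rw [WeierstrassCurve.traceOfFrobenius, (manin_count_card hF W h1 h2 h3 hΔ).1]
  ring

end ManinCount

end Fermat.Agent.H32
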