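import Fermat.Agent.H32.S52ManinCount4

/-!
# P-S52 / WP-B5 (helper32): Manin's count, export in the shape requested by helper40

`max num.natDegree denom.natDegree = Nat.card E(F)` for the explicit fraction
`(f g² - (X^q + X) D²) / D²`.
-/

namespace Fermat.Agent.H32

open Polynomial

section ManinCount

variable {F : Type*} [Field F] [Fintype F]

omit [Fintype F] in
lemma mc_ringChar_ne_two (h2 : (2 : F) ≠ 0) : ringChar F ≠ 2 := by
  intro h
  apply h2
  have := ringChar.Nat.cast_ringChar (R := F)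
  rw [h] at this
  exact_mod_cast this

/-- Export (ratDeg form, in terms of `mcRat`). -/
theorem manin_count_max (h2 : (2 : F) ≠ 0) (a b : F)
    (hΔ : (⟨0, 0, 0, a, b⟩ : WeierstrassCurve F).Δ ≠ 0) :
    max (mcRat a b).num.natDegree (mcRat a b).denom.natDegree =
      Nat.card (WeierstrassCurve.toAffine ⟨0, 0, 0, a, b⟩).Point := by
  have hF := mc_ringChar_ne_two h2
  obtain ⟨hn, hd⟩ := manin_count_card hF (⟨0, 0, 0, a, b⟩ : WeierstrassCurve F) rfl rfl rfl hΔ
  change (mcRat a b).num.natDegree = _ at hn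
  change (mcRat a b).denom.natDegree + 1 = _ at hd
  rw [WeierstrassCurve.card] at hn hd
  rw [← hn]
  have : (mcRat a b).denom.natDegree ≤ (mcRat a b).num.natDegree := by omega
  exact max_eq_left this

/-- Export, fully unfolded: with `q = card F`, `f = X³ + aX + b`, `g = f^(q/2) + 1`,
`D = X^q - X`, `NUM = f g² - (X^q + X) D²` and `r = NUM / D²`:
`max (deg num r) (deg denom r) = #E(F)`. -/
theorem manin_count_max' (h2 : (2 : F) ≠ 0) (a b : F)
    (hΔ : (⟨0, 0, 0, a, b⟩ : WeierstrassCurve F).Δ ≠ 0) :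
    max
      (algebraMap F[X] (RatFunc F)
          ((X ^ 3 + C a * X + C b) * ((X ^ 3 + C a * X + C b) ^ (Fintype.card F / 2) + 1) ^ 2 -
            (X ^ Fintype.card F + X) * (X ^ Fintype.card F - X) ^ 2) /
        algebraMap F[X] (RatFunc F) ((X ^ Fintype.card F - X) ^ 2)).num.natDegree
      (algebraMap F[X] (RatFunc F)
          ((X ^ 3 + C a * X + C b) * ((X ^ 3 + C a * X + C b) ^ (Fintype.card F / 2) + 1) ^ 2 -
            (X ^ Fintype.card F + X) * (X ^ Fintype.card F - X) ^ 2) /
        algebraMap F[X] (RatFunc F) ((X ^ Fintype.card F - X) ^ 2)).denom.natDegree =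
      Nat.card (WeierstrassCurve.toAffine ⟨0, 0, 0, a, b⟩).Point :=
  manin_count_max h2 a b hΔ

/-- The same with the hypothesis `4a³ + 27b² ≠ 0`. -/
theorem manin_count_max'' (h2 : (2 : F) ≠ 0) (a b : F) (hΔ : 4 * a ^ 3 + 27 * b ^ 2 ≠ 0) :
    max (mcRat a b).num.natDegree (mcRat a b).denom.natDegree =
      Nat.card (WeierstrassCurve.toAffine ⟨0, 0, 0, a, b⟩).Point := by
  refine manin_count_max h2 a b ?_
  simp only [WeierstrassCurve.Δ, WeierstrassCurve.b₂, WeierstrassCurve.b₄, WeierstrassCurve.b₆,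
    WeierstrassCurve.b₈]
  intro h
  apply hΔ
  have h16 : (16 : F) ≠ 0 := by
    have : (16 : F) = 2 ^ 4 := by norm_num
    rw [this]
    exact pow_ne_zero _ h2
  have : (16 : F) * (4 * a ^ 3 + 27 * b ^ 2) = 0 := by linear_combination -h
  rcases mul_eq_zero.mp this with h' | h'
  · exact absurd h' h16
  · exact h'

end ManinCount

end Fermat.Agent.H32
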